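import Fermat.Agent.TateSen.Tower
import Fermat.Agent.Transcendence.BrumerLog

/-!
# The logarithm of the cyclotomic character and the tower of its kernels
-/

set_option autoImplicit false
set_option linter.unusedSectionVars false

noncomputable section

open Finset UniformSpace Filter FA.Brumer
open scoped Topology

namespace FA.TateSen

variable {p : ℕ} [hp : Fact p.Prime]

local notation "Ω" => PadicAlgCl p
local notation "G" => PadicAlgCl p ≃ₐ[ℚ_[p]] PadicAlgCl p

variable (p) in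
/-- The exponent bringing the units into the disc of the logarithm. -/
def logExp : ℕ := Nat.totient (p ^ 3)

theorem logExp_pos : 0 < logExp p := Nat.totient_pos.2 (pow_pos hp.out.pos 3)

theorem norm_chi_pow_sub_one (σ : G) :
    ‖(((chi p σ : ℤ_[p]) : ℚ_[p])) ^ logExp p - 1‖ ≤ rad p := by
  have : NeZero (p ^ 3) := ⟨pow_ne_zero _ hp.out.ne_zero⟩
  have h : ((chi p σ : ℤ_[p]) ^ logExp p).toZModPow 3 = ((1 : ℕ) : ZMod (p ^ 3)) := by
    have h1 := congrArg Units.val (ZMod.pow_totient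
      (Units.map (PadicInt.toZModPow (p := p) 3).toMonoidHom (chi p σ)))
    rw [Units.val_pow_eq_pow_val, Units.val_one] at h1
    rw [map_pow, Nat.cast_one]
    exact h1
  rw [toZModPow_eq_iff, PadicInt.coe_pow, Nat.cast_one, Padic.norm_p, inv_pow] at h
  exact h

variable (p) in
/-- **The logarithm of the cyclotomic character.** -/
def logChi (σ : G) : ℚ_[p] :=
  plog p ((((chi p σ : ℤ_[p]) : ℚ_[p])) ^ logExp p) / (logExp p : ℚ_[p])

theorem logChi_mul (σ τ : G) : logChi p (σ * τ) = logChi p σ + logChi p τ := by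
  rw [logChi, logChi, logChi, map_mul, Units.val_mul, PadicInt.coe_mul, mul_pow,
    plog_mul (norm_chi_pow_sub_one σ) (norm_chi_pow_sub_one τ), add_div]

theorem norm_plog_le_dist {z : ℚ_[p]} (h : ‖z - 1‖ ≤ rad p) : ‖plog p z‖ ≤ ‖z - 1‖ := by
  have h1 := norm_pexp_sub_le (p := p) (norm_plog_le (p := p) z)
  rw [pexp_plog h] at h1
  set x := plog p z
  by_contra hlt
  have hx : ‖x‖ ≤ max ‖z - 1‖ ((p : ℝ)⁻¹ * ‖x‖) := by
    have e : x = (z - 1) + -(z - 1 - x) := by ring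
    conv_lhs => rw [e]
    refine (IsUltrametricDist.norm_add_le_max _ _).trans (max_le_max le_rfl ?_)
    rw [norm_neg]
    exact h1
  have h2 : (p : ℝ)⁻¹ * ‖x‖ < ‖x‖ := mul_lt_of_lt_one_left
    ((norm_nonneg _).trans_lt (not_le.1 hlt))
    (inv_lt_one_of_one_lt₀ (by exact_mod_cast hp.out.one_lt))
  exact absurd hx (not_le.2 (max_lt (not_le.1 hlt) h2))

theorem continuous_logChi : Continuous (logChi p : G → ℚ_[p]) := by
  rw [continuous_iff_continuousAt]
  intro σ
  rw [ContinuousAt, tendsto_iff_norm_sub_tendsto_zero]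
  set φ : G → ℝ := fun τ =>
    ‖(((chi p (σ⁻¹ * τ) : ℤ_[p]) : ℚ_[p])) ^ logExp p - 1‖ / ‖(logExp p : ℚ_[p])‖
  have h1 : Continuous fun τ : G => (chi p (σ⁻¹ * τ) : ℤ_[p]) :=
    Units.continuous_val.comp (continuous_chi.comp (continuous_const.mul continuous_id))
  have h2 : Continuous fun τ : G => ((chi p (σ⁻¹ * τ) : ℤ_[p]) : ℚ_[p]) :=
    continuous_subtype_val.comp h1
  have hφ : Continuous φ := (((h2.pow _).sub continuous_const).norm).div_const _
  refine squeeze_zero (fun τ => norm_nonneg _) (fun τ => ?_) ((hφ.tendsto σ).trans_eq ?_)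
  · have e : logChi p τ - logChi p σ = logChi p (σ⁻¹ * τ) := by
      have := logChi_mul σ (σ⁻¹ * τ)
      rw [mul_inv_cancel_left] at this
      rw [this, add_sub_cancel_left]
    rw [e, logChi, norm_div]
    exact div_le_div_of_nonneg_right (norm_plog_le_dist (norm_chi_pow_sub_one _)) (norm_nonneg _)
  · simp only [φ, inv_mul_cancel, map_one, Units.val_one, PadicInt.coe_one, one_pow, sub_self,
      norm_zero, zero_div]

variable (p) in
/-- The subgroup fixing the roots of unity of order dividing `p ^ n`. -/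
def levelGal (n : ℕ) : Subgroup G := (cycLevel p n).fixingSubgroup

theorem ker_le_levelGal (n : ℕ) : (cycInf p).fixingSubgroup ≤ levelGal p n :=
  IntermediateField.fixingSubgroup_antitone (cycLevel_le_cycInf n)

theorem levelGal_normal (n : ℕ) : (levelGal p n).Normal := by
  refine ⟨fun u hu g => ?_⟩
  rw [levelGal, IntermediateField.mem_fixingSubgroup_iff] at hu ⊢
  intro y hy
  rw [AlgEquiv.mul_apply, AlgEquiv.mul_apply, hu _ (gal_mem_cycLevel g⁻¹ hy), ← AlgEquiv.mul_apply,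
    mul_inv_cancel, AlgEquiv.one_apply]

theorem isOpen_levelGal (n : ℕ) : IsOpen (levelGal p n : Set G) :=
  (cycLevel p n).fixingSubgroup_isOpen

theorem mem_levelGal_of_root {n : ℕ} {σ : G} {z : Ω} (hz : IsPrimitiveRoot z (p ^ n))
    (h : σ z = z) : σ ∈ levelGal p n := by
  rw [levelGal, IntermediateField.mem_fixingSubgroup_iff, cycLevel_eq hz]
  intro x hx
  have hle : IntermediateField.adjoin ℚ_[p] {z} ≤
      IntermediateField.fixedField (Subgroup.zpowers σ) := by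
    rw [IntermediateField.adjoin_simple_le_iff]
    rintro ⟨τ, hτ⟩
    have : Subgroup.zpowers σ ≤ MulAction.stabilizer G z := by
      rw [Subgroup.zpowers_le]; exact h
    exact this hτ
  exact hle hx ⟨σ, Subgroup.mem_zpowers _⟩

theorem IsGen.pow_iterate {m : ℕ} {γ : G} (h : IsGen p m γ) (k : ℕ) :
    IsGen p (m + k) (γ ^ p ^ k) := by
  induction k with
  | zero => simpa using h
  | succ k ih => rw [pow_succ, pow_mul, ← add_assoc]; exact ih.pow_p

theorem IsGen.pow_apply_root {m : ℕ} {γ : G} (h : IsGen p m γ) {z : Ω}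
    (hz : IsPrimitiveRoot z (p ^ (m + 1))) (i : ℕ) : (γ ^ i) z = z * (z ^ p ^ m) ^ i := by
  induction i with
  | zero => simp
  | succ i ih =>
    have hω : γ (z ^ p ^ m) = z ^ p ^ m := by
      refine h.fix (IntermediateField.subset_adjoin _ _ ?_)
      change (z ^ p ^ m) ^ p ^ m = 1
      have hd : p ^ (m + 1) ∣ p ^ m * p ^ m := by
        rw [← pow_add]; exact pow_dvd_pow p (by have := h.1; omega)
      obtain ⟨k, hk⟩ := hd
      rw [← pow_mul, hk, pow_mul, hz.pow_eq_one, one_pow]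
    rw [pow_succ', AlgEquiv.mul_apply, ih, map_mul, map_pow, hω, h.apply_root hz.pow_eq_one,
      pow_succ]
    ring

/-- Modulo every level the powers of a generator fill the subgroup. -/
theorem IsGen.exists_pow_mul {m : ℕ} {γ : G} (h : IsGen p m γ) {σ : G} (hσ : σ ∈ levelGal p m)
    (n : ℕ) : ∃ i : ℕ, (γ ^ i)⁻¹ * σ ∈ levelGal p (m + n) := by
  induction n with
  | zero => exact ⟨0, by simpa using hσ⟩
  | succ n ih =>
    obtain ⟨i, hi⟩ := ih
    obtain ⟨z, hz⟩ := exists_primitive p (m + n + 1)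
    set u := (γ ^ i)⁻¹ * σ
    set ω := z ^ p ^ (m + n)
    have hωp : IsPrimitiveRoot ω p := hz.pow (pow_pos hp.out.pos _) (pow_succ p _)
    have hz0 : z ≠ 0 := hz.ne_zero (pow_ne_zero _ hp.out.ne_zero)
    have huz : (u z / z) ^ p = 1 := by
      rw [div_pow, ← map_pow, fixed_of_le hi (IntermediateField.subset_adjoin _ _ (by
        change (z ^ p) ^ p ^ (m + n) = 1
        rw [← pow_mul, ← pow_succ', hz.pow_eq_one])), div_self (pow_ne_zero _ hz0)]
    have : NeZero p := ⟨hp.out.ne_zero⟩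
    obtain ⟨t, -, ht⟩ := hωp.eq_pow_of_pow_eq_one huz
    refine ⟨i + p ^ n * t, mem_levelGal_of_root hz ?_⟩
    have hgen := (h.pow_iterate n).pow_apply_root hz t
    rw [ht, mul_div_cancel₀ _ hz0, ← pow_mul] at hgen
    have e : (γ ^ (i + p ^ n * t))⁻¹ * σ = (γ ^ (p ^ n * t))⁻¹ * u := by
      rw [pow_add, mul_inv_rev, mul_assoc]
    rw [e, AlgEquiv.mul_apply, ← hgen, ← AlgEquiv.mul_apply, inv_mul_cancel, AlgEquiv.one_apply]

/-- No positive power of a generator is in the kernel. -/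
theorem IsGen.pow_not_mem_ker {m : ℕ} {γ : G} (h : IsGen p m γ) {n : ℕ} (hn : 0 < n) :
    γ ^ n ∉ (cycInf p).fixingSubgroup := by
  intro hmem
  obtain ⟨k, n', hn', rfl⟩ := Nat.exists_eq_pow_mul_and_not_dvd hn.ne' p hp.out.ne_one
  obtain ⟨z, hz⟩ := exists_primitive p (m + k + 1)
  have h1 := fixed_of_le hmem (cycLevel_le_cycInf (m + k + 1)
    (IntermediateField.subset_adjoin _ _ hz.pow_eq_one))
  rw [pow_mul, (h.pow_iterate k).pow_apply_root hz] at h1
  have hωp : IsPrimitiveRoot (z ^ p ^ (m + k)) p :=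
    hz.pow (pow_pos hp.out.pos _) (pow_succ p _)
  exact hn' ((hωp.pow_eq_one_iff_dvd n').1
    (mul_left_cancel₀ (hz.ne_zero (pow_ne_zero _ hp.out.ne_zero)) (h1.trans (mul_one z).symm)))

theorem chi_pow_ne_one {m : ℕ} {γ : G} (h : IsGen p m γ) {n : ℕ} (hn : 0 < n) :
    ((chi p γ : ℤ_[p]) : ℚ_[p]) ^ n ≠ 1 := by
  intro h1
  refine h.pow_not_mem_ker hn ((mem_fix_cycInf_iff _).2 (Units.ext ?_))
  rw [map_pow, Units.val_pow_eq_pow_val, Units.val_one]
  exact Subtype.ext (by rw [PadicInt.coe_pow, h1, PadicInt.coe_one])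

theorem chi_zpow_ne_one {m : ℕ} {γ : G} (h : IsGen p m γ) {j : ℤ} (hj : j ≠ 0) :
    ((chi p γ : ℤ_[p]) : ℚ_[p]) ^ j ≠ 1 := by
  obtain ⟨n, rfl | rfl⟩ := j.eq_nat_or_neg
  · rw [zpow_natCast]
    exact chi_pow_ne_one h (by omega)
  · rw [zpow_neg, zpow_natCast, ne_eq, inv_eq_one]
    exact chi_pow_ne_one h (by omega)

theorem logChi_gen_ne_zero {m : ℕ} {γ : G} (h : IsGen p m γ) : logChi p γ ≠ 0 := by
  intro h0
  rw [logChi, div_eq_zero_iff, or_iff_left (Nat.cast_ne_zero.2 logExp_pos.ne')] at h0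
  have h1 := pexp_plog (p := p) (norm_chi_pow_sub_one γ)
  rw [h0, pexp_zero] at h1
  exact chi_pow_ne_one h logExp_pos h1.symm

variable (p) in
theorem nearOne_chi_zpow {γ : G} (h : IsGen p 3 γ) (j : ℤ) :
    NearOne p (((chi p γ : ℤ_[p]) : ℚ_[p]) ^ j) := by
  refine ⟨by rw [norm_zpow, norm_chi, one_zpow], ?_⟩
  have h1 : ‖((chi p γ : ℤ_[p]) : ℚ_[p]) - 1‖ ≤ ‖(p : ℚ_[p])‖ ^ 3 := by
    have h2 := (toZModPow_eq_iff _ _ _).1 h.2
    have e : ((chi p γ : ℤ_[p]) : ℚ_[p]) - 1 =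
        (((chi p γ : ℤ_[p]) : ℚ_[p]) - ((1 + p ^ 3 : ℕ) : ℚ_[p])) + (p : ℚ_[p]) ^ 3 := by
      push_cast; ring
    rw [e]
    refine norm_add_le_of_le (h2.trans ?_) (norm_pow _ _).le
    exact pow_le_pow_of_le_one (norm_nonneg _) Padic.norm_p_lt_one.le (by norm_num)
  have hlt : ‖(p : ℚ_[p])‖ ^ 3 < 1 :=
    pow_lt_one₀ (norm_nonneg _) Padic.norm_p_lt_one (by norm_num)
  have h3 : ‖((chi p γ : ℤ_[p]) : ℚ_[p]) ^ j - 1‖ ≤ ‖(p : ℚ_[p])‖ ^ 3 := by
    have := norm_zpow_sub_one_le hlt (Q := (((chi p γ : ℤ_[p]) : ℚ_[p]) : Ω))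
      (by rw [← map_one (algebraMap ℚ_[p] Ω), ← map_sub, PadicAlgCl.norm_extends]; exact h1) j
    rwa [← map_zpow₀, ← map_one (algebraMap ℚ_[p] Ω), ← map_sub, PadicAlgCl.norm_extends] at this
  calc (p : ℝ) ^ 2 * _ ≤ (p : ℝ) ^ 2 * ‖(p : ℚ_[p])‖ ^ 3 :=
        mul_le_mul_of_nonneg_left h3 (by positivity)
    _ = (p : ℝ)⁻¹ := by
        rw [Padic.norm_p]
        have : (p : ℝ) ≠ 0 := by exact_mod_cast hp.out.ne_zero
        field_simp
    _ < 1 := inv_lt_one_of_one_lt₀ (by exact_mod_cast hp.out.one_lt)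

end FA.TateSen
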