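import Fermat.Agent.TateSen.Vanishing
import Fermat.Agent.TateSen.Log

/-!
# Tate's theorems on the cohomology of `ℂ_p(j)`
-/

set_option autoImplicit false
set_option linter.unusedSectionVars false

noncomputable section

open Finset UniformSpace Filter
open scoped Topology

namespace FA.TateSen

variable {p : ℕ} [hp : Fact p.Prime]

local notation "Ω" => PadicAlgCl p
local notation "G" => PadicAlgCl p ≃ₐ[ℚ_[p]] PadicAlgCl p

theorem mem_cycHat_iff (x : ℂ_[p]) :
    x ∈ cycHat p ↔ ∀ σ : G, σ ∈ (cycInf p).fixingSubgroup → gal σ x = x := by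
  have h := Fermat.Agent.AxSenTate.fixed_completion_subgroup_iff
    (fun (σ : G) y => norm_gal σ y) (cycInf p).fixingSubgroup x
  rw [InfiniteGalois.fixedField_fixingSubgroup] at h
  exact h.symm

/-- The kernel is normal. -/
theorem conj_mem_ker {h : G} (hh : h ∈ (cycInf p).fixingSubgroup) (σ : G) :
    σ⁻¹ * h * σ ∈ (cycInf p).fixingSubgroup := by
  rw [mem_fix_cycInf_iff] at hh ⊢
  rw [map_mul, map_mul, map_inv, hh, mul_one, inv_mul_cancel]

theorem comm_mem_ker (γ τ : G) : (τ * γ)⁻¹ * (γ * τ) ∈ (cycInf p).fixingSubgroup := by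
  rw [mem_fix_cycInf_iff, map_mul, map_inv, map_mul, map_mul, mul_comm (chi p γ), inv_mul_cancel]

/-- **No invariants in `ℂ_p(j)`** for the whole group. -/
theorem eq_zero_of_invariant {j : ℤ} (hj : j ≠ 0) {x : ℂ_[p]}
    (hx : ∀ σ : G, twist p j σ * gal σ x = x) : x = 0 := by
  obtain ⟨γ, hγ⟩ := exists_gen (p := p) (m := 3) (by norm_num)
  have hmem : x ∈ cycHat p := (mem_cycHat_iff x).2 fun σ hσ => by
    have := hx σ
    rwa [twist_eq_one hσ, one_mul] at this
  exact eq_zero_of_fixed hγ (nearOne_chi_zpow p hγ j) (chi_zpow_ne_one hγ hj) hmem (hx γ)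

theorem twist_inv_mul (j : ℤ) (σ : G) : twist p (-j) σ * twist p j σ = 1 := by
  rw [twist, twist, ← map_mul, zpow_neg, inv_mul_cancel₀ (zpow_ne_zero _ (chi_ne_zero σ)), map_one]

theorem twist_pow (j : ℤ) (d : ℕ) (σ : G) : twist p j σ ^ d = twist p (j * d) σ := by
  rw [twist, twist, ← map_pow, ← zpow_natCast _ d, ← zpow_mul]

/-- **Tate's theorem on `H⁰`**: an open subgroup fixes no nonzero element of `ℂ_p(j)`, `j ≠ 0`. -/
theorem eq_zero_of_invariant_open {j : ℤ} (hj : j ≠ 0) (U : Subgroup G) (hU : IsOpen (U : Set G))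
    {x : ℂ_[p]} (hx : ∀ σ ∈ U, twist p j σ * gal σ x = x) : x = 0 := by
  classical
  have : Finite (G ⧸ U) := U.quotient_finite_of_isOpen hU
  have : Fintype (G ⧸ U) := Fintype.ofFinite _
  let F : G ⧸ U → ℂ_[p] := fun q => Quotient.liftOn' q (fun g => twist p j g * gal g x)
    fun a b hab => by
      have h := hx _ (QuotientGroup.leftRel_apply.1 hab)
      change twist p j a * gal a x = twist p j b * gal b x
      conv_rhs => rw [show b = a * (a⁻¹ * b) from (mul_inv_cancel_left a b).symm]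
      rw [twist_mul, gal_mul, mul_assoc]
      congr 1
      conv_lhs => rw [← h]
      rw [map_mul, gal_twist]
  have hF : ∀ g : G, F (g : G ⧸ U) = twist p j g * gal g x := fun _ => rfl
  have hmove : ∀ (σ : G) (q : G ⧸ U), twist p j σ * gal σ (F q) = F (σ • q) := fun σ q => by
    induction q using QuotientGroup.induction_on with
    | H a =>
      rw [hF, MulAction.Quotient.smul_coe, hF, smul_eq_mul, twist_mul, gal_mul, map_mul, gal_twist,
        mul_assoc]
  set N := ∏ q, F q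
  have hN : N = 0 := by
    refine eq_zero_of_invariant (j := j * Fintype.card (G ⧸ U))
      (mul_ne_zero hj (Nat.cast_ne_zero.2 Fintype.card_ne_zero)) fun σ => ?_
    rw [map_prod, ← twist_pow, ← Finset.card_univ, ← prod_const, ← prod_mul_distrib]
    exact Fintype.prod_equiv (MulAction.toPerm σ) _ _ fun q => hmove σ q
  obtain ⟨q, -, hq⟩ := prod_eq_zero_iff.1 hN
  induction q using QuotientGroup.induction_on with
  | H a =>
    rw [hF, mul_eq_zero] at hq
    rcases hq with h | h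
    · exact absurd h (norm_ne_zero_iff.1 ((norm_twist j a).trans_ne one_ne_zero))
    · exact (isometry_gal a).injective (h.trans (map_zero _).symm)

/-- Up to a coboundary a cocycle vanishes on the kernel and is constant on the generator. -/
theorem exists_normal_form {j : ℤ} {f : G → ℂ_[p]} (hf : IsCocycle p j f) {γ : G}
    (hγ : IsGen p 3 γ) :
    ∃ (y : ℂ_[p]) (b : Ω) (g : G → ℂ_[p]), b ∈ cycLevel p 3 ∧ IsCocycle p j g ∧
      (∀ h ∈ (cycInf p).fixingSubgroup, g h = 0) ∧ g γ = (b : ℂ_[p]) ∧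
      ∀ σ, f σ = coboundary p j y σ + g σ := by
  obtain ⟨y₁, hy₁⟩ := exists_coboundary_on_ker hf
  set g₁ := fun σ => f σ - coboundary p j y₁ σ
  have hg₁ : IsCocycle p j g₁ := hf.sub (coboundary_isCocycle j y₁)
  have hker : ∀ h ∈ (cycInf p).fixingSubgroup, g₁ h = 0 := fun h hh => sub_eq_zero.2 (hy₁ h hh)
  have hval : g₁ γ ∈ cycHat p := (mem_cycHat_iff _).2 fun h hh => by
    have h1 := hg₁.on_ker hh γ
    have h2 : h * γ = γ * (γ⁻¹ * h * γ) := by rw [mul_assoc, mul_inv_cancel_left]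
    rw [hker h hh, zero_add, h2, hg₁.cocycle, hker _ (conj_mem_ker hh γ), map_zero, mul_zero,
      add_zero] at h1
    exact h1.symm
  obtain ⟨y₂, hy₂, b, hb, he⟩ := exists_decomp hγ (nearOne_chi_zpow p hγ j) hval
  refine ⟨y₁ + y₂, b, fun σ => g₁ σ - coboundary p j y₂ σ, hb,
    hg₁.sub (coboundary_isCocycle j y₂), fun h hh => ?_, ?_, fun σ => ?_⟩
  · change g₁ h - coboundary p j y₂ h = 0
    rw [hker h hh, coboundary, twist_eq_one hh, one_mul, (mem_cycHat_iff y₂).1 hy₂ h hh, sub_self,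
      sub_zero]
  · change g₁ γ - coboundary p j y₂ γ = _
    rw [he, coboundary, twist, add_sub_cancel_left]
  · change f σ = coboundary p j (y₁ + y₂) σ +
      (f σ - coboundary p j y₁ σ - coboundary p j y₂ σ)
    rw [coboundary, coboundary, coboundary, map_add]
    ring

/-- The relation of the values at `τ` and at the generator. -/
theorem IsCocycle.gen_relation {j : ℤ} {g : G → ℂ_[p]} (hg : IsCocycle p j g)
    (hker : ∀ h ∈ (cycInf p).fixingSubgroup, g h = 0) (γ τ : G) :
    g γ + twist p j γ * gal γ (g τ) = g τ + twist p j τ * gal τ (g γ) := by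
  rw [← hg.cocycle, ← hg.cocycle]
  conv_lhs => rw [show γ * τ = τ * γ * ((τ * γ)⁻¹ * (γ * τ)) from (mul_inv_cancel_left _ _).symm]
  rw [hg.cocycle (τ * γ), hker _ (comm_mem_ker γ τ), map_zero, mul_zero, add_zero]

theorem IsCocycle.mem_cycHat {j : ℤ} {g : G → ℂ_[p]} (hg : IsCocycle p j g)
    (hker : ∀ h ∈ (cycInf p).fixingSubgroup, g h = 0) (σ : G) : g σ ∈ cycHat p := by
  refine (mem_cycHat_iff _).2 fun h hh => ?_
  have h1 := hg.on_ker hh σ
  have h2 : h * σ = σ * (σ⁻¹ * h * σ) := by rw [mul_assoc, mul_inv_cancel_left]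
  rw [hker h hh, zero_add, h2, hg.cocycle, hker _ (conj_mem_ker hh σ), map_zero, mul_zero,
    add_zero] at h1
  exact h1.symm

/-- **Tate's theorem `H¹(G, ℂ_p(j)) = 0`** for `j ≠ 0`. -/
theorem exists_coboundary {j : ℤ} (hj : j ≠ 0) {f : G → ℂ_[p]} (hf : IsCocycle p j f) :
    ∃ y, ∀ σ, f σ = coboundary p j y σ := by
  obtain ⟨γ, hγ⟩ := exists_gen (p := p) (m := 3) (by norm_num)
  set c := ((chi p γ : ℤ_[p]) : ℚ_[p]) ^ j
  have hc1 : c ≠ 1 := chi_zpow_ne_one hγ hj
  obtain ⟨y, b, g, hb, hg, hker, hgγ, he⟩ := exists_normal_form hf hγ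
  set b' : Ω := ((c - 1)⁻¹ : ℚ_[p]) * b
  have hb' : b' ∈ cycLevel p 3 := mul_mem ((cycLevel p 3).algebraMap_mem _) hb
  have hb'hat : (b' : ℂ_[p]) ∈ cycHat p := subset_closure ⟨b', cycLevel_le_cycInf 3 hb', rfl⟩
  set g' := fun σ => g σ - coboundary p j (b' : ℂ_[p]) σ
  have hg' : IsCocycle p j g' := hg.sub (coboundary_isCocycle j _)
  have hker' : ∀ h ∈ (cycInf p).fixingSubgroup, g' h = 0 := fun h hh => by
    change g h - coboundary p j (b' : ℂ_[p]) h = 0
    rw [hker h hh, coboundary, twist_eq_one hh, one_mul, (mem_cycHat_iff _).1 hb'hat h hh,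
      sub_self, sub_zero]
  have hgen : g' γ = 0 := by
    change g γ - coboundary p j (b' : ℂ_[p]) γ = 0
    have e : b = (c : Ω) * b' - b' := by
      rw [← sub_one_mul, ← map_one (algebraMap ℚ_[p] Ω), ← map_sub, ← mul_assoc, ← map_mul,
        mul_inv_cancel₀ (sub_ne_zero.2 hc1), map_one, one_mul]
    rw [hgγ, coboundary, gal_coe, hγ.fix hb', twist,
      IsScalarTower.algebraMap_apply ℚ_[p] Ω ℂ_[p], ← PadicComplex.coe_eq, sub_eq_zero]
    conv_lhs => rw [e]
    rw [Completion.coe_sub, Completion.coe_mul]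
  refine ⟨y + (b' : ℂ_[p]), fun σ => ?_⟩
  have h1 := hg'.gen_relation hker' γ σ
  rw [hgen, map_zero, mul_zero, zero_add, add_zero] at h1
  have h2 := eq_zero_of_fixed hγ (nearOne_chi_zpow p hγ j) hc1 (hg'.mem_cycHat hker' σ) h1
  have h3 : g σ = coboundary p j (b' : ℂ_[p]) σ := sub_eq_zero.1 h2
  rw [he, h3, coboundary, coboundary, coboundary, map_add]
  ring

end FA.TateSen
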