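import Fermat.Agent.TateSen.Action

/-!
# Tate's normalised traces on the cyclotomic tower
-/

set_option autoImplicit false
set_option linter.unusedSectionVars false

noncomputable section

open Finset

namespace FA.TateSen

variable {p : ℕ} [hp : Fact p.Prime]

local notation "Ω" => PadicAlgCl p
local notation "G" => PadicAlgCl p ≃ₐ[ℚ_[p]] PadicAlgCl p

theorem toZModPow_eq_iff (x : ℤ_[p]) (a n : ℕ) :
    x.toZModPow n = (a : ZMod (p ^ n)) ↔ ‖(x : ℚ_[p]) - (a : ℚ_[p])‖ ≤ ‖(p : ℚ_[p])‖ ^ n := by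
  have h := PadicInt.norm_le_pow_iff_mem_span_pow (x - (a : ℤ_[p])) n
  rw [← PadicInt.ker_toZModPow, RingHom.mem_ker, map_sub, map_natCast, sub_eq_zero] at h
  rw [← h, PadicInt.norm_def, PadicInt.coe_sub, PadicInt.coe_natCast, Padic.norm_p, inv_pow,
    zpow_neg, zpow_natCast]

variable (p) in
/-- `γ` generates the units congruent to one modulo `p ^ m`. -/
def IsGen (m : ℕ) (γ : G) : Prop :=
  2 ≤ m ∧ (chi p γ : ℤ_[p]).toZModPow (m + 1) = ((1 + p ^ m : ℕ) : ZMod (p ^ (m + 1)))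

theorem IsGen.pow_p {m : ℕ} {γ : G} (h : IsGen p m γ) : IsGen p (m + 1) (γ ^ p) := by
  obtain ⟨hm, h⟩ := h
  refine ⟨by omega, ?_⟩
  rw [toZModPow_eq_iff] at h ⊢
  rw [map_pow, Units.val_pow_eq_pow_val, PadicInt.coe_pow]
  set c : ℚ_[p] := ((chi p γ : ℤ_[p]) : ℚ_[p])
  set P : ℚ_[p] := (p : ℚ_[p])
  have hP : ‖P‖ < 1 := Padic.norm_p_lt_one
  set d : ℚ_[p] := c - 1
  have hd : ‖d - P ^ m‖ ≤ ‖P‖ ^ (m + 1) := by
    have e : d - P ^ m = c - ((1 + p ^ m : ℕ) : ℚ_[p]) := by push_cast; ring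
    rw [e]; exact h
  have hdn : ‖d‖ ≤ ‖P‖ ^ m := by
    have e : d = P ^ m + (d - P ^ m) := by ring
    rw [e]
    refine norm_add_le_of_le (norm_pow _ _).le (hd.trans ?_)
    exact pow_le_pow_of_le_one (norm_nonneg _) hP.le (Nat.le_succ _)
  have e : c ^ p - ((1 + p ^ (m + 1) : ℕ) : ℚ_[p]) =
      ((1 + d) ^ p - 1 - d ^ p - P * d) + d ^ p + P * (d - P ^ m) := by
    rw [show (1 : ℚ_[p]) + d = c by ring]
    push_cast
    ring
  rw [e]
  refine norm_add_le_of_le (norm_add_le_of_le ?_ ?_) ?_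
  · refine (norm_one_add_pow_sub_linear_le (hdn.trans (pow_le_one₀ (norm_nonneg _) hP.le))).trans ?_
    refine (mul_le_mul_of_nonneg_left (pow_le_pow_left₀ (norm_nonneg _) hdn 2)
      (norm_nonneg _)).trans ?_
    rw [← pow_mul, ← pow_succ']
    exact pow_le_pow_of_le_one (norm_nonneg _) hP.le (by omega)
  · rw [norm_pow]
    refine (pow_le_pow_left₀ (norm_nonneg _) hdn p).trans ?_
    rw [← pow_mul]
    refine pow_le_pow_of_le_one (norm_nonneg _) hP.le ?_
    have := Nat.mul_le_mul_left m hp.out.two_le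
    omega
  · rw [norm_mul, pow_succ' _ (m + 1)]
    exact mul_le_mul_of_nonneg_left hd (norm_nonneg _)

theorem exists_gen {m : ℕ} (hm : 2 ≤ m) : ∃ γ : G, IsGen p m γ := by
  obtain ⟨z, hz⟩ := exists_primitive p (m + 1)
  obtain ⟨γ, hγ⟩ := exists_algEquiv_pow hz (k := 1 + p ^ m) fun hd =>
    hp.out.one_lt.not_ge (Nat.le_of_dvd one_pos
      ((Nat.dvd_add_left (dvd_pow_self p (by omega))).1 hd))
  exact ⟨γ, hm, toZModPow_eq_of_root γ hz hγ⟩

theorem IsGen.apply_root {m : ℕ} {γ : G} (h : IsGen p m γ) {z : Ω} (hz : z ^ p ^ (m + 1) = 1) :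
    γ z = z * z ^ p ^ m := by
  have hk : z ^ (1 + p ^ m) = z ^ ((1 + p ^ m) % p ^ (m + 1)) := by
    conv_lhs => rw [← Nat.div_add_mod (1 + p ^ m) (p ^ (m + 1)), pow_add, pow_mul, hz, one_pow,
      one_mul]
  rw [TateSen.apply_root γ hz, h.2, ZMod.val_natCast, ← hk, pow_add, pow_one]

theorem IsGen.fix {m : ℕ} {γ : G} (h : IsGen p m γ) {x : Ω} (hx : x ∈ cycLevel p m) : γ x = x := by
  have hle : cycLevel p m ≤ IntermediateField.fixedField (Subgroup.zpowers γ) := by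
    refine IntermediateField.adjoin_le_iff.2 fun z hz => ?_
    rintro ⟨τ, hτ⟩
    have hz' : z ^ p ^ m = 1 := hz
    have hσ : γ z = z := by
      rw [h.apply_root (by rw [pow_succ, pow_mul, hz', one_pow]), hz', mul_one]
    have : Subgroup.zpowers γ ≤ MulAction.stabilizer G z := by
      rw [Subgroup.zpowers_le]; exact hσ
    exact this hτ
  exact hle hx ⟨γ, Subgroup.mem_zpowers _⟩

theorem pow_apply_fixed {g : G} {x : Ω} (h : g x = x) : ∀ i : ℕ, (g ^ i) x = x
  | 0 => rfl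
  | i + 1 => by rw [pow_succ, AlgEquiv.mul_apply, h, pow_apply_fixed h i]

/-- The average over the powers of an automorphism below `p`. -/
def avg (γ : G) (x : Ω) : Ω := (p : Ω)⁻¹ * ∑ i ∈ range p, (γ ^ i) x

theorem avg_eq_self {γ : G} {x : Ω} (h : γ x = x) : avg γ x = x := by
  rw [avg, sum_congr rfl fun i _ => pow_apply_fixed h i, sum_const, card_range, nsmul_eq_mul,
    inv_mul_cancel_left₀ (Nat.cast_ne_zero.2 hp.out.ne_zero)]

theorem avg_add (γ : G) (x y : Ω) : avg γ (x + y) = avg γ x + avg γ y := by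
  simp only [avg, map_add, sum_add_distrib, mul_add]

theorem avg_scalar (γ : G) (c : ℚ_[p]) (x : Ω) : avg γ ((c : Ω) * x) = (c : Ω) * avg γ x := by
  simp only [avg, map_mul, AlgEquiv.commutes, ← mul_sum]
  ring

theorem avg_sum (γ : G) {ι : Type*} (s : Finset ι) (f : ι → Ω) :
    avg γ (∑ i ∈ s, f i) = ∑ i ∈ s, avg γ (f i) := by
  simp only [avg, map_sum]
  rw [sum_comm, mul_sum]

theorem avg_comm {γ g : G} (h : Commute g γ) (x : Ω) : avg γ (g x) = g (avg γ x) := by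
  rw [avg, avg, map_mul, map_inv₀, map_natCast, map_sum]
  congr 1
  refine sum_congr rfl fun i _ => ?_
  rw [← AlgEquiv.mul_apply, ← AlgEquiv.mul_apply, (h.pow_right i).eq]

theorem IsGen.avg_root {m : ℕ} {γ : G} (h : IsGen p m γ) {z : Ω}
    (hz : IsPrimitiveRoot z (p ^ (m + 1))) (j : ℕ) :
    avg γ (z ^ j) ∈ cycLevel p m ∧ ‖avg γ (z ^ j)‖ ≤ 1 := by
  set ω := z ^ p ^ m with hω
  have hωp : IsPrimitiveRoot ω p := hz.pow (pow_pos hp.out.pos _) (pow_succ p m)
  have hωm : ω ∈ cycLevel p m := by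
    refine IntermediateField.subset_adjoin _ _ ?_
    change ω ^ p ^ m = 1
    obtain ⟨k, hk⟩ : ∃ k, p ^ m = p * k := dvd_pow_self p (by have := h.1; omega)
    rw [hk, pow_mul, hωp.pow_eq_one, one_pow]
  have hi : ∀ i : ℕ, (γ ^ i) z = z * ω ^ i := by
    intro i
    induction i with
    | zero => simp
    | succ i ih =>
      rw [pow_succ', AlgEquiv.mul_apply, ih, map_mul, map_pow, h.apply_root hz.pow_eq_one,
        h.fix hωm, ← hω, pow_succ]
      ring
  have e : avg γ (z ^ j) = (p : Ω)⁻¹ * (z ^ j * ∑ i ∈ range p, (ω ^ j) ^ i) := by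
    rw [avg]
    congr 1
    rw [mul_sum]
    refine sum_congr rfl fun i _ => ?_
    rw [map_pow, hi, mul_pow, pow_right_comm ω i j]
  rw [e]
  by_cases hd : p ∣ j
  · obtain ⟨l, rfl⟩ := hd
    have h1 : ω ^ (p * l) = 1 := by rw [pow_mul, hωp.pow_eq_one, one_pow]
    simp only [h1, one_pow, sum_const, card_range, nsmul_one]
    rw [mul_comm _ (p : Ω), inv_mul_cancel_left₀ (Nat.cast_ne_zero.2 hp.out.ne_zero)]
    refine ⟨?_, ?_⟩
    · rw [pow_mul]
      refine pow_mem (IntermediateField.subset_adjoin _ _ ?_) l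
      change (z ^ p) ^ p ^ m = 1
      rw [← pow_mul, ← pow_succ', hz.pow_eq_one]
    · rw [norm_pow, norm_of_pow_eq_one (pow_ne_zero _ hp.out.ne_zero) hz.pow_eq_one, one_pow]
  · rw [(hωp.pow_of_coprime j
        (hp.out.coprime_iff_not_dvd.2 hd).symm).geom_sum_eq_zero hp.out.one_lt,
      mul_zero, mul_zero, norm_zero]
    exact ⟨zero_mem _, zero_le_one⟩

theorem IsGen.avg_pi {m : ℕ} {γ : G} (h : IsGen p m γ) {z : Ω}
    (hz : IsPrimitiveRoot z (p ^ (m + 1))) (i : ℕ) :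
    avg γ ((z - 1) ^ i) ∈ cycLevel p m ∧ ‖avg γ ((z - 1) ^ i)‖ ≤ 1 := by
  have e : avg γ ((z - 1) ^ i) = ∑ l ∈ range (i + 1),
      (((-1) ^ (i - l) * (i.choose l : ℚ_[p]) : ℚ_[p]) : Ω) * avg γ (z ^ l) := by
    rw [sub_eq_add_neg, add_pow, avg_sum]
    refine sum_congr rfl fun l _ => ?_
    rw [← avg_scalar]
    simp only [map_mul, map_pow, map_neg, map_one, map_natCast]
    congr 1
    ring
  rw [e]
  refine ⟨sum_mem fun l _ => mul_mem ((cycLevel p m).algebraMap_mem _) (h.avg_root hz l).1, ?_⟩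
  refine norm_sum_range_le zero_le_one fun l _ => ?_
  rw [norm_mul]
  refine mul_le_one₀ ?_ (norm_nonneg _) (h.avg_root hz l).2
  rw [PadicAlgCl.norm_extends, norm_mul, norm_pow, norm_neg, norm_one, one_pow, one_mul]
  exact norm_natCast_le _

theorem IsGen.avg_mem {m : ℕ} {γ : G} (h : IsGen p m γ) {x : Ω} (hx : x ∈ cycLevel p (m + 1)) :
    avg γ x ∈ cycLevel p m ∧ (‖x‖ ≤ 1 → ‖avg γ x‖ ≤ 1) := by
  obtain ⟨z, hz⟩ := exists_primitive p (m + 1)
  obtain ⟨a, ha⟩ := exists_repr hz hx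
  have e : avg γ x = ∑ i ∈ range (deg p m), (a i : Ω) * avg γ ((z - 1) ^ i) := by
    rw [ha, avg_sum]
    exact sum_congr rfl fun i _ => avg_scalar γ _ _
  rw [e]
  refine ⟨sum_mem fun i _ => mul_mem ((cycLevel p m).algebraMap_mem _) (h.avg_pi hz i).1,
    fun h1 => norm_sum_range_le zero_le_one fun i hi => ?_⟩
  rw [mem_range] at hi
  rw [norm_mul, PadicAlgCl.norm_extends]
  refine mul_le_one₀ ?_ (norm_nonneg _) (h.avg_pi hz i).2
  have h2 := (norm_term_le hz a hi).trans (ha ▸ h1)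
  have hπ := norm_sub_one_pos (one_lt_pow₀ hp.out.one_lt m.succ_ne_zero) hz
  have hπ1 := norm_sub_one_lt norm_p_lt_one hz
  rw [norm_mul, norm_pow, PadicAlgCl.norm_extends] at h2
  have h3 : ‖a i‖ < (p : ℝ) ^ ((0 : ℤ) + 1) := by
    rw [zero_add, zpow_one]
    have h4 : (p : ℝ)⁻¹ < ‖z - 1‖ ^ i := by
      rw [← norm_p, ← norm_sub_one_pow_totient hz]
      exact pow_lt_pow_right_of_lt_one₀ hπ hπ1 hi
    by_contra hge
    have : 1 < ‖a i‖ * ‖z - 1‖ ^ i := by
      calc (1 : ℝ) = (p : ℝ) * (p : ℝ)⁻¹ :=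
            (mul_inv_cancel₀ (by exact_mod_cast hp.out.ne_zero)).symm
        _ < (p : ℝ) * ‖z - 1‖ ^ i := mul_lt_mul_of_pos_left h4 (by exact_mod_cast hp.out.pos)
        _ ≤ ‖a i‖ * ‖z - 1‖ ^ i :=
          mul_le_mul_of_nonneg_right (not_lt.1 hge) (pow_nonneg hπ.le _)
    exact absurd h2 (not_le.2 this)
  simpa using (Padic.norm_le_pow_iff_norm_lt_pow_add_one (a i) 0).2 h3

/-- The composite of the averages from level `m + k` down to level `m`. -/
def descend : ℕ → G → Ω → Ω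
  | 0, _, x => x
  | k + 1, γ, x => avg γ (descend k (γ ^ p) x)

theorem descend_comm : ∀ (k : ℕ) {γ g : G} (_ : Commute g γ) (x : Ω),
    descend k γ (g x) = g (descend k γ x)
  | 0, _, _, _, _ => rfl
  | k + 1, γ, g, h, x => by
    rw [descend, descend, descend_comm k (h.pow_right p) x, avg_comm h]

theorem descend_add : ∀ (k : ℕ) (γ : G) (x y : Ω),
    descend k γ (x + y) = descend k γ x + descend k γ y
  | 0, _, _, _ => rfl
  | k + 1, γ, x, y => by rw [descend, descend, descend, descend_add k, avg_add]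

theorem descend_scalar : ∀ (k : ℕ) (γ : G) (c : ℚ_[p]) (x : Ω),
    descend k γ ((c : Ω) * x) = (c : Ω) * descend k γ x
  | 0, _, _, _ => rfl
  | k + 1, γ, c, x => by rw [descend, descend, descend_scalar k, avg_scalar]

theorem descend_mem : ∀ (k : ℕ) {m : ℕ} {γ : G} (_ : IsGen p m γ) {x : Ω},
    x ∈ cycLevel p (m + k) →
      descend k γ x ∈ cycLevel p m ∧ (‖x‖ ≤ 1 → ‖descend k γ x‖ ≤ 1)
  | 0, _, _, _, _, hx => ⟨hx, id⟩
  | k + 1, m, γ, h, x, hx => by
    obtain ⟨h1, h2⟩ := descend_mem k h.pow_p (x := x) (by rwa [add_right_comm, add_assoc])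
    exact ⟨(h.avg_mem h1).1, fun hx1 => (h.avg_mem h1).2 (h2 hx1)⟩

theorem descend_fixed : ∀ (k : ℕ) {m : ℕ} {γ : G} (_ : IsGen p m γ) {x : Ω},
    x ∈ cycLevel p m → descend k γ x = x
  | 0, _, _, _, _, _ => rfl
  | k + 1, m, γ, h, x, hx => by
    rw [descend, descend_fixed k h.pow_p (cycLevel_mono m.le_succ hx), avg_eq_self (h.fix hx)]

theorem descend_succ : ∀ (k : ℕ) {m : ℕ} {γ : G} (_ : IsGen p m γ) {x : Ω},
    x ∈ cycLevel p (m + k) → descend (k + 1) γ x = descend k γ x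
  | 0, _, _, h, x, hx => avg_eq_self (h.fix hx)
  | k + 1, m, γ, h, x, hx => by
    rw [descend, descend_succ k h.pow_p (x := x) (by rwa [add_right_comm, add_assoc])]
    rfl

theorem exists_scalar_between {r : ℝ} (hr : 0 < r) :
    ∃ c : ℚ_[p], c ≠ 0 ∧ r ≤ ‖c‖ ∧ ‖c‖ ≤ p * r := by
  have hp1 : (1 : ℝ) < p := by exact_mod_cast hp.out.one_lt
  obtain ⟨n, hn1, hn2⟩ := exists_mem_Ioc_zpow hr hp1
  refine ⟨(p : ℚ_[p]) ^ (-(n + 1)), zpow_ne_zero _ (Nat.cast_ne_zero.2 hp.out.ne_zero), ?_, ?_⟩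
  · rwa [Padic.norm_p_zpow, neg_neg]
  · rw [Padic.norm_p_zpow, neg_neg, zpow_add_one₀ (by positivity), mul_comm]
    exact mul_le_mul_of_nonneg_left hn1.le (by positivity)

theorem norm_descend_le {k m : ℕ} {γ : G} (h : IsGen p m γ) {x : Ω}
    (hx : x ∈ cycLevel p (m + k)) : ‖descend k γ x‖ ≤ p * ‖x‖ := by
  rcases eq_or_ne x 0 with rfl | h0
  · rw [descend_fixed k h (zero_mem _), norm_zero, mul_zero]
  obtain ⟨c, hc0, hc1, hc2⟩ := exists_scalar_between (p := p) (norm_pos_iff.2 h0)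
  have e : x = (c : Ω) * ((c⁻¹ : ℚ_[p]) * x) := by
    rw [← mul_assoc, ← map_mul, mul_inv_cancel₀ hc0, map_one, one_mul]
  have h1 : ‖((c⁻¹ : ℚ_[p]) : Ω) * x‖ ≤ 1 := by
    rw [norm_mul, PadicAlgCl.norm_extends, norm_inv, inv_mul_le_one₀ (norm_pos_iff.2 hc0)]
    exact hc1
  conv_lhs => rw [e]
  rw [descend_scalar, norm_mul, PadicAlgCl.norm_extends]
  exact (mul_le_mul hc2
    ((descend_mem k h (mul_mem ((cycLevel p (m + k)).algebraMap_mem _) hx)).2 h1)
    (norm_nonneg _) (by positivity)).trans_eq (mul_one _)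

theorem norm_pow_apply_sub_le (g : G) (x : Ω) : ∀ i : ℕ, ‖(g ^ i) x - x‖ ≤ ‖g x - x‖
  | 0 => by simp
  | i + 1 => by
    have e : (g ^ (i + 1)) x - x = g ((g ^ i) x - x) + (g x - x) := by
      rw [pow_succ', AlgEquiv.mul_apply, map_sub]; ring
    rw [e]
    exact norm_add_le_of_le ((norm_gal g _).trans_le (norm_pow_apply_sub_le g x i)) le_rfl

theorem norm_sub_avg_le (γ : G) (x : Ω) : ‖x - avg γ x‖ ≤ p * ‖γ x - x‖ := by
  have e : x - avg γ x = (p : Ω)⁻¹ * ∑ i ∈ range p, (x - (γ ^ i) x) := by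
    rw [avg, sum_sub_distrib, sum_const, card_range, nsmul_eq_mul, mul_sub,
      inv_mul_cancel_left₀ (Nat.cast_ne_zero.2 hp.out.ne_zero)]
  rw [e, norm_mul, norm_inv, norm_p, inv_inv]
  refine mul_le_mul_of_nonneg_left (norm_sum_range_le (norm_nonneg _) fun i _ => ?_)
    (Nat.cast_nonneg _)
  rw [norm_sub_rev]
  exact norm_pow_apply_sub_le γ x i

/-- **Tate's estimate**: off the bottom level `γ - 1` is bounded below. -/
theorem norm_sub_descend_le : ∀ (k : ℕ) {m : ℕ} {γ : G} (_ : IsGen p m γ) {x : Ω},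
    x ∈ cycLevel p (m + k) → ‖x - descend k γ x‖ ≤ (p : ℝ) ^ 2 * ‖γ x - x‖
  | 0, _, _, _, _, _ => by rw [descend, sub_self, norm_zero]; positivity
  | k + 1, m, γ, h, x, hx => by
    have hx' : x ∈ cycLevel p (m + 1 + k) := by rwa [add_right_comm, add_assoc]
    set y := descend k (γ ^ p) x
    have e : x - descend (k + 1) γ x = (x - y) + (y - avg γ y) := by
      rw [descend]; ring
    rw [e]
    refine norm_add_le_of_le ((norm_sub_descend_le k h.pow_p hx').trans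
      (mul_le_mul_of_nonneg_left (norm_pow_apply_sub_le γ x p) (by positivity))) ?_
    have hcomm : Commute γ (γ ^ p) := (Commute.refl γ).pow_right p
    have hmem : γ x ∈ cycLevel p (m + 1 + k) := by
      obtain ⟨z, hz⟩ := exists_primitive p (m + 1 + k)
      rw [cycLevel_eq hz] at hx' ⊢
      have h1 : γ x ∈ (IntermediateField.adjoin ℚ_[p] {z}).map γ.toAlgHom := ⟨x, hx', rfl⟩
      rw [IntermediateField.adjoin_map, Set.image_singleton] at h1
      refine IntermediateField.adjoin_simple_le_iff.2 ?_ h1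
      change γ z ∈ _
      rw [TateSen.apply_root γ hz.pow_eq_one]
      exact pow_mem (IntermediateField.mem_adjoin_simple_self _ z) _
    have e2 : γ y - y = descend k (γ ^ p) (γ x - x) := by
      have h2 := descend_add k (γ ^ p) (γ x - x) x
      rw [sub_add_cancel, descend_comm k hcomm] at h2
      exact sub_eq_iff_eq_add.2 h2
    refine (norm_sub_avg_le γ y).trans ?_
    rw [e2, pow_two, mul_assoc]
    exact mul_le_mul_of_nonneg_left (norm_descend_le h.pow_p (sub_mem hmem hx'))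
      (Nat.cast_nonneg _)

end FA.TateSen
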