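import Fermat.Agent.TateSen.Main

/-!
# Tate's theorem on `H¹(G, ℂ_p)`
-/

set_option autoImplicit false
set_option linter.unusedSectionVars false

noncomputable section

open Finset UniformSpace Filter
open scoped Topology

namespace FA.TateSen

variable {p : ℕ} [hp : Fact p.Prime]

local notation "Ω" => PadicAlgCl p
local notation "G" => PadicAlgCl p ≃ₐ[ℚ_[p]] PadicAlgCl p

theorem cocycle_zero_apply {f : G → ℂ_[p]} (hf : IsCocycle p 0 f) (σ τ : G) :
    f (σ * τ) = f σ + gal σ (f τ) := by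
  rw [hf.cocycle, twist_zero, one_mul]

theorem coboundary_zero (y : ℂ_[p]) (σ : G) : coboundary p 0 y σ = gal σ y - y := by
  rw [coboundary, twist_zero, one_mul]

/-- The logarithm of the character as a cocycle. -/
theorem isCocycle_logChi (c : ℚ_[p]) :
    IsCocycle p 0 (fun σ => algebraMap ℚ_[p] ℂ_[p] (c * logChi p σ)) where
  cont := (continuous_algebraMap ℚ_[p] ℂ_[p]).comp (continuous_const.mul continuous_logChi)
  cocycle σ τ := by rw [twist_zero, one_mul, gal_scalar, logChi_mul, mul_add, map_add]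

theorem logChi_eq_zero_of_ker {σ : G} (h : σ ∈ (cycInf p).fixingSubgroup) : logChi p σ = 0 := by
  have h1 : logChi p (1 : G) = 0 := by
    have h2 := logChi_mul (p := p) 1 1
    rw [one_mul] at h2
    exact add_eq_left.1 h2.symm
  have h3 : chi p σ = chi p 1 := by rw [(mem_fix_cycInf_iff σ).1 h, map_one]
  simpa [logChi, h3] using h1

/-- Open sets around the kernel contain a level subgroup. -/
theorem exists_levelGal_subset {W : Set G} (hW : IsOpen W)
    (hker : ∀ h ∈ (cycInf p).fixingSubgroup, h ∈ W) (m : ℕ) :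
    ∃ n, ∀ u ∈ levelGal p (m + n), u ∈ W := by
  have hnhds : ∀ x ∈ ⋂ n : ℕ, (levelGal p (m + n) : Set G), W ∈ 𝓝 x := fun x hx => by
    refine hW.mem_nhds (hker x ?_)
    rw [IntermediateField.mem_fixingSubgroup_iff]
    intro y hy
    obtain ⟨k, hk⟩ := mem_level_add (m := m) hy
    exact fixed_of_le (Set.mem_iInter.1 hx k) hk
  obtain ⟨n, hn⟩ := exists_subset_nhds_of_compactSpace
    (V := fun n : ℕ => (levelGal p (m + n) : Set G))
    (Antitone.directed_ge fun a b hab =>
      IntermediateField.fixingSubgroup_antitone (cycLevel_mono (by omega)))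
    (fun n => InfiniteGalois.fixingSubgroup_isClosed (cycLevel p (m + n))) hnhds
  exact ⟨n, fun u hu => hn hu⟩

/-- A continuous homomorphism is determined on a level by the kernel and a generator. -/
theorem hom_eq_zero {m : ℕ} {γ : G} (h : IsGen p m γ) {δ : G → ℂ_[p]} (hδ : Continuous δ)
    (hadd : ∀ σ ∈ levelGal p m, ∀ τ ∈ levelGal p m, δ (σ * τ) = δ σ + δ τ)
    (hker : ∀ σ ∈ (cycInf p).fixingSubgroup, δ σ = 0) (hγ : δ γ = 0) {σ : G}
    (hσ : σ ∈ levelGal p m) : δ σ = 0 := by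
  refine norm_le_zero_iff.1 (le_of_forall_pos_le_add fun ε hε => ?_)
  rw [zero_add]
  obtain ⟨n, hn⟩ := exists_levelGal_subset (isOpen_lt hδ.norm continuous_const)
    (fun x hx => by simpa [hker x hx] using hε) m
  obtain ⟨i, hi⟩ := h.exists_pow_mul hσ n
  have hγm : γ ∈ levelGal p m :=
    (IntermediateField.mem_fixingSubgroup_iff _ _).2 fun x hx => h.fix hx
  have hpow : ∀ k : ℕ, δ (γ ^ k) = 0 := fun k => by
    induction k with
    | zero => rw [pow_zero]; exact hker 1 (one_mem _)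
    | succ k ih => rw [pow_succ, hadd _ (pow_mem hγm k) _ hγm, ih, hγ, add_zero]
  have e : σ = γ ^ i * ((γ ^ i)⁻¹ * σ) := (mul_inv_cancel_left _ _).symm
  rw [e, hadd _ (pow_mem hγm i) _ (mul_mem (inv_mem (pow_mem hγm i)) hσ), hpow, zero_add]
  exact (hn _ hi).le

/-- **Tate's theorem on `H¹(G, ℂ_p)`**: every continuous cocycle is cohomologous to a multiple of
the logarithm of the cyclotomic character. -/
theorem exists_log_add_coboundary {f : G → ℂ_[p]} (hf : IsCocycle p 0 f) :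
    ∃ (c : ℚ_[p]) (y : ℂ_[p]), ∀ σ,
      f σ = algebraMap ℚ_[p] ℂ_[p] (c * logChi p σ) + coboundary p 0 y σ := by
  classical
  obtain ⟨γ, hγ⟩ := exists_gen (p := p) (m := 3) (by norm_num)
  obtain ⟨y, b, g, hb, hg, hker, hgγ, he⟩ := exists_normal_form hf hγ
  -- the values at the generator and at every element
  have hrel : ∀ τ : G, τ b = b ∧ g τ ∈ (↑) '' (cycLevel p 3 : Set Ω) := fun τ => by
    have h1 := hg.gen_relation hker γ τ
    rw [twist_zero, twist_zero, one_mul, one_mul, hgγ, gal_coe] at h1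
    have h2 : gal γ (g τ) - g τ = ((τ b - b : Ω) : ℂ_[p]) := by
      rw [Completion.coe_sub]
      linear_combination h1
    obtain ⟨h3, h4⟩ := mem_level_of_gop hγ (hg.mem_cycHat hker τ)
      (sub_mem (gal_mem_cycLevel τ hb) hb) h2
    exact ⟨sub_eq_zero.1 h3, h4⟩
  obtain ⟨b₀, rfl⟩ := (InfiniteGalois.mem_range_algebraMap_iff_fixed b).2 fun τ => (hrel τ).1
  set c := b₀ / logChi p γ
  set K := levelGal p 3
  -- on the level subgroup the cocycle is the logarithm
  have hlog : ∀ k ∈ K, g k = algebraMap ℚ_[p] ℂ_[p] (c * logChi p k) := fun k hk => by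
    refine sub_eq_zero.1 (hom_eq_zero hγ
      (δ := fun k => g k - algebraMap ℚ_[p] ℂ_[p] (c * logChi p k))
      (hg.cont.sub (isCocycle_logChi c).cont) (fun σ hσ τ _ => ?_) (fun σ hσ => ?_) ?_ hk)
    · obtain ⟨a, ha, hga⟩ := (hrel τ).2
      rw [cocycle_zero_apply hg, ← hga, gal_coe, fixed_of_le hσ ha, logChi_mul, mul_add, map_add]
      ring
    · rw [hker σ hσ, logChi_eq_zero_of_ker hσ, mul_zero, map_zero, sub_zero]
    · rw [hgγ, div_mul_cancel₀ _ (logChi_gen_ne_zero hγ),
        IsScalarTower.algebraMap_apply ℚ_[p] Ω ℂ_[p], ← PadicComplex.coe_eq, sub_self]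
  -- averaging over the finite quotient
  set ψ : G → ℂ_[p] := fun σ => g σ - algebraMap ℚ_[p] ℂ_[p] (c * logChi p σ)
  have hψ : IsCocycle p 0 ψ := hg.sub (isCocycle_logChi c)
  have hψK : ∀ k ∈ K, ψ k = 0 := fun k hk => sub_eq_zero.2 (hlog k hk)
  have : Finite (G ⧸ K) := K.quotient_finite_of_isOpen (isOpen_levelGal 3)
  have : Fintype (G ⧸ K) := Fintype.ofFinite _
  let Ψ : G ⧸ K → ℂ_[p] := fun q => Quotient.liftOn' q ψ fun a s hs => by
    conv_rhs => rw [← mul_inv_cancel_left a s]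
    rw [cocycle_zero_apply hψ, hψK _ (QuotientGroup.leftRel_apply.1 hs), map_zero, add_zero]
  have hmove : ∀ (σ : G) (q : G ⧸ K), gal σ (Ψ q) = Ψ (σ • q) - ψ σ := fun σ q => by
    induction q using QuotientGroup.induction_on with
    | H a =>
      change gal σ (ψ a) = ψ (σ * a) - ψ σ
      rw [cocycle_zero_apply hψ, add_sub_cancel_left]
  set d : ℂ_[p] := (Fintype.card (G ⧸ K) : ℂ_[p])
  have hd : d ≠ 0 := by
    rw [show d = algebraMap ℚ_[p] ℂ_[p] (Fintype.card (G ⧸ K) : ℚ_[p]) from (map_natCast _ _).symm]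
    exact (map_ne_zero _).2 (Nat.cast_ne_zero.2 Fintype.card_ne_zero)
  set y' : ℂ_[p] := -(d⁻¹ * ∑ q, Ψ q)
  refine ⟨c, y + y', fun σ => ?_⟩
  have h1 : gal σ y' - y' = ψ σ := by
    have hσs : ∑ q, Ψ (σ • q) = ∑ q, Ψ q := Equiv.sum_comp (MulAction.toPerm σ) Ψ
    rw [map_neg, map_mul, map_inv₀, map_natCast, map_sum, sum_congr rfl fun q _ => hmove σ q,
      sum_sub_distrib, hσs, sum_const, card_univ, nsmul_eq_mul, mul_sub, inv_mul_cancel_left₀ hd]
    ring
  have h2 := he σ
  rw [coboundary_zero] at h2 ⊢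
  rw [map_add, h2]
  linear_combination -h1

/-- **The class of `log χ` is not zero.** -/
theorem logChi_not_coboundary {c : ℚ_[p]} {y : ℂ_[p]}
    (h : ∀ σ : G, algebraMap ℚ_[p] ℂ_[p] (c * logChi p σ) = coboundary p 0 y σ) : c = 0 := by
  obtain ⟨γ, hγ⟩ := exists_gen (p := p) (m := 3) (by norm_num)
  have hy : y ∈ cycHat p := (mem_cycHat_iff y).2 fun σ hσ => by
    have h1 := h σ
    rw [coboundary_zero, logChi_eq_zero_of_ker hσ, mul_zero, map_zero] at h1
    exact sub_eq_zero.1 h1.symm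
  have h1 := h γ
  rw [coboundary_zero, IsScalarTower.algebraMap_apply ℚ_[p] Ω ℂ_[p], ← PadicComplex.coe_eq] at h1
  have h2 := (mem_level_of_gop hγ hy ((cycLevel p 3).algebraMap_mem _) h1.symm).1
  rw [map_eq_zero, mul_eq_zero] at h2
  exact h2.resolve_right (logChi_gen_ne_zero hγ)

/-- The coefficient of `log χ` is unique. -/
theorem logChi_coeff_unique {c c' : ℚ_[p]} {y y' : ℂ_[p]}
    (h : ∀ σ : G, algebraMap ℚ_[p] ℂ_[p] (c * logChi p σ) + coboundary p 0 y σ =
      algebraMap ℚ_[p] ℂ_[p] (c' * logChi p σ) + coboundary p 0 y' σ) : c = c' := by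
  refine sub_eq_zero.1 (logChi_not_coboundary (y := y' - y) fun σ => ?_)
  have h1 := h σ
  rw [coboundary_zero, coboundary_zero] at h1
  rw [coboundary_zero, sub_mul, map_sub, map_sub]
  linear_combination h1

end FA.TateSen
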