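import Fermat.Agent.TateSen.Galois

/-!
# The trace of a finite extension above the cyclotomic tower is almost surjective
-/

set_option autoImplicit false
set_option linter.unusedSectionVars false

noncomputable section

open Finset
open scoped IntermediateField

namespace FA.TateSen

variable {p : ℕ} [hp : Fact p.Prime]

local notation "Ω" => PadicAlgCl p
local notation "G" => PadicAlgCl p ≃ₐ[ℚ_[p]] PadicAlgCl p

/-- **Almost purity for traces**: every finite extension of an algebraic extension of the tower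
has elements of absolute value as near to one as wished with trace one. -/
theorem exists_trace_eq_one {F : IntermediateField ℚ_[p] Ω} (hF : cycInf p ≤ F)
    (L : IntermediateField F Ω) [FiniteDimensional F L] {E : ℝ} (hE : 1 < E) :
    ∃ y : L, ‖(y : Ω)‖ ≤ E ∧ Algebra.trace F L y = 1 := by
  classical
  have : CharZero F := (RingHom.charZero_iff (algebraMap F Ω).injective).2 inferInstance
  obtain ⟨x, hx⟩ := Field.exists_primitive_element F L
  obtain ⟨N, hxN, -, -, hNn, hNo⟩ := exists_normal_field (x : Ω)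
  have := hNn
  set U := IntermediateField.fixingSubgroup N
  have := levelGroup_finite (F := F) hNo
  have : Fintype (LevelGroup F U) := Fintype.ofFinite _
  obtain ⟨ζ, hζ, hζf⟩ := exists_zeta_level (U := U) hF
  have hxl : (x : Ω) ∈ levelField F U := mem_levelField_of_normal hxN
  set x' : levelField F U := ⟨x, hxl⟩
  set S := MulAction.stabilizer (LevelGroup F U) x'
  have : Fintype S := Fintype.ofFinite _
  have hdeep := deep_level (U := U) (deep_of_cycInf_le hF)
  obtain ⟨t, htE, hts⟩ := exists_sum_smul_eq_one tame_level hdeep hζ hζf hE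
  have hLeq : L.restrictScalars ℚ_[p] = F ⊔ IntermediateField.adjoin ℚ_[p] {(x : Ω)} := by
    have h1 : L = F⟮(x : Ω)⟯ := by
      have := congrArg (IntermediateField.map L.val) hx
      rw [IntermediateField.adjoin_map, Set.image_singleton, ← AlgHom.fieldRange_eq_map,
        IntermediateField.fieldRange_val] at this
      exact this.symm
    refine (congrArg (IntermediateField.restrictScalars ℚ_[p]) h1).trans ?_
    rw [IntermediateField.restrictScalars_adjoin, IntermediateField.adjoin_union,
      IntermediateField.adjoin_self]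
  set y₀ : levelField F U := ∑ s : S, s • t with hy₀
  have hy₀S : y₀ ∈ FixedPoints.subfield S (levelField F U) := fun g => by
    rw [hy₀, smul_sum]
    exact Fintype.sum_equiv (Equiv.mulLeft g) _ _ fun s => by rw [← mul_smul]; rfl
  have hy₀L : (y₀ : Ω) ∈ L := by
    have := (mem_fixed_stabilizer hxl y₀).1 hy₀S
    rwa [← hLeq] at this
  refine ⟨⟨(y₀ : Ω), hy₀L⟩, ?_, ?_⟩
  · refine (IsUltrametricDist.norm_sum_le_of_forall_le_of_nonneg (by linarith) fun s _ => ?_ :
      ‖y₀‖ ≤ E)
    exact ((tame_level (p := p) (F := F) (U := U)).iso (s : LevelGroup F U) t).trans_le htE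
  have hLle : ∀ z : L, (z : Ω) ∈ levelField F U := fun z =>
    (sup_le le_levelField (IntermediateField.adjoin_simple_le_iff.2 hxl) :
      F ⊔ IntermediateField.adjoin ℚ_[p] {(x : Ω)} ≤ levelField F U) (by
        rw [← hLeq]; exact z.2)
  have hcomm : ∀ (g : LevelGroup F U) (r : F), (g • (⟨r, le_levelField r.2⟩ : levelField F U)) =
      ⟨r, le_levelField r.2⟩ := fun g r => (mem_fixed_level (U := U)).2 r.2 g
  let Φ : LevelGroup F U → (L →ₐ[F] Ω) := fun g =>
    { toFun := fun z => ((g • (⟨z, hLle z⟩ : levelField F U) : levelField F U) : Ω)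
      map_one' := congrArg Subtype.val (smul_one g : g • (1 : levelField F U) = 1)
      map_mul' := fun a b => congrArg Subtype.val
        (smul_mul' g (⟨a, hLle a⟩ : levelField F U) ⟨b, hLle b⟩)
      map_zero' := congrArg Subtype.val (smul_zero g : g • (0 : levelField F U) = 0)
      map_add' := fun a b => congrArg Subtype.val
        (smul_add g (⟨a, hLle a⟩ : levelField F U) ⟨b, hLle b⟩)
      commutes' := fun r => congrArg Subtype.val (hcomm g r) }
  have hsurj : Function.Surjective Φ := fun φ => by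
    have : Normal F Ω := normal_iff.2 fun z =>
      ⟨(Algebra.IsAlgebraic.isAlgebraic (R := ℚ_[p]) z).isIntegral.tower_top,
        IsAlgClosed.splits _⟩
    have : Algebra.IsAlgebraic F Ω := Algebra.IsAlgebraic.tower_top F (K := ℚ_[p])
    set σ : Ω ≃ₐ[F] Ω := AlgEquiv.ofBijective (φ.liftNormal Ω)
      (AlgHom.normal_bijective F Ω Ω _)
    set σ₀ : G := σ.restrictScalars ℚ_[p]
    have hσ₀ : σ₀ ∈ F.fixingSubgroup :=
      (IntermediateField.mem_fixingSubgroup_iff _ _).2 fun z hz => σ.commutes ⟨z, hz⟩
    refine ⟨⟨levelRes ⟨σ₀, hσ₀⟩, ⟨⟨σ₀, hσ₀⟩, rfl⟩⟩, AlgHom.ext fun z => ?_⟩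
    exact φ.liftNormal_commutes Ω z
  have hfib : ∀ g g' : LevelGroup F U, Φ g' = Φ g ↔ g⁻¹ * g' ∈ S := fun g g' => by
    refine ⟨fun h => ?_, fun h => AlgHom.ext fun z => congrArg Subtype.val ?_⟩
    · have h' : g' • x' = g • x' := Subtype.ext (DFunLike.congr_fun h x)
      rw [MulAction.mem_stabilizer_iff, mul_smul, h', inv_smul_smul]
    · have hz : (g⁻¹ * g') • (⟨z, hLle z⟩ : levelField F U) = ⟨z, hLle z⟩ :=
        (mem_fixed_stabilizer hxl ⟨z, hLle z⟩).2 (by rw [← hLeq]; exact z.2) ⟨_, h⟩
      rwa [mul_smul, inv_smul_eq_iff] at hz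
  refine (algebraMap F Ω).injective ?_
  rw [trace_eq_sum_embeddings, map_one]
  have h1 : ∑ g : LevelGroup F U, ((g • t : levelField F U) : Ω) = 1 := by
    have := congrArg Subtype.val hts
    simpa using this
  rw [← h1, ← Finset.sum_fiberwise univ Φ]
  refine sum_congr rfl fun φ _ => ?_
  obtain ⟨g, rfl⟩ := hsurj φ
  change (((g • y₀ : levelField F U)) : Ω) = _
  rw [hy₀, smul_sum, AddSubmonoidClass.coe_finsetSum]
  refine sum_bij (fun s _ => g * (s : LevelGroup F U)) (fun s _ => ?_) (fun a _ b _ h => ?_)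
    (fun g' hg' => ?_) fun s _ => ?_
  · rw [mem_filter]
    exact ⟨mem_univ _, (hfib g _).2 (by rw [inv_mul_cancel_left]; exact s.2)⟩
  · exact Subtype.ext (mul_left_cancel h)
  · rw [mem_filter] at hg'
    exact ⟨⟨_, (hfib g g').1 hg'.2⟩, mem_univ _, mul_inv_cancel_left g g'⟩
  · exact (congrArg Subtype.val (mul_smul g (s : LevelGroup F U) t)).symm

end FA.TateSen
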