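import Fermat.Agent.TateSen.Galois
import Mathlib.NumberTheory.Cyclotomic.CyclotomicCharacter

/-!
# The twisted action of the Galois group on `ℂ_p`
-/

set_option autoImplicit false
set_option linter.unusedSectionVars false

noncomputable section

open UniformSpace Filter
open scoped Topology

namespace FA.TateSen

variable {p : ℕ} [hp : Fact p.Prime]

local notation "Ω" => PadicAlgCl p
local notation "G" => PadicAlgCl p ≃ₐ[ℚ_[p]] PadicAlgCl p

instance (i : ℕ) : HasEnoughRootsOfUnity Ω (p ^ i) :=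
  have : NeZero (p ^ i) := ⟨pow_ne_zero _ hp.out.ne_zero⟩
  ⟨exists_primitive p i, rootsOfUnity.isCyclic _ _⟩

variable (p) in
/-- The cyclotomic character of `ℚ_p`. -/
def chi : G →* ℤ_[p]ˣ :=
  (cyclotomicCharacter Ω p).comp (MulSemiringAction.toRingAut G Ω)

theorem continuous_chi : Continuous (chi p : G → ℤ_[p]ˣ) :=
  cyclotomicCharacter.continuous p ℚ_[p] Ω

theorem apply_root (σ : G) {n : ℕ} {z : Ω} (hz : z ^ p ^ n = 1) :
    σ z = z ^ ((chi p σ : ℤ_[p]).toZModPow n).val :=
  cyclotomicCharacter.spec (L := Ω) p (MulSemiringAction.toRingAut G Ω σ) z hz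

theorem toZModPow_eq_of_root (σ : G) {n k : ℕ} {z : Ω} (hz : IsPrimitiveRoot z (p ^ n))
    (h : σ z = z ^ k) : (chi p σ : ℤ_[p]).toZModPow n = k := by
  have : NeZero (p ^ n) := ⟨pow_ne_zero _ hp.out.ne_zero⟩
  have hk : z ^ k = z ^ (k % p ^ n) := by
    conv_lhs => rw [← Nat.div_add_mod k (p ^ n), pow_add, pow_mul, hz.pow_eq_one, one_pow, one_mul]
  rw [apply_root σ hz.pow_eq_one, hk] at h
  replace h := hz.pow_inj (ZMod.val_lt _) (Nat.mod_lt _ (NeZero.pos _)) h
  rw [← ZMod.natCast_mod k, ← h, ZMod.natCast_val, ZMod.cast_id]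

theorem mem_fix_cycInf_iff (σ : G) :
    σ ∈ (cycInf p).fixingSubgroup ↔ chi p σ = 1 := by
  refine ⟨fun h => Units.ext (PadicInt.ext_of_toZModPow.1 fun n => ?_), fun h => ?_⟩
  · obtain ⟨z, hz⟩ := exists_primitive p n
    have h1 : σ z = z ^ 1 := by
      rw [pow_one]
      exact fixed_of_le h (cycLevel_le_cycInf n (IntermediateField.subset_adjoin _ _ hz.pow_eq_one))
    rw [toZModPow_eq_of_root σ hz h1, Units.val_one, map_one, Nat.cast_one]
  · rw [IntermediateField.mem_fixingSubgroup_iff]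
    intro x hx
    have hle : cycInf p ≤ IntermediateField.fixedField (Subgroup.zpowers σ) := by
      refine iSup_le fun n => IntermediateField.adjoin_le_iff.2 fun z hz => ?_
      rintro ⟨τ, hτ⟩
      have hσ : σ z = z := by
        rw [apply_root σ hz, h, Units.val_one, map_one, ZMod.val_one_eq_one_mod]
        rcases Nat.eq_zero_or_pos n with rfl | hn
        · simp only [pow_zero, Nat.mod_self, pow_one] at hz ⊢
          exact hz.symm
        · rw [Nat.one_mod_eq_one.2 (one_lt_pow₀ hp.out.one_lt hn.ne').ne', pow_one]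
      have : Subgroup.zpowers σ ≤ MulAction.stabilizer G z := by
        rw [Subgroup.zpowers_le]; exact hσ
      exact this hτ
    exact hle hx ⟨σ, Subgroup.mem_zpowers _⟩

theorem uniformContinuous_gal (σ : G) : UniformContinuous (σ : Ω → Ω) :=
  (Isometry.of_dist_eq (f := (σ : Ω → Ω)) fun a b => by
    rw [dist_eq_norm, dist_eq_norm, ← map_sub, norm_gal]).uniformContinuous

/-- The action on `ℂ_p`. -/
def gal (σ : G) : ℂ_[p] →+* ℂ_[p] :=
  Completion.mapRingHom (σ : Ω →+* Ω) (uniformContinuous_gal σ).continuous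

theorem gal_apply (σ : G) (x : ℂ_[p]) : gal σ x = Completion.map (σ : Ω → Ω) x := rfl

theorem gal_coe (σ : G) (a : Ω) : gal σ (a : ℂ_[p]) = ((σ a : Ω) : ℂ_[p]) :=
  Completion.map_coe (uniformContinuous_gal σ) a

theorem isometry_gal (σ : G) : Isometry (gal σ : ℂ_[p] → ℂ_[p]) :=
  (Isometry.of_dist_eq (f := (σ : Ω → Ω)) fun a b => by
    rw [dist_eq_norm, dist_eq_norm, ← map_sub, norm_gal]).completion_map

theorem norm_galC (σ : G) (x : ℂ_[p]) : ‖gal σ x‖ = ‖x‖ :=
  (isometry_gal σ).norm_map_of_map_zero (map_zero _) x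

theorem gal_one (x : ℂ_[p]) : gal (1 : G) x = x := by
  induction x using Completion.induction_on with
  | hp => exact isClosed_eq (isometry_gal (1 : G)).continuous continuous_id
  | ih a => rw [gal_coe]; rfl

theorem gal_mul (σ τ : G) (x : ℂ_[p]) : gal (σ * τ) x = gal σ (gal τ x) := by
  induction x using Completion.induction_on with
  | hp =>
    exact isClosed_eq (isometry_gal (σ * τ)).continuous
      ((isometry_gal σ).continuous.comp (isometry_gal τ).continuous)
  | ih a => rw [gal_coe, gal_coe, gal_coe]; rfl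

theorem gal_scalar (σ : G) (c : ℚ_[p]) :
    gal σ (algebraMap ℚ_[p] ℂ_[p] c) = algebraMap ℚ_[p] ℂ_[p] c := by
  rw [IsScalarTower.algebraMap_apply ℚ_[p] Ω ℂ_[p], ← PadicComplex.coe_eq, gal_coe, σ.commutes]

/-- Around every automorphism there is a neighbourhood on which an element is constant. -/
theorem eventually_apply_eq (σ : G) (a : Ω) : ∀ᶠ τ : G in 𝓝 σ, τ a = σ a := by
  obtain ⟨E, haE, -, -, -, hopen⟩ := exists_normal_field a
  have hc : Continuous fun τ : G => σ⁻¹ * τ := continuous_const.mul continuous_id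
  have hmem : (fun τ : G => σ⁻¹ * τ) ⁻¹' (E.fixingSubgroup : Set G) ∈ 𝓝 σ :=
    (hopen.preimage hc).mem_nhds (by simp [E.fixingSubgroup.one_mem])
  filter_upwards [hmem] with τ hτ
  have h := congrArg σ (fixed_of_le hτ haE)
  rwa [← AlgEquiv.mul_apply, mul_inv_cancel_left] at h

theorem continuous_gal_apply (x : ℂ_[p]) : Continuous fun σ : G => gal σ x := by
  rw [continuous_iff_continuousAt]
  intro σ
  rw [ContinuousAt, Metric.tendsto_nhds]
  intro ε hε
  obtain ⟨a, ha⟩ := (Completion.denseRange_coe (α := Ω)).exists_dist_lt x hε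
  filter_upwards [eventually_apply_eq σ a] with τ hτ
  rw [dist_eq_norm]
  have e : gal τ x - gal σ x =
      gal τ (x - (a : ℂ_[p])) - gal σ (x - (a : ℂ_[p])) := by
    rw [map_sub, map_sub, gal_coe, gal_coe, hτ]; ring
  rw [e, sub_eq_add_neg]
  refine (IsUltrametricDist.norm_add_le_max _ _).trans_lt ?_
  rw [norm_neg, norm_galC, norm_galC, max_self, ← dist_eq_norm]
  exact ha

variable (p) in
/-- The scalar by which `σ` acts in the twist by the `j`-th power of the character. -/
def twist (j : ℤ) (σ : G) : ℂ_[p] :=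
  algebraMap ℚ_[p] ℂ_[p] (((chi p σ : ℤ_[p]) : ℚ_[p]) ^ j)

variable (p) in
/-- A continuous cocycle with values in `ℂ_p(j)`. -/
structure IsCocycle (j : ℤ) (f : G → ℂ_[p]) : Prop where
  cont : Continuous f
  cocycle : ∀ σ τ, f (σ * τ) = f σ + twist p j σ * gal σ (f τ)

variable (p) in
/-- The coboundary of an element. -/
def coboundary (j : ℤ) (y : ℂ_[p]) (σ : G) : ℂ_[p] :=
  twist p j σ * gal σ y - y

theorem norm_chi (σ : G) : ‖((chi p σ : ℤ_[p]) : ℚ_[p])‖ = 1 := by
  rw [← PadicInt.norm_def]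
  exact PadicInt.isUnit_iff.1 (chi p σ).isUnit

theorem chi_ne_zero (σ : G) : ((chi p σ : ℤ_[p]) : ℚ_[p]) ≠ 0 :=
  norm_ne_zero_iff.1 ((norm_chi σ).trans_ne one_ne_zero)

theorem twist_mul (j : ℤ) (σ τ : G) : twist p j (σ * τ) = twist p j σ * twist p j τ := by
  rw [twist, twist, twist, ← map_mul, ← mul_zpow, map_mul, Units.val_mul, PadicInt.coe_mul]

theorem gal_twist (j : ℤ) (σ τ : G) : gal σ (twist p j τ) = twist p j τ := gal_scalar σ _

theorem norm_twist (j : ℤ) (σ : G) : ‖twist p j σ‖ = 1 := by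
  rw [twist, norm_algebraMap', norm_zpow, norm_chi, one_zpow]

theorem twist_eq_one {j : ℤ} {σ : G} (h : σ ∈ (cycInf p).fixingSubgroup) : twist p j σ = 1 := by
  rw [twist, (mem_fix_cycInf_iff σ).1 h, Units.val_one, PadicInt.coe_one, one_zpow, map_one]

theorem twist_zero (σ : G) : twist p 0 σ = 1 := by rw [twist, zpow_zero, map_one]

theorem continuous_twist (j : ℤ) : Continuous (twist p j) := by
  refine (continuous_algebraMap ℚ_[p] ℂ_[p]).comp ?_
  have h1 : Continuous fun σ : G => (chi p σ : ℤ_[p]) := Units.continuous_val.comp continuous_chi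
  have h2 : Continuous fun σ : G => ((chi p σ : ℤ_[p]) : ℚ_[p]) := continuous_subtype_val.comp h1
  exact h2.zpow₀ j fun σ => Or.inl (chi_ne_zero σ)

theorem coboundary_isCocycle (j : ℤ) (y : ℂ_[p]) : IsCocycle p j (coboundary p j y) where
  cont := ((continuous_twist j).mul (continuous_gal_apply y)).sub continuous_const
  cocycle σ τ := by
    rw [coboundary, coboundary, coboundary, twist_mul, gal_mul, map_sub, map_mul, gal_twist]
    ring

theorem IsCocycle.sub {j : ℤ} {f g : G → ℂ_[p]} (hf : IsCocycle p j f) (hg : IsCocycle p j g) :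
    IsCocycle p j (fun σ => f σ - g σ) where
  cont := hf.cont.sub hg.cont
  cocycle σ τ := by
    rw [hf.cocycle, hg.cocycle, map_sub]
    ring

theorem IsCocycle.map_one {j : ℤ} {f : G → ℂ_[p]} (hf : IsCocycle p j f) : f 1 = 0 := by
  have h := hf.cocycle 1 1
  rw [one_mul, gal_one, twist_eq_one (one_mem _), one_mul, left_eq_add] at h
  exact h

end FA.TateSen
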