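import Fermat.Agent.TateSen.Kummer

/-!
# Cyclic extensions of degree `p` of a deep field are deep

An element is interpolated by a polynomial of degree less than `p` in `z` with coefficients below;
the equation of `z` expresses `z` as a `p`-th power up to a small error.
-/

set_option autoImplicit false
set_option linter.unusedSectionVars false

noncomputable section

open Finset Polynomial

namespace FA.TateSen

variable {Γ N : Type*} [Group Γ] [NormedField N] [IsUltrametricDist N] [CharZero N]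
  [MulSemiringAction Γ N] {p : ℕ} [hp : Fact p.Prime]

theorem norm_coeff_prod_le {ι : Type*} (s : Finset ι) (a b : ι → N) {E : ℝ} (hE : 1 ≤ E)
    (ha : ∀ i ∈ s, ‖a i‖ ≤ 1) (hb : ∀ i ∈ s, ‖b i‖ ≤ E) (n : ℕ) :
    ‖(∏ i ∈ s, C (a i) * (X - C (b i))).coeff n‖ ≤ E ^ s.card := by
  classical
  induction s using Finset.induction_on generalizing n with
  | empty =>
    rw [prod_empty, card_empty, pow_zero, coeff_one]
    split <;> simp
  | insert i s hi ih =>
    rw [forall_mem_insert] at ha hb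
    rw [prod_insert hi, card_insert_of_notMem hi, mul_assoc, coeff_C_mul, norm_mul, sub_mul,
      coeff_sub, coeff_C_mul]
    refine (mul_le_of_le_one_left (norm_nonneg _) ha.1).trans (norm_sub_le_of_le ?_ ?_)
    · rcases n with _ | n
      · rw [coeff_X_mul_zero, norm_zero]; positivity
      · rw [coeff_X_mul]
        exact (ih ha.2 hb.2 n).trans (pow_le_pow_right₀ hE (Nat.le_succ _))
    · rw [norm_mul, pow_succ']
      exact mul_le_mul hb.1 (ih ha.2 hb.2 n) (norm_nonneg _) (by linarith)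

variable {H' H : Subgroup Γ} {σ : Γ}

/-- The elements upstairs are polynomials in the coordinate. -/
theorem CyclicStep.exists_coeff (hS : CyclicStep p H' H σ) (hiso : ∀ (g : Γ) (x : N), ‖g • x‖ = ‖x‖)
    {ξ α : N} (hξ : IsPrimitiveRoot ξ p) (hξf : ξ ∈ FixedPoints.subfield Γ N)
    (hα : α ∈ FixedPoints.subfield H' N) (hσα : σ • α = ξ * α) (hαn : ‖α‖ = 1) {E : ℝ}
    (hE : 1 ≤ E) (hz : ‖(α - 1) / (ξ - 1)‖ ≤ E) {x : N} (hx : x ∈ FixedPoints.subfield H' N) :
    ∃ c : ℕ → N, (∀ i, c i ∈ FixedPoints.subfield H N ∧ ‖c i‖ ≤ E ^ p * ‖x‖) ∧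
      x = ∑ i ∈ range p, c i * ((α - 1) / (ξ - 1)) ^ i := by
  set z := (α - 1) / (ξ - 1) with hzd
  have hzH : z ∈ FixedPoints.subfield H' N := div_mem (sub_mem hα (one_mem _))
    (sub_mem (mem_fixed.2 fun h _ => hξf h) (one_mem _))
  set v : ℕ → N := fun i => σ ^ i • z with hv
  set r : ℕ → N := fun i => σ ^ i • x with hr
  have hπ0 : ξ - 1 ≠ 0 := sub_ne_zero.2 (hξ.ne_one hp.out.one_lt)
  have hdiff : ∀ i j, i < p → j < p → i ≠ j → ‖v i - v j‖ = 1 := by
    intro i j hi hj hij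
    simp only [hv, hzd, smul_coord hξf, pow_smul_radical hξf hσα]
    rw [div_sub_div_same, sub_sub_sub_cancel_right, ← sub_mul, norm_div, norm_mul, hαn, mul_one,
      norm_pow_sub_pow hξ hi hj hij, div_self (norm_ne_zero_iff.2 hπ0)]
  have hinj : Set.InjOn v (range p : Finset ℕ) := by
    intro i hi j hj h
    by_contra hne
    have := hdiff i j (mem_range.1 hi) (mem_range.1 hj) hne
    rw [h, sub_self, norm_zero] at this
    exact one_ne_zero this.symm
  set P := Lagrange.interpolate (range p) v r with hP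
  have hdeg : P.degree < (range p).card := Lagrange.degree_interpolate_lt _ hinj
  have heval : ∀ i < p, P.eval (v i) = r i := fun i hi =>
    Lagrange.eval_interpolate_at_node _ hinj (mem_range.2 hi)
  have hmap : ∀ g : Γ, (∀ i < p, ∃ j < p, g • v j = v i ∧ g • r j = r i) →
      ∀ n, g • P.coeff n = P.coeff n := by
    intro g hg n
    have h1 : P.map (MulSemiringAction.toRingHom Γ N g) = P := by
      refine Lagrange.eq_interpolate_of_eval_eq r hinj
        ((degree_map_le).trans_lt hdeg) fun i hi => ?_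
      obtain ⟨j, hj, h1, h2⟩ := hg i (mem_range.1 hi)
      rw [← h1, ← MulSemiringAction.toRingHom_apply, eval_map, eval₂_at_apply, heval j hj]
      exact h2
    have h2 := congrArg (fun Q => Q.coeff n) h1
    simp only [coeff_map, MulSemiringAction.toRingHom_apply] at h2
    exact h2
  have hmem : ∀ n, P.coeff n ∈ FixedPoints.subfield H N := fun n => by
    refine hS.mem_fixed_of (mem_fixed.2 fun h hh => hmap h (fun i hi => ⟨i, hi, ?_, ?_⟩) n)
      (hmap σ (fun i hi => ?_) n)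
    · exact mem_fixed.1 (hS.pow_smul_mem hzH i) h hh
    · exact mem_fixed.1 (hS.pow_smul_mem hx i) h hh
    · rcases Nat.eq_zero_or_pos i with rfl | hi0
      · refine ⟨p - 1, Nat.sub_lt hp.out.pos one_pos, ?_, ?_⟩ <;>
          simp only [hv, hr, ← mul_smul, ← pow_succ', Nat.sub_add_cancel hp.out.one_le, pow_zero,
            one_smul]
        · exact hS.pow_smul hzH
        · exact hS.pow_smul hx
      · refine ⟨i - 1, by omega, ?_, ?_⟩ <;>
          simp only [hv, hr, ← mul_smul, ← pow_succ', Nat.sub_add_cancel hi0]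
  have hbound : ∀ n, ‖P.coeff n‖ ≤ E ^ p * ‖x‖ := fun n => by
    rw [hP, Lagrange.interpolate_apply, finsetSum_coeff]
    refine norm_sum_range_le (by positivity) fun i hi => ?_
    rw [coeff_C_mul, norm_mul, hr, hiso, mul_comm (E ^ p)]
    refine mul_le_mul_of_nonneg_left ?_ (norm_nonneg _)
    unfold Lagrange.basis Lagrange.basisDivisor
    refine (norm_coeff_prod_le _ (fun j => (v i - v j)⁻¹) v hE (fun j hj => ?_) (fun j _ => ?_)
      n).trans (pow_le_pow_right₀ hE ((card_erase_le).trans (card_range p).le))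
    · rw [mem_erase, mem_range] at hj
      rw [norm_inv, hdiff i j (mem_range.1 hi) hj.2 (Ne.symm hj.1), inv_one]
    · rw [hv, hiso]; exact hz
  refine ⟨P.coeff, fun i => ⟨hmem i, hbound i⟩, ?_⟩
  have h0 := heval 0 hp.out.pos
  simp only [hv, hr, pow_zero, one_smul] at h0
  rw [← h0]
  refine Polynomial.eval_eq_sum_range' ?_ z
  rcases eq_or_ne P 0 with hP0 | hP0
  · rw [hP0, natDegree_zero]; exact hp.out.pos
  · rw [card_range] at hdeg
    exact (natDegree_lt_iff_degree_lt hP0).2 hdeg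

/-- **Cyclic extensions of degree `p` of a deep field are deep.** -/
theorem CyclicStep.deep [Finite Γ] [FaithfulSMul Γ N] (hp1 : ‖(p : N)‖ < 1)
    (hiso : ∀ (g : Γ) (x : N), ‖g • x‖ = ‖x‖) (hS : CyclicStep p H' H σ) {ζ : N}
    (hζ : IsPrimitiveRoot ζ p) (hζf : ζ ∈ FixedPoints.subfield Γ N)
    (hdeep : Deep p (FixedPoints.subfield H N)) : Deep p (FixedPoints.subfield H' N) := by
  have hp2 := hp.out.two_le
  have hπ := norm_sub_one_pos hp.out.one_lt hζ
  have hπ1 : ‖ζ - 1‖ < 1 := norm_sub_one_lt (n := 0) hp1 (by simpa using hζ)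
  have hpπ : ‖(p : N)‖ ≤ ‖ζ - 1‖ := by
    rw [← norm_sub_one_pow hζ]
    exact pow_le_of_le_one hπ.le hπ1.le (by omega)
  obtain ⟨E, hE, hEs⟩ : ∃ E : ℝ, 1 < E ∧ ‖ζ - 1‖ * E ^ (3 * p) < 1 := by
    have hc : ContinuousAt (fun F : ℝ => ‖ζ - 1‖ * F ^ (3 * p)) 1 := by fun_prop
    obtain ⟨δ, hδ, h⟩ := Metric.eventually_nhds_iff.1
      (hc.eventually (IsOpen.mem_nhds (isOpen_Iio (a := (1 : ℝ))) (by simpa using hπ1)))
    refine ⟨1 + δ / 2, by linarith, h ?_⟩
    rw [Real.dist_eq, abs_of_pos (by linarith)]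
    linarith
  have hsmall : ‖ζ - 1‖ ^ p * E < 1 :=
    (mul_le_mul (pow_le_of_le_one hπ.le hπ1.le hp.out.ne_zero)
      (le_self_pow₀ hE.le (by omega)) (by linarith) hπ.le).trans_lt hEs
  obtain ⟨ξ, α, hξ, hξf, hα, hσα, hnear⟩ := hS.exists_normalised hp1 hζ hζf hdeep hE
  rw [← norm_sub_one_eq_of_primitive hp.out.ne_zero hζ hξ] at hπ hπ1 hpπ hEs hsmall
  obtain ⟨hαn, hz, hd1⟩ := norm_coord_le hξ hE.le hsmall hnear
  set π := ξ - 1 with hπd
  set z := (α - 1) / π with hzd
  have hπ0 : π ≠ 0 := norm_pos_iff.1 hπ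
  have hpow : α ^ p ∈ FixedPoints.subfield H N := hS.mem_fixed_of (pow_mem hα p) (by
    rw [smul_pow', hσα, mul_pow, hξ.pow_eq_one, one_mul])
  have hπH : π ∈ FixedPoints.subfield H N :=
    sub_mem (mem_fixed.2 fun h _ => hξf h) (one_mem _)
  -- the equation of the coordinate
  set u := (p : N) / π ^ (p - 1) with hu
  have hun : ‖u‖ = 1 := by
    rw [hu, norm_div, norm_pow, norm_sub_one_pow hξ,
      div_self (norm_ne_zero_iff.2 (Nat.cast_ne_zero.2 hp.out.ne_zero))]
  set c' := (α ^ p - 1) / π ^ p with hc'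
  have hcn : ‖c'‖ ≤ E := by
    rw [hc', norm_div, norm_pow, div_le_iff₀' (pow_pos hπ p)]
    exact hnear
  have heq : z = c' / u + -u⁻¹ * z ^ p -
      (α ^ p - 1 - (α - 1) ^ p - (p : N) * (α - 1)) / (π ^ p * u) := by
    rw [hc', hu, hzd, div_pow, ← pow_sub_one_mul hp.out.ne_zero π]
    have hP := pow_ne_zero (p - 1) hπ0
    generalize π ^ (p - 1) = P at hP ⊢
    generalize (α - 1) ^ p = D
    have hpN : (p : N) ≠ 0 := Nat.cast_ne_zero.2 hp.out.ne_zero
    field_simp
    ring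
  have he : ‖(α ^ p - 1 - (α - 1) ^ p - (p : N) * (α - 1)) / (π ^ p * u)‖ ≤ ‖π‖ * E ^ 2 := by
    have h1 := norm_one_add_pow_sub_linear_le (p := p) hd1
    rw [add_sub_cancel] at h1
    rw [norm_div, norm_mul, hun, mul_one, norm_pow, div_le_iff₀ (pow_pos hπ p)]
    refine h1.trans ?_
    have hd : ‖α - 1‖ ≤ ‖π‖ * E := by
      rw [hzd, norm_div, div_le_iff₀' hπ] at hz
      exact hz
    rw [← norm_sub_one_pow hξ, ← pow_sub_one_mul hp.out.ne_zero ‖π‖]
    refine (mul_le_mul_of_nonneg_left (pow_le_pow_left₀ (norm_nonneg _) hd 2)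
      (by positivity)).trans_eq ?_
    ring
  obtain ⟨b₁, hb₁, hb₁c⟩ := hdeep (c' / u) (div_mem (div_mem (sub_mem hpow (one_mem _))
    (pow_mem hπH _)) (div_mem (natCast_mem _ p) (pow_mem hπH _)))
  obtain ⟨b₂, hb₂, hb₂c⟩ := hdeep (-u⁻¹)
    (neg_mem (inv_mem (div_mem (natCast_mem _ p) (pow_mem hπH _))))
  rw [norm_div, hun, div_one] at hb₁c
  rw [norm_neg, norm_inv, hun, inv_one] at hb₂c
  have hb₁E : ‖b₁‖ ^ p ≤ E := norm_pow_le_of_approx hp1.le (x := c' / u)
    (by rw [norm_div, hun, div_one]; exact hcn)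
    (hb₁c.trans (mul_le_mul_of_nonneg_left hcn (norm_nonneg _)))
  have hb₂E : ‖b₂‖ ^ p ≤ 1 := norm_pow_le_of_approx hp1.le (x := -u⁻¹)
    (by rw [norm_neg, norm_inv, hun, inv_one]) hb₂c
  have hle : ∀ H0 : Subgroup Γ, H0 ≤ H → ∀ {y : N}, y ∈ FixedPoints.subfield H N →
      y ∈ FixedPoints.subfield H0 N :=
    fun H0 h {y} hy => mem_fixed.2 fun g hg => mem_fixed.1 hy g (h hg)
  set w := b₁ + b₂ * z with hw
  have hzH : z ∈ FixedPoints.subfield H' N :=
    div_mem (sub_mem hα (one_mem _)) (hle _ hS.le hπH)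
  have hwH : w ∈ FixedPoints.subfield H' N :=
    add_mem (hle _ hS.le hb₁) (mul_mem (hle _ hS.le hb₂) hzH)
  have hE1 : E ≤ E ^ 2 := le_self_pow₀ hE.le two_ne_zero
  have hbz : ‖b₂ * z‖ ≤ E := by
    rw [norm_mul]
    refine (mul_le_of_le_one_left (norm_nonneg _) ?_).trans hz
    by_contra h
    exact absurd hb₂E (not_le.2 (one_lt_pow₀ (not_le.1 h) hp.out.ne_zero))
  have hb₁' : ‖b₁‖ ≤ E := by
    by_contra h
    exact absurd hb₁E (not_le.2 ((not_le.1 h).trans_le (le_self_pow₀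
      (hE.le.trans (not_le.1 h).le) hp.out.ne_zero)))
  have hzw : ‖z - w ^ p‖ ≤ ‖π‖ * E ^ p * E := by
    have key : z - w ^ p = (c' / u - b₁ ^ p) + (-u⁻¹ - b₂ ^ p) * z ^ p -
        (α ^ p - 1 - (α - 1) ^ p - (p : N) * (α - 1)) / (π ^ p * u) -
        ((b₁ + b₂ * z) ^ p - b₁ ^ p - (b₂ * z) ^ p) := by
      rw [hw, mul_pow]
      linear_combination heq
    have hpE : ‖(p : N)‖ * E ^ p ≤ ‖π‖ * E ^ p * E :=
      (mul_le_mul_of_nonneg_right hpπ (by positivity)).trans
        (le_mul_of_one_le_right (by positivity) hE.le)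
    rw [key]
    refine norm_sub_le_of_le (norm_sub_le_of_le (norm_add_le_of_le ?_ ?_) ?_) ?_
    · exact hb₁c.trans ((mul_le_mul_of_nonneg_left (hcn.trans (le_self_pow₀ hE.le hp.out.ne_zero))
        (norm_nonneg _)).trans hpE)
    · rw [norm_mul, norm_pow]
      exact (mul_le_mul (hb₂c.trans_eq (mul_one _)) (pow_le_pow_left₀ (norm_nonneg _) hz p)
        (by positivity) (norm_nonneg _)).trans hpE
    · refine he.trans ?_
      rw [mul_assoc, ← pow_succ]
      exact mul_le_mul_of_nonneg_left (pow_le_pow_right₀ hE.le (by omega)) hπ.le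
    · exact (norm_add_pow_sub_le hb₁' hbz).trans hpE
  have hwn : ‖w ^ p‖ ≤ E := by
    refine norm_le_of_sub_le (hzw.trans ?_) hz
    refine mul_le_of_le_one_left (by linarith) (le_trans ?_ hEs.le)
    exact mul_le_mul_of_nonneg_left (pow_le_pow_right₀ hE.le (by omega)) hπ.le
  -- the approximation
  refine deep_of_approx hp1 (θ := ‖π‖ * E ^ (3 * p)) (by positivity) hEs fun x hx => ?_
  obtain ⟨c, hc, hxc⟩ := hS.exists_coeff hiso hξ hξf hα hσα hαn hE.le hz hx
  choose b hb hbc using fun i => hdeep (c i) (hc i).1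
  refine ⟨∑ i ∈ range p, b i * w ^ i,
    sum_mem fun i _ => mul_mem (hle _ hS.le (hb i)) (pow_mem hwH i), ?_⟩
  have hci : ∀ i, ‖b i‖ ^ p ≤ E ^ p * ‖x‖ := fun i =>
    norm_pow_le_of_approx hp1.le (hc i).2
      ((hbc i).trans (mul_le_mul_of_nonneg_left (hc i).2 (norm_nonneg _)))
  have hsplit : x - (∑ i ∈ range p, b i * w ^ i) ^ p =
      ∑ i ∈ range p, ((c i - b i ^ p) * z ^ i + b i ^ p * (z ^ i - (w ^ p) ^ i)) -
        ((∑ i ∈ range p, b i * w ^ i) ^ p - ∑ i ∈ range p, (b i * w ^ i) ^ p) := by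
    have e : ∑ i ∈ range p, ((c i - b i ^ p) * z ^ i + b i ^ p * (z ^ i - (w ^ p) ^ i)) =
        x - ∑ i ∈ range p, (b i * w ^ i) ^ p := by
      rw [hxc, ← sum_sub_distrib]
      refine sum_congr rfl fun i _ => ?_
      rw [mul_pow, ← pow_mul, ← pow_mul, mul_comm p i]
      ring
    rw [e]; ring
  set B := ‖π‖ * E ^ (3 * p) * ‖x‖ with hB
  rw [hsplit]
  refine norm_sub_le_of_le (norm_sum_range_le (by positivity) fun i hi => ?_) ?_
  · rw [mem_range] at hi
    refine norm_add_le_of_le ?_ ?_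
    · rw [norm_mul, norm_pow]
      refine (mul_le_mul ((hbc i).trans (mul_le_mul hpπ (hc i).2 (norm_nonneg _) hπ.le))
        (pow_le_pow_left₀ (norm_nonneg _) hz i) (by positivity) (by positivity)).trans ?_
      calc ‖π‖ * (E ^ p * ‖x‖) * E ^ i = ‖π‖ * E ^ (p + i) * ‖x‖ := by ring
        _ ≤ B := by
          rw [hB]
          gcongr
          · exact hE.le
          · omega
    · rw [norm_mul, norm_pow]
      rcases Nat.eq_zero_or_pos i with rfl | hi0
      · simp only [pow_zero, sub_self, norm_zero, mul_zero]; positivity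
      rw [← geom_sum₂_mul, norm_mul]
      have hsum : ‖∑ k ∈ range i, z ^ k * (w ^ p) ^ (i - 1 - k)‖ ≤ E ^ (i - 1) := by
        refine norm_sum_range_le (by positivity) fun k hk => ?_
        rw [mem_range] at hk
        rw [norm_mul, norm_pow, norm_pow]
        calc ‖z‖ ^ k * ‖w ^ p‖ ^ (i - 1 - k) ≤ E ^ k * E ^ (i - 1 - k) := by gcongr
          _ = E ^ (i - 1) := by rw [← pow_add]; congr 1; omega
      refine (mul_le_mul (hci i) (mul_le_mul hsum hzw (norm_nonneg _) (by positivity))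
        (by positivity) (by positivity)).trans ?_
      calc E ^ p * ‖x‖ * (E ^ (i - 1) * (‖π‖ * E ^ p * E))
          = ‖π‖ * E ^ (p + (i - 1) + p + 1) * ‖x‖ := by ring
        _ ≤ B := by
          rw [hB]
          gcongr
          · exact hE.le
          · omega
  · have hA : ∀ i ∈ range p, ‖b i * w ^ i‖ ≤ (E ^ (2 * p) * ‖x‖) ^ ((p : ℝ)⁻¹) := by
      intro i hi
      rw [mem_range] at hi
      rw [Real.le_rpow_inv_iff_of_pos (norm_nonneg _) (by positivity)
          (by exact_mod_cast hp.out.pos),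
        Real.rpow_natCast, norm_mul, mul_pow, norm_pow, ← pow_mul, mul_comm i p, pow_mul,
        ← norm_pow w]
      calc ‖b i‖ ^ p * ‖w ^ p‖ ^ i ≤ (E ^ p * ‖x‖) * E ^ i := by
            gcongr
            exact hci i
        _ = E ^ (p + i) * ‖x‖ := by ring
        _ ≤ E ^ (2 * p) * ‖x‖ := by
          gcongr
          · exact hE.le
          · omega
    refine (norm_sum_pow_sub_le (by positivity) hA).trans ?_
    rw [Real.rpow_inv_natCast_pow (by positivity) hp.out.ne_zero]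
    calc ‖(p : N)‖ * (E ^ (2 * p) * ‖x‖) ≤ ‖π‖ * (E ^ (3 * p) * ‖x‖) := by
          refine mul_le_mul hpπ ?_ (by positivity) hπ.le
          gcongr
          · exact hE.le
          · omega
      _ = B := by rw [hB]; ring

end FA.TateSen
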