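import Fermat.Agent.TateSen.Roots

/-!
# The tower of the `p`-power roots of unity over `ℚ_p`

The powers of `π = ζ - 1` below the degree are orthogonal, so every element has a leading term,
the cyclotomic polynomials are irreducible and the union of the tower is deep.
-/

set_option autoImplicit false
set_option linter.unusedSectionVars false

noncomputable section

open Finset Polynomial
open scoped IntermediateField

namespace FA.TateSen

variable {p : ℕ} [hp : Fact p.Prime]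

local notation "Ω" => PadicAlgCl p

theorem norm_p : ‖(p : Ω)‖ = (p : ℝ)⁻¹ := by
  rw [← map_natCast (algebraMap ℚ_[p] Ω), PadicAlgCl.norm_extends, Padic.norm_p]

theorem norm_p_lt_one : ‖(p : Ω)‖ < 1 := by
  rw [norm_p]; exact inv_lt_one_of_one_lt₀ (by exact_mod_cast hp.out.one_lt)

theorem norm_p_pos : 0 < ‖(p : Ω)‖ := by
  rw [norm_p]; exact inv_pos.2 (by exact_mod_cast hp.out.pos)

variable (p) in
/-- The field of the roots of unity of order dividing `p ^ n`. -/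
def cycLevel (n : ℕ) : IntermediateField ℚ_[p] Ω :=
  IntermediateField.adjoin ℚ_[p] {z : Ω | z ^ p ^ n = 1}

variable (p) in
/-- The field of all roots of unity of `p`-power order. -/
def cycInf : IntermediateField ℚ_[p] Ω := ⨆ n, cycLevel p n

theorem cycLevel_mono {m n : ℕ} (h : m ≤ n) : cycLevel p m ≤ cycLevel p n := by
  refine IntermediateField.adjoin.mono _ _ _ fun z hz => ?_
  simp only [Set.mem_ofPred_eq] at hz ⊢
  obtain ⟨k, rfl⟩ := Nat.exists_eq_add_of_le h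
  rw [pow_add, pow_mul, hz, one_pow]

theorem mem_cycInf {x : Ω} : x ∈ cycInf p ↔ ∃ n, x ∈ cycLevel p n := by
  rw [cycInf, ← SetLike.mem_coe, IntermediateField.coe_iSup_of_directed
    (Monotone.directed_le fun _ _ => cycLevel_mono), Set.mem_iUnion]
  rfl

theorem cycLevel_le_cycInf (n : ℕ) : cycLevel p n ≤ cycInf p := le_iSup (cycLevel p) n

variable (p) in
theorem exists_primitive (n : ℕ) : ∃ z : Ω, IsPrimitiveRoot z (p ^ n) := by
  have : NeZero ((p ^ n : ℕ) : Ω) := ⟨Nat.cast_ne_zero.2 (pow_ne_zero _ hp.out.ne_zero)⟩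
  exact HasEnoughRootsOfUnity.exists_primitiveRoot Ω (p ^ n)

theorem cycLevel_eq {n : ℕ} {z : Ω} (hz : IsPrimitiveRoot z (p ^ n)) :
    cycLevel p n = ℚ_[p]⟮z⟯ := by
  refine le_antisymm (IntermediateField.adjoin_le_iff.2 fun w hw => ?_)
    (IntermediateField.adjoin_simple_le_iff.2 (IntermediateField.subset_adjoin _ _ hz.pow_eq_one))
  have : NeZero (p ^ n) := ⟨pow_ne_zero _ hp.out.ne_zero⟩
  obtain ⟨i, -, rfl⟩ := hz.eq_pow_of_pow_eq_one hw
  exact pow_mem (IntermediateField.mem_adjoin_simple_self _ z) i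

instance cycLevel_finite (n : ℕ) : FiniteDimensional ℚ_[p] (cycLevel p n) := by
  obtain ⟨z, hz⟩ := exists_primitive p n
  rw [cycLevel_eq hz]
  exact IntermediateField.adjoin.finiteDimensional (Algebra.IsIntegral.isIntegral z)

/-- The degree of the level `n + 1`. -/
def deg (p n : ℕ) : ℕ := p ^ n * (p - 1)

theorem deg_pos (n : ℕ) : 0 < deg p n :=
  Nat.mul_pos (pow_pos hp.out.pos n) (Nat.sub_pos_of_lt hp.out.one_lt)

/-- Every element of the level is a polynomial of degree less than the degree in `ζ - 1`. -/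
theorem exists_repr {n : ℕ} {z : Ω} (hz : IsPrimitiveRoot z (p ^ (n + 1))) {x : Ω}
    (hx : x ∈ cycLevel p (n + 1)) :
    ∃ a : ℕ → ℚ_[p], x = ∑ i ∈ range (deg p n), (a i : Ω) * (z - 1) ^ i := by
  rw [cycLevel_eq hz, ← IntermediateField.mem_toSubalgebra,
    IntermediateField.adjoin_simple_toSubalgebra_of_isAlgebraic (Algebra.IsAlgebraic.isAlgebraic z),
    Algebra.adjoin_singleton_eq_range_aeval] at hx
  obtain ⟨Q, rfl⟩ := hx
  set R : ℚ_[p][X] := (cyclotomic (p ^ (n + 1)) ℚ_[p]).comp (X + C 1) with hR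
  have hmon : R.Monic := (cyclotomic.monic _ _).comp_X_add_C 1
  have hdeg : R.natDegree = deg p n := by
    rw [hR, natDegree_comp, natDegree_X_add_C, mul_one, natDegree_cyclotomic,
      Nat.totient_prime_pow_succ hp.out]
    rfl
  have hroot : aeval (z - 1) R = 0 := by
    rw [hR, aeval_comp, map_add, aeval_X, aeval_C, map_one, sub_add_cancel]
    have h := hz.isRoot_cyclotomic (pow_pos hp.out.pos _)
    rw [IsRoot, ← map_cyclotomic _ (algebraMap ℚ_[p] Ω), eval_map, ← aeval_def] at h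
    exact h
  refine ⟨fun i => ((Q.comp (X + C 1)) %ₘ R).coeff i, ?_⟩
  have h : aeval (z - 1) ((Q.comp (X + C 1)) %ₘ R) = aeval z Q := by
    rw [Polynomial.aeval_modByMonic_eq_self_of_root hroot, aeval_comp, map_add, aeval_X, aeval_C,
      map_one, sub_add_cancel]
  change aeval z Q = _
  rw [← h, aeval_eq_sum_range' (n := deg p n) ?_]
  · exact sum_congr rfl fun i _ => Algebra.smul_def _ _
  · rw [← hdeg]
    exact natDegree_modByMonic_lt _ hmon fun e => (hdeg ▸ deg_pos n).ne' (by rw [e, natDegree_one])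

theorem norm_zpow_deg {n : ℕ} {z : Ω} (hz : IsPrimitiveRoot z (p ^ (n + 1))) (a : ℚ_[p])
    (ha : a ≠ 0) : ‖(a : Ω)‖ = ‖z - 1‖ ^ ((deg p n : ℤ) * a.valuation) := by
  rw [zpow_mul, zpow_natCast, deg, norm_sub_one_pow_totient hz, norm_p, PadicAlgCl.norm_extends,
    Padic.norm_eq_zpow_neg_valuation ha, inv_zpow, zpow_neg]

/-- The monomials are orthogonal. -/
theorem norm_monomial_ne {n : ℕ} {z : Ω} (hz : IsPrimitiveRoot z (p ^ (n + 1))) {a b : ℚ_[p]}
    (ha : a ≠ 0) (hb : b ≠ 0) {i j : ℕ} (hi : i < deg p n) (hj : j < deg p n) (hij : i ≠ j) :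
    ‖(a : Ω) * (z - 1) ^ i‖ ≠ ‖(b : Ω) * (z - 1) ^ j‖ := by
  have hπ := norm_sub_one_pos (one_lt_pow₀ hp.out.one_lt n.succ_ne_zero) hz
  have hπ1 := norm_sub_one_lt norm_p_lt_one hz
  rw [norm_mul, norm_mul, norm_pow, norm_pow, norm_zpow_deg hz a ha, norm_zpow_deg hz b hb,
    ← zpow_natCast _ i, ← zpow_natCast _ j, ← zpow_add₀ hπ.ne', ← zpow_add₀ hπ.ne']
  intro h
  have e := zpow_right_injective₀ hπ hπ1.ne h
  have hd : (deg p n : ℤ) ∣ (j : ℤ) - i := ⟨a.valuation - b.valuation, by linarith⟩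
  have := Int.eq_zero_of_abs_lt_dvd hd (abs_sub_lt_iff.2 ⟨by omega, by omega⟩)
  omega

/-- The leading monomial of a polynomial in `ζ - 1`. -/
theorem exists_dominant {n : ℕ} {z : Ω} (hz : IsPrimitiveRoot z (p ^ (n + 1))) {a : ℕ → ℚ_[p]}
    (hne : ∃ i < deg p n, a i ≠ 0) :
    ∃ i < deg p n, a i ≠ 0 ∧
      (∀ j < deg p n, ‖(a j : Ω) * (z - 1) ^ j‖ ≤ ‖(a i : Ω) * (z - 1) ^ i‖) ∧
      ‖(∑ j ∈ range (deg p n), (a j : Ω) * (z - 1) ^ j) - (a i : Ω) * (z - 1) ^ i‖ <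
        ‖(a i : Ω) * (z - 1) ^ i‖ := by
  have hπ := norm_sub_one_pos (one_lt_pow₀ hp.out.one_lt n.succ_ne_zero) hz
  obtain ⟨i, hi, hmax⟩ := exists_max_image (range (deg p n))
    (fun j => ‖(a j : Ω) * (z - 1) ^ j‖) ⟨0, mem_range.2 (deg_pos n)⟩
  rw [mem_range] at hi
  have hai : a i ≠ 0 := by
    intro h0
    obtain ⟨j, hj, hj0⟩ := hne
    have := hmax j (mem_range.2 hj)
    simp only [h0, map_zero, zero_mul, norm_zero] at this
    rw [norm_mul, norm_pow] at this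
    exact absurd this (not_le.2 (mul_pos (norm_pos_iff.2 (by simpa using hj0)) (pow_pos hπ j)))
  refine ⟨i, hi, hai, fun j hj => hmax j (mem_range.2 hj), ?_⟩
  have hpos : 0 < ‖(a i : Ω) * (z - 1) ^ i‖ := by
    rw [norm_mul, norm_pow]
    exact mul_pos (norm_pos_iff.2 (by simpa using hai)) (pow_pos hπ i)
  rw [← sum_erase_eq_sub (mem_range.2 hi)]
  rcases ((range (deg p n)).erase i).eq_empty_or_nonempty with hemp | hnemp
  · rw [hemp, sum_empty, norm_zero]; exact hpos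
  obtain ⟨k, hk, hkmax⟩ := exists_max_image _ (fun j => ‖(a j : Ω) * (z - 1) ^ j‖) hnemp
  rw [mem_erase, mem_range] at hk
  refine (IsUltrametricDist.norm_sum_le_of_forall_le_of_nonneg (norm_nonneg _) hkmax).trans_lt
    (lt_of_le_of_ne (hmax k (mem_range.2 hk.2)) ?_)
  rcases eq_or_ne (a k) 0 with h0 | h0
  · simp only [h0, map_zero, zero_mul, norm_zero]
    exact hpos.ne
  · exact norm_monomial_ne hz h0 hai hk.2 hi hk.1

theorem norm_dominant {n : ℕ} {z : Ω} {a : ℕ → ℚ_[p]} {i : ℕ}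
    (h : ‖(∑ j ∈ range (deg p n), (a j : Ω) * (z - 1) ^ j) - (a i : Ω) * (z - 1) ^ i‖ <
      ‖(a i : Ω) * (z - 1) ^ i‖) :
    ‖∑ j ∈ range (deg p n), (a j : Ω) * (z - 1) ^ j‖ = ‖(a i : Ω) * (z - 1) ^ i‖ :=
  norm_eq_of_sub_lt (by rwa [norm_sub_rev])

/-- The coefficients are bounded by the element. -/
theorem norm_term_le {n : ℕ} {z : Ω} (hz : IsPrimitiveRoot z (p ^ (n + 1))) (a : ℕ → ℚ_[p])
    {j : ℕ} (hj : j < deg p n) :
    ‖(a j : Ω) * (z - 1) ^ j‖ ≤ ‖∑ i ∈ range (deg p n), (a i : Ω) * (z - 1) ^ i‖ := by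
  rcases eq_or_ne (a j) 0 with h0 | h0
  · simp only [h0, map_zero, zero_mul, norm_zero]; exact norm_nonneg _
  obtain ⟨i, -, -, hmax, hlt⟩ := exists_dominant hz ⟨j, hj, h0⟩
  rw [norm_dominant hlt]
  exact hmax j hj

/-- **The cyclotomic polynomials are irreducible over `ℚ_p`.** -/
theorem minpoly_eq {n : ℕ} {z : Ω} (hz : IsPrimitiveRoot z (p ^ (n + 1))) :
    minpoly ℚ_[p] z = cyclotomic (p ^ (n + 1)) ℚ_[p] := by
  have hint : IsIntegral ℚ_[p] z := Algebra.IsIntegral.isIntegral z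
  have hroot : aeval z (cyclotomic (p ^ (n + 1)) ℚ_[p]) = 0 := by
    have h := hz.isRoot_cyclotomic (pow_pos hp.out.pos _)
    rw [IsRoot, ← map_cyclotomic _ (algebraMap ℚ_[p] Ω), eval_map, ← aeval_def] at h
    exact h
  refine (Polynomial.eq_of_monic_of_dvd_of_natDegree_le (minpoly.monic hint)
    (cyclotomic.monic _ _) (minpoly.dvd _ _ hroot) ?_).symm
  rw [natDegree_cyclotomic, Nat.totient_prime_pow_succ hp.out]
  by_contra hlt
  set R := (minpoly ℚ_[p] z).comp (X + C 1) with hR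
  have hdeg : R.natDegree < deg p n := by
    rw [hR, natDegree_comp, natDegree_X_add_C, mul_one]
    exact not_le.1 hlt
  have hmon : R.Monic := (minpoly.monic hint).comp_X_add_C 1
  have h0 : aeval (z - 1) R = 0 := by
    rw [hR, aeval_comp, map_add, aeval_X, aeval_C, map_one, sub_add_cancel, minpoly.aeval]
  rw [aeval_eq_sum_range' hdeg] at h0
  simp only [Algebra.smul_def] at h0
  obtain ⟨i, hi, hai, -, hlt'⟩ := exists_dominant hz (a := fun i => R.coeff i)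
    ⟨R.natDegree, hdeg, by rw [Monic.coeff_natDegree hmon]; exact one_ne_zero⟩
  have := norm_dominant hlt'
  rw [h0, norm_zero] at this
  exact absurd (norm_eq_zero.1 this.symm) (mul_ne_zero (by simpa using hai)
    (pow_ne_zero _ (sub_ne_zero.2 (hz.ne_one (one_lt_pow₀ hp.out.one_lt n.succ_ne_zero)))))

/-- Every exponent prime to `p` comes from an automorphism. -/
theorem exists_algEquiv_pow {n : ℕ} {z : Ω} (hz : IsPrimitiveRoot z (p ^ (n + 1))) {k : ℕ}
    (hk : ¬ p ∣ k) : ∃ σ : Ω ≃ₐ[ℚ_[p]] Ω, σ z = z ^ k := by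
  have hk' : IsPrimitiveRoot (z ^ k) (p ^ (n + 1)) :=
    hz.pow_of_coprime k ((hp.out.coprime_iff_not_dvd.2 hk).symm.pow_right _)
  have : Normal ℚ_[p] Ω := normal_iff.2 fun y =>
    ⟨Algebra.IsIntegral.isIntegral y, IsAlgClosed.splits _⟩
  exact minpoly.exists_algEquiv_of_root' (Algebra.IsAlgebraic.isAlgebraic z)
    (by rw [minpoly_eq hz, ← minpoly_eq hk', minpoly.aeval])

theorem norm_zpow_sub_one_le {Q : Ω} {B : ℝ} (hB : B < 1) (h : ‖Q - 1‖ ≤ B) (e : ℤ) :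
    ‖Q ^ e - 1‖ ≤ B := by
  have hQ : ‖Q‖ = 1 := by
    have := norm_one_add_of_lt (h.trans_lt hB)
    rwa [add_sub_cancel] at this
  obtain ⟨k, rfl | rfl⟩ := e.eq_nat_or_neg
  · rw [zpow_natCast]
    exact (norm_pow_sub_one_le hQ.le k).trans h
  · rw [zpow_neg, zpow_natCast, ← inv_pow]
    refine (norm_pow_sub_one_le (by rw [norm_inv, hQ, inv_one]) k).trans ?_
    rw [inv_eq_one_div, div_sub_one (norm_ne_zero_iff.1 (hQ.trans_ne one_ne_zero)), norm_div, hQ,
      div_one, norm_sub_rev]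
    exact h

/-- A leading term of the form `m π ^ e`, with `m` a natural number prime to `p`. -/
theorem exists_leading {n : ℕ} {z : Ω} (hz : IsPrimitiveRoot z (p ^ (n + 1))) {x : Ω}
    (hx : x ∈ cycLevel p (n + 1)) (hx0 : x ≠ 0) :
    ∃ (m : ℕ) (e : ℤ), ¬ p ∣ m ∧ ‖x - (m : Ω) * (z - 1) ^ e‖ < ‖x‖ := by
  set π := z - 1 with hπd
  have hπ : 0 < ‖π‖ := norm_sub_one_pos (one_lt_pow₀ hp.out.one_lt n.succ_ne_zero) hz
  have hzmem : z ∈ cycLevel p (n + 1) := IntermediateField.subset_adjoin _ _ hz.pow_eq_one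
  have key : ∀ y ∈ cycLevel p (n + 1), y ≠ 0 → ∃ i < deg p n, ∃ a : ℚ_[p], a ≠ 0 ∧
      ‖y - (a : Ω) * π ^ i‖ < ‖y‖ := by
    intro y hy hy0
    obtain ⟨a, ha⟩ := exists_repr hz hy
    have hne : ∃ i < deg p n, a i ≠ 0 := by
      by_contra hcon
      push Not at hcon
      exact hy0 (ha.trans (sum_eq_zero fun i hi => by rw [hcon i (mem_range.1 hi)]; simp))
    obtain ⟨i, hi, hai, -, hlt⟩ := exists_dominant hz hne
    exact ⟨i, hi, a i, hai, by rw [ha, norm_dominant hlt]; exact hlt⟩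
  -- the prime `p` as a multiple of a power of `π`
  obtain ⟨c, hc, hcp⟩ : ∃ c : ℚ_[p], ‖c‖ = 1 ∧ ‖(p : Ω) / ((c : Ω) * π ^ deg p n) - 1‖ < 1 := by
    set y := (p : Ω) / π ^ deg p n with hy
    have hyn : ‖y‖ = 1 := by
      rw [hy, norm_div, norm_pow, deg, norm_sub_one_pow_totient hz, div_self norm_p_pos.ne']
    obtain ⟨i, hi, a, ha, hlt⟩ := key y (div_mem (natCast_mem _ p)
      (pow_mem (sub_mem hzmem (one_mem _)) _)) (norm_ne_zero_iff.1 (hyn.trans_ne one_ne_zero))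
    have h1 := norm_eq_of_sub_lt hlt
    rw [hyn] at h1
    have hi0 : i = 0 := by
      by_contra hne
      refine norm_monomial_ne hz ha one_ne_zero hi (deg_pos n) hne ?_
      rw [h1]; simp
    subst hi0
    rw [pow_zero, mul_one] at h1 hlt
    refine ⟨a, by rwa [PadicAlgCl.norm_extends] at h1, ?_⟩
    have e : (p : Ω) / ((a : Ω) * π ^ deg p n) - 1 = (y - (a : Ω)) / (a : Ω) := by
      rw [hy, mul_comm, div_mul_eq_div_div, div_sub_one (by simpa using ha)]
    rw [e, norm_div, h1, div_one]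
    exact hlt.trans_eq hyn
  obtain ⟨i, hi, a, ha, hlt⟩ := key x hx hx0
  have hxn := norm_eq_of_sub_lt hlt
  set v := a.valuation with hv
  set u := a * ((p : ℚ_[p]) ^ v)⁻¹ * c ^ v with hu
  have hun : ‖u‖ = 1 := by
    rw [hu, norm_mul, norm_mul, norm_inv, norm_zpow, norm_zpow, hc, one_zpow, mul_one,
      Padic.norm_p, Padic.norm_eq_zpow_neg_valuation ha, inv_zpow, zpow_neg, hv, inv_inv,
      inv_mul_cancel₀ (zpow_ne_zero _ (Nat.cast_ne_zero.2 hp.out.ne_zero))]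
  set U : ℤ_[p] := ⟨u, hun.le⟩
  have hU : ‖(U.zmodRepr : ℤ_[p])‖ = 1 := PadicInt.norm_natCast_zmodRepr_eq_one_iff.2 hun
  refine ⟨U.zmodRepr, (deg p n : ℤ) * v + i, fun hd => ?_, ?_⟩
  · obtain ⟨t, ht⟩ := hd
    rw [ht, Nat.cast_mul, norm_mul, PadicInt.norm_p] at hU
    have h2 : ‖(t : ℤ_[p])‖ ≤ 1 := PadicInt.norm_le_one _
    have h3 : (p : ℝ)⁻¹ < 1 := inv_lt_one_of_one_lt₀ (by exact_mod_cast hp.out.one_lt)
    nlinarith [norm_nonneg (t : ℤ_[p]), inv_nonneg.2 (Nat.cast_nonneg (α := ℝ) p)]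
  set Q := (p : Ω) / ((c : Ω) * π ^ deg p n)
  have hQn : ‖Q ^ v - 1‖ < 1 := (norm_zpow_sub_one_le hcp le_rfl v)|>.trans_lt hcp
  have hum : ‖(u : Ω) - (U.zmodRepr : Ω)‖ < 1 := by
    have h1 := PadicInt.norm_sub_zmodRepr_lt_one U
    rw [PadicInt.norm_def, PadicInt.coe_sub, PadicInt.coe_natCast] at h1
    rwa [← map_natCast (algebraMap ℚ_[p] Ω), ← map_sub, PadicAlgCl.norm_extends]
  have hπe : π ^ ((deg p n : ℤ) * v + i) = (π ^ deg p n) ^ v * π ^ i := by
    rw [zpow_add₀ (norm_pos_iff.1 hπ), zpow_mul, zpow_natCast, zpow_natCast]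
  have ha' : (a : Ω) * π ^ i = (u : Ω) * Q ^ v * π ^ ((deg p n : ℤ) * v + i) := by
    rw [hπe, hu]
    simp only [map_mul, map_inv₀, map_zpow₀, map_natCast, Q, div_zpow, mul_zpow]
    have h1 : (p : Ω) ^ v ≠ 0 := zpow_ne_zero _ (norm_pos_iff.1 norm_p_pos)
    have h2 : (c : Ω) ^ v ≠ 0 := zpow_ne_zero _ (by
      rw [Ne, map_eq_zero, ← norm_eq_zero, hc]; exact one_ne_zero)
    have h3 : (π ^ deg p n) ^ v ≠ 0 := zpow_ne_zero _ (pow_ne_zero _ (norm_pos_iff.1 hπ))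
    field_simp
  have e : x - (U.zmodRepr : Ω) * π ^ ((deg p n : ℤ) * v + i) = (x - (a : Ω) * π ^ i) +
      ((u : Ω) * (Q ^ v - 1) + ((u : Ω) - (U.zmodRepr : Ω))) * π ^ ((deg p n : ℤ) * v + i) := by
    rw [ha']; ring
  rw [e]
  refine (IsUltrametricDist.norm_add_le_max _ _).trans_lt (max_lt hlt ?_)
  have hun' : ‖(u : Ω)‖ = 1 := by rw [PadicAlgCl.norm_extends, hun]
  have hQ1 : ‖Q ^ v‖ = 1 := by
    have := norm_one_add_of_lt hQn
    rwa [add_sub_cancel] at this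
  have hxe : ‖x‖ = ‖π ^ ((deg p n : ℤ) * v + i)‖ := by
    rw [← hxn, ha', norm_mul, norm_mul, hun', hQ1, one_mul, one_mul]
  rw [norm_mul, ← hxe]
  refine mul_lt_of_lt_one_left (norm_pos_iff.2 hx0)
    ((IsUltrametricDist.norm_add_le_max _ _).trans_lt (max_lt ?_ hum))
  rwa [norm_mul, hun', one_mul]

end FA.TateSen
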