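import Fermat.Agent.TateSen.Cyclotomic

/-!
# The cyclotomic tower over `ℚ_p` is deep

`ζ - 1` is the `p`-th power of `η - 1` up to `p (η - 1)` for a `p`-th root `η` of `ζ`. The finite
extensions of `ℚ_p` have finitely many absolute values in every interval and a torsion residue
group.
-/

set_option autoImplicit false
set_option linter.unusedSectionVars false

noncomputable section

open Finset

namespace FA.TateSen

variable {p : ℕ} [hp : Fact p.Prime]

local notation "Ω" => PadicAlgCl p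

/-- Finitely many absolute values in every interval. -/
theorem finite_norms (F : IntermediateField ℚ_[p] Ω) [FiniteDimensional ℚ_[p] F] {a : ℝ}
    (ha : 0 < a) (b : ℝ) :
    Set.Finite (norm '' {x : Ω | x ∈ F ∧ a ≤ ‖x‖ ∧ ‖x‖ ≤ b}) := by
  set S := F.toSubalgebra.toSubmodule
  have : FiniteDimensional ℚ_[p] S := ‹FiniteDimensional ℚ_[p] F›
  have : ProperSpace S := FiniteDimensional.proper ℚ_[p] S
  set A : Set S := {x | a ≤ ‖x‖ ∧ ‖x‖ ≤ b}
  have hA : IsCompact A := (isCompact_closedBall (0 : S) b).of_isClosed_subset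
    ((isClosed_le continuous_const continuous_norm).inter
      (isClosed_le continuous_norm continuous_const))
    fun x hx => mem_closedBall_zero_iff.2 hx.2
  obtain ⟨t, ht, hcov⟩ := hA.elim_nhds_subcover (fun x => Metric.ball x a) fun x _ =>
    Metric.ball_mem_nhds x ha
  refine (t.finite_toSet.image fun x : S => ‖x‖).subset ?_
  rintro _ ⟨x, ⟨hx, hax, hxb⟩, rfl⟩
  obtain ⟨c, hc, hxc⟩ := Set.mem_iUnion₂.1 (hcov (show (⟨x, hx⟩ : S) ∈ A from ⟨hax, hxb⟩))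
  refine ⟨c, hc, ?_⟩
  rw [Metric.mem_ball, dist_eq_norm] at hxc
  exact norm_eq_of_sub_lt (a := x) (b := (c : Ω)) (hxc.trans_le hax)

/-- The residue group is torsion. -/
theorem exists_pow_near_one {u : Ω} (hu : ‖u‖ = 1) : ∃ n : ℕ, 0 < n ∧ ‖u ^ n - 1‖ < 1 := by
  set F : IntermediateField ℚ_[p] Ω := IntermediateField.adjoin ℚ_[p] {u}
  have : FiniteDimensional ℚ_[p] F :=
    IntermediateField.adjoin.finiteDimensional (Algebra.IsIntegral.isIntegral u)
  set S := F.toSubalgebra.toSubmodule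
  have : FiniteDimensional ℚ_[p] S := ‹FiniteDimensional ℚ_[p] F›
  have : ProperSpace S := FiniteDimensional.proper ℚ_[p] S
  have hmem : ∀ n : ℕ, u ^ n ∈ S := fun n =>
    pow_mem (IntermediateField.mem_adjoin_simple_self ℚ_[p] u) n
  obtain ⟨x, -, φ, hφ, hlim⟩ := (isCompact_closedBall (0 : S) 1).tendsto_subseq
    (x := fun n => (⟨u ^ n, hmem n⟩ : S)) fun n => mem_closedBall_zero_iff.2
      (show ‖u ^ n‖ ≤ 1 by rw [norm_pow, hu, one_pow])
  obtain ⟨N, hN⟩ := Metric.cauchySeq_iff'.1 hlim.cauchySeq 1 one_pos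
  have h : ‖u ^ φ (N + 1) - u ^ φ N‖ < 1 := by
    simpa [dist_eq_norm] using hN (N + 1) N.le_succ
  have hlt := hφ (Nat.lt_add_one N)
  refine ⟨φ (N + 1) - φ N, Nat.sub_pos_of_lt hlt, ?_⟩
  rw [← Nat.add_sub_cancel' hlt.le, pow_add] at h
  rw [show u ^ φ N * u ^ (φ (N + 1) - φ N) - u ^ φ N =
      u ^ φ N * (u ^ (φ (N + 1) - φ N) - 1) by ring, norm_mul, norm_pow, hu, one_pow, one_mul] at h
  exact h

variable (p) in
/-- The uniform error of the tower. -/
def towerErr : ℝ := Real.sqrt ((p : ℝ)⁻¹)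

theorem towerErr_facts : ‖(p : Ω)‖ ≤ towerErr p ∧ 0 < towerErr p ∧ towerErr p < 1 := by
  have h1 : (p : ℝ)⁻¹ < 1 := inv_lt_one_of_one_lt₀ (by exact_mod_cast hp.out.one_lt)
  have h0 : 0 < (p : ℝ)⁻¹ := inv_pos.2 (by exact_mod_cast hp.out.pos)
  refine ⟨?_, Real.sqrt_pos.2 h0, by
    rw [towerErr, ← Real.sqrt_one]; exact Real.sqrt_lt_sqrt h0.le h1⟩
  rw [norm_p, towerErr]
  exact Real.le_sqrt_of_sq_le (pow_le_of_le_one h0.le h1.le two_ne_zero)

theorem approx_leading_term {n : ℕ} (hn : 1 ≤ n) {z η : Ω} (hz : IsPrimitiveRoot z (p ^ (n + 1)))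
    (hη : η ^ p = z) (hηK : η ∈ cycInf p) {m : ℕ} (hm : ¬ p ∣ m) (e : ℤ) :
    Approx p (cycInf p).toSubfield (towerErr p) ((m : Ω) * (z - 1) ^ e) := by
  obtain ⟨hpθ, hθ0, hθ1⟩ := towerErr_facts (p := p)
  set π := z - 1 with hπd
  set ε := η - 1 with hεd
  have hπ : 0 < ‖π‖ := norm_sub_one_pos (one_lt_pow₀ hp.out.one_lt n.succ_ne_zero) hz
  have hπ1 : ‖π‖ < 1 := norm_sub_one_lt norm_p_lt_one hz
  have hηn : ‖η‖ = 1 := norm_of_pow_eq_one (pow_ne_zero (n + 2) hp.out.ne_zero) (by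
    rw [pow_succ', pow_mul, hη, hz.pow_eq_one])
  have hε1 : ‖ε‖ ≤ 1 := norm_sub_le_of_le hηn.le (by rw [norm_one])
  have hsmall : ‖(p : Ω)‖ ≤ towerErr p * ‖π‖ := by
    have hd : 2 ≤ deg p n := by
      have h1 : p ≤ p ^ n := Nat.le_self_pow (by omega) p
      have h2 : 1 ≤ p - 1 := Nat.sub_pos_of_lt hp.out.one_lt
      have := hp.out.two_le
      calc 2 ≤ p ^ n * 1 := by omega
        _ ≤ deg p n := Nat.mul_le_mul_left _ h2
    have he : ‖π‖ ^ deg p n = ‖(p : Ω)‖ := norm_sub_one_pow_totient hz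
    have h3 : ‖π‖ ^ (deg p n - 1) ≤ towerErr p := by
      rw [towerErr, ← norm_p (p := p)]
      refine Real.le_sqrt_of_sq_le ?_
      rw [← pow_mul, ← he]
      exact pow_le_pow_of_le_one hπ.le hπ1.le (by omega)
    rw [← he, ← pow_sub_one_mul (by omega : deg p n ≠ 0) ‖π‖]
    exact mul_le_mul_of_nonneg_right h3 hπ.le
  have hπε : ‖π - ε ^ p‖ ≤ towerErr p * ‖π‖ := by
    have h := norm_one_add_pow_sub_le (p := p) hε1
    rw [hεd, add_sub_cancel, hη] at h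
    exact (h.trans (mul_le_of_le_one_right (norm_nonneg _) hε1)).trans hsmall
  have hεn : ‖ε ^ p‖ = ‖π‖ := norm_eq_of_sub_lt (hπε.trans_lt (mul_lt_of_lt_one_left hπ hθ1))
  have hεp : ε ^ p ≠ 0 := norm_ne_zero_iff.1 (hεn.trans_ne hπ.ne')
  have hQ : ‖π / ε ^ p - 1‖ ≤ towerErr p := by
    rw [div_sub_one hεp, norm_div, hεn, div_le_iff₀ hπ]
    exact hπε
  refine ⟨(m : Ω) * ε ^ e, mul_mem (natCast_mem _ m)
    (zpow_mem (sub_mem hηK (one_mem _)) e), ?_⟩
  have hmn : ∀ k : ℕ, ¬ p ∣ k → ‖(k : Ω)‖ = 1 := fun k hk => by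
    rw [← map_natCast (algebraMap ℚ_[p] Ω), PadicAlgCl.norm_extends, Padic.norm_natCast_eq_one_iff]
    exact hp.out.coprime_iff_not_dvd.2 hk
  have hflt : ‖((m : Ω) ^ p - m)‖ ≤ ‖(p : Ω)‖ := by
    obtain ⟨k, hk⟩ : p ∣ m ^ p - m := by
      rw [← ZMod.natCast_eq_zero_iff, Nat.cast_sub (Nat.le_self_pow hp.out.ne_zero m),
        Nat.cast_pow, ZMod.pow_card, sub_self]
    rw [← Nat.cast_pow, ← Nat.cast_sub (Nat.le_self_pow hp.out.ne_zero m), hk, Nat.cast_mul,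
      norm_mul]
    exact mul_le_of_le_one_right (norm_nonneg _) (norm_natCast_le _)
  have hεe : ((ε ^ p) ^ e : Ω) = (ε ^ e) ^ p := by
    rw [← zpow_natCast ε p, ← zpow_natCast (ε ^ e) p, ← zpow_mul, ← zpow_mul, mul_comm]
  have e1 : (m : Ω) * π ^ e - ((m : Ω) * ε ^ e) ^ p = (ε ^ p) ^ e *
      ((m : Ω) * ((π / ε ^ p) ^ e - 1) - ((m : Ω) ^ p - m)) := by
    have h0 : (ε ^ e) ^ p ≠ 0 := by
      rw [← hεe]; exact zpow_ne_zero _ hεp
    rw [mul_pow, div_zpow, hεe]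
    field_simp
    ring
  rw [e1, norm_mul, norm_mul, norm_zpow, norm_zpow, hεn, hmn m hm, one_mul,
    mul_comm (towerErr p)]
  refine mul_le_mul_of_nonneg_left (norm_sub_le_of_le ?_ (hflt.trans hpθ)) (by positivity)
  rw [norm_mul, hmn m hm, one_mul]
  exact norm_zpow_sub_one_le hθ1 hQ e

/-- **The cyclotomic tower is deep.** -/
theorem deep_cycInf : Deep p (cycInf p).toSubfield := by
  obtain ⟨hpθ, hθ0, hθ1⟩ := towerErr_facts (p := p)
  refine deep_of_approx norm_p_lt_one hθ0.le hθ1 fun x hx => ?_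
  obtain ⟨k, hk⟩ := mem_cycInf.1 hx
  set n := k + 1
  have hx' : x ∈ cycLevel p (n + 1) := cycLevel_mono (by omega) hk
  refine approx_of_leading (K := (cycLevel p (n + 1)).toSubfield) hpθ hθ0 hθ1
    (fun a b ha => finite_norms _ ha b) (fun r hr hr0 => ?_) hx'
  obtain ⟨η, hη⟩ := exists_primitive p (n + 2)
  have hz : IsPrimitiveRoot (η ^ p) (p ^ (n + 1)) :=
    hη.pow (pow_pos hp.out.pos _) (by rw [← pow_succ'])
  obtain ⟨m, e, hm, hlt⟩ := exists_leading hz hr hr0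
  have h1 : η ^ p ∈ cycLevel p (n + 1) := IntermediateField.subset_adjoin _ _ hz.pow_eq_one
  have h2 : (m : Ω) * (η ^ p - 1) ^ e ∈ cycLevel p (n + 1) :=
    mul_mem (natCast_mem (cycLevel p (n + 1)) m)
      (zpow_mem (sub_mem h1 (one_mem (cycLevel p (n + 1)))) e)
  have h3 : η ∈ cycLevel p (n + 2) := IntermediateField.subset_adjoin _ _ hη.pow_eq_one
  exact ⟨_, h2, hlt, approx_leading_term (by omega) hz rfl (cycLevel_le_cycInf (n + 2) h3) hm e⟩

end FA.TateSen
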