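import Mathlib

/-!
# Deeply ramified subfields of a nonarchimedean field

`Deep M` says that every element of `M` is a `p`-th power of `M` up to the relative error `|p|`.
Estimates for binomial expansions, the successive approximation with leading terms and the
normalisation of Kummer generators.
-/

set_option autoImplicit false
set_option linter.unusedSectionVars false

noncomputable section

open Finset

namespace FA.TateSen

variable {Ω : Type*} [NormedField Ω] [IsUltrametricDist Ω] {p : ℕ} [hp : Fact p.Prime]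

/-- Up to the relative error `θ`, the element `x` is the `p`-th power of an element of `M`. -/
def Approx (p : ℕ) (M : Subfield Ω) (θ : ℝ) (x : Ω) : Prop :=
  ∃ y ∈ M, ‖x - y ^ p‖ ≤ θ * ‖x‖

/-- Every element of `M` is a `p`-th power up to the relative error `|p|`. -/
def Deep (p : ℕ) (M : Subfield Ω) : Prop :=
  ∀ x ∈ M, Approx p M ‖(p : Ω)‖ x

theorem norm_natCast_le (n : ℕ) : ‖(n : Ω)‖ ≤ 1 := IsUltrametricDist.norm_natCast_le_one Ω n

theorem add_add_sub_sub (a b c : Ω) : a + b + c - a - b = c := by ring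

theorem norm_add_le_of_le {a b : Ω} {B : ℝ} (ha : ‖a‖ ≤ B) (hb : ‖b‖ ≤ B) : ‖a + b‖ ≤ B :=
  (IsUltrametricDist.norm_add_le_max a b).trans (max_le ha hb)

theorem norm_sub_le_of_le {a b : Ω} {B : ℝ} (ha : ‖a‖ ≤ B) (hb : ‖b‖ ≤ B) : ‖a - b‖ ≤ B := by
  rw [sub_eq_add_neg]
  exact norm_add_le_of_le ha (by rwa [norm_neg])

theorem norm_eq_of_sub_lt {a b : Ω} (h : ‖a - b‖ < ‖a‖) : ‖b‖ = ‖a‖ := by
  have hb : b = a + -(a - b) := by ring
  conv_lhs => rw [hb]
  rw [IsUltrametricDist.norm_add_eq_max_of_norm_ne_norm (by rw [norm_neg]; exact h.ne'), norm_neg,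
    max_eq_left h.le]

theorem norm_le_of_sub_le {a b : Ω} {B : ℝ} (h : ‖a - b‖ ≤ B) (ha : ‖a‖ ≤ B) : ‖b‖ ≤ B := by
  have hb : b = a - (a - b) := by ring
  rw [hb]
  exact norm_sub_le_of_le ha h

theorem norm_sum_range_le {s : Finset ℕ} {f : ℕ → Ω} {B : ℝ} (hB : 0 ≤ B)
    (h : ∀ i ∈ s, ‖f i‖ ≤ B) : ‖∑ i ∈ s, f i‖ ≤ B :=
  IsUltrametricDist.norm_sum_le_of_forall_le_of_nonneg hB h

/-- The binomial expansion up to `|p|`. -/
theorem norm_add_pow_sub_le {y z : Ω} {A : ℝ} (hy : ‖y‖ ≤ A) (hz : ‖z‖ ≤ A) :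
    ‖(y + z) ^ p - y ^ p - z ^ p‖ ≤ ‖(p : Ω)‖ * A ^ p := by
  have hA : 0 ≤ A := (norm_nonneg y).trans hy
  rw [add_pow_prime_eq hp.out, add_add_sub_sub]
  refine le_trans ?_ (mul_le_mul_of_nonneg_left (le_refl (A ^ p)) (norm_nonneg _))
  have hsum : ‖∑ k ∈ Ioo 0 p, y ^ (k - 1) * z ^ (p - k - 1) * ((p.choose k / p : ℕ) : Ω)‖ ≤
      A ^ (p - 2) := by
    refine norm_sum_range_le (pow_nonneg hA _) fun k hk => ?_
    rw [mem_Ioo] at hk
    rw [norm_mul, norm_mul, norm_pow, norm_pow]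
    calc ‖y‖ ^ (k - 1) * ‖z‖ ^ (p - k - 1) * ‖((p.choose k / p : ℕ) : Ω)‖
        ≤ A ^ (k - 1) * A ^ (p - k - 1) * 1 :=
          mul_le_mul (mul_le_mul (pow_le_pow_left₀ (norm_nonneg _) hy _)
            (pow_le_pow_left₀ (norm_nonneg _) hz _) (by positivity) (pow_nonneg hA _))
            (norm_natCast_le _) (norm_nonneg _) (by positivity)
      _ = A ^ (p - 2) := by
          rw [mul_one, ← pow_add]
          congr 1
          omega
  rw [norm_mul, norm_mul, norm_mul, mul_assoc, mul_assoc]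
  refine mul_le_mul_of_nonneg_left ?_ (norm_nonneg _)
  calc ‖y‖ * (‖z‖ * ‖∑ k ∈ Ioo 0 p, y ^ (k - 1) * z ^ (p - k - 1) * ((p.choose k / p : ℕ) : Ω)‖)
      ≤ A * (A * A ^ (p - 2)) :=
        mul_le_mul hy (mul_le_mul hz hsum (norm_nonneg _) hA) (by positivity) hA
    _ = A ^ p := by
        rw [← pow_succ', ← pow_succ']
        congr 1
        have := hp.out.two_le
        omega

/-- The `p`-th power of `1 + d` up to `p d`. -/
theorem norm_one_add_pow_sub_le {d : Ω} (hd : ‖d‖ ≤ 1) :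
    ‖(1 + d) ^ p - 1 - d ^ p‖ ≤ ‖(p : Ω)‖ * ‖d‖ := by
  rw [add_pow_prime_eq hp.out, one_pow, add_add_sub_sub, norm_mul, norm_mul,
    norm_mul, norm_one, mul_one]
  refine mul_le_of_le_one_right (by positivity) (norm_sum_range_le zero_le_one fun k _ => ?_)
  rw [norm_mul, norm_mul, norm_pow, norm_pow, norm_one, one_pow, one_mul]
  exact mul_le_one₀ (pow_le_one₀ (norm_nonneg _) hd) (norm_nonneg _) (norm_natCast_le _)

/-- The `p`-th power of `1 + d` up to `p d ^ 2`. -/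
theorem norm_one_add_pow_sub_linear_le {d : Ω} (hd : ‖d‖ ≤ 1) :
    ‖(1 + d) ^ p - 1 - d ^ p - (p : Ω) * d‖ ≤ ‖(p : Ω)‖ * ‖d‖ ^ 2 := by
  have hp2 := hp.out.two_le
  have e : (1 + d) ^ p = (d + 1) ^ p := by rw [add_comm]
  rw [e, add_pow_prime_eq hp.out, one_pow, ← Finset.add_sum_erase _ _
    (show 1 ∈ Ioo 0 p from mem_Ioo.2 ⟨one_pos, by omega⟩), Nat.choose_one_right,
    Nat.div_self (by omega), Nat.cast_one, Nat.sub_self, pow_zero]
  set S := ∑ k ∈ (Ioo 0 p).erase 1,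
    d ^ (k - 1) * (1 : Ω) ^ (p - k - 1) * ((p.choose k / p : ℕ) : Ω) with hS
  have hS' : ‖S‖ ≤ ‖d‖ := by
    refine norm_sum_range_le (norm_nonneg _) fun k hk => ?_
    rw [mem_erase, mem_Ioo] at hk
    rw [one_pow, mul_one, norm_mul, norm_pow]
    refine (mul_le_of_le_one_right (by positivity) (norm_natCast_le _)).trans ?_
    exact pow_le_of_le_one (norm_nonneg _) hd (by omega)
  have : d ^ p + 1 + (p : Ω) * d * 1 * (1 * 1 ^ (p - 1 - 1) * 1 + S) - 1 - d ^ p - (p : Ω) * d =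
      (p : Ω) * (d * S) := by
    rw [one_pow]; ring
  rw [this, norm_mul, norm_mul, pow_two]
  gcongr

/-- The `p`-th power of a sum up to `|p|`. -/
theorem norm_sum_pow_sub_le {s : Finset ℕ} {f : ℕ → Ω} {A : ℝ} (hA : 0 ≤ A)
    (h : ∀ i ∈ s, ‖f i‖ ≤ A) : ‖(∑ i ∈ s, f i) ^ p - ∑ i ∈ s, f i ^ p‖ ≤ ‖(p : Ω)‖ * A ^ p := by
  induction s using Finset.induction_on with
  | empty => simp [zero_pow hp.out.ne_zero]; positivity
  | insert a s ha ih =>
    rw [Finset.forall_mem_insert] at h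
    rw [sum_insert ha, sum_insert ha]
    have : (f a + ∑ i ∈ s, f i) ^ p - (f a ^ p + ∑ i ∈ s, f i ^ p) =
        ((f a + ∑ i ∈ s, f i) ^ p - f a ^ p - (∑ i ∈ s, f i) ^ p) +
          ((∑ i ∈ s, f i) ^ p - ∑ i ∈ s, f i ^ p) := by ring
    rw [this]
    exact norm_add_le_of_le (norm_add_pow_sub_le h.1 (norm_sum_range_le hA h.2)) (ih h.2)

theorem norm_pow_le_of_approx {x y : Ω} {θ B : ℝ} (hθ : θ ≤ 1) (hB : ‖x‖ ≤ B)
    (h : ‖x - y ^ p‖ ≤ θ * B) : ‖y‖ ^ p ≤ B := by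
  rw [← norm_pow]
  exact norm_le_of_sub_le (h.trans (mul_le_of_le_one_left ((norm_nonneg x).trans hB) hθ)) hB

/-- **Successive approximation**: it is enough to approximate a leading term of every element of a
subfield with finitely many values in every interval. -/
theorem approx_of_leading {M K : Subfield Ω} {θ : ℝ} (hθp : ‖(p : Ω)‖ ≤ θ) (hθ0 : 0 < θ)
    (hθ : θ < 1)
    (hfin : ∀ a b : ℝ, 0 < a → Set.Finite (norm '' {x : Ω | x ∈ K ∧ a ≤ ‖x‖ ∧ ‖x‖ ≤ b}))
    (hlead : ∀ r ∈ K, r ≠ 0 → ∃ s ∈ K, ‖r - s‖ < ‖r‖ ∧ Approx p M θ s) {x : Ω} (hx : x ∈ K) :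
    Approx p M θ x := by
  classical
  rcases eq_or_ne x 0 with rfl | hx0
  · exact ⟨0, M.zero_mem, by simp [zero_pow hp.out.ne_zero]⟩
  set B := ‖x‖ with hBdef
  have hB : 0 < B := norm_pos_iff.2 hx0
  set V := (hfin (θ * B) B (mul_pos hθ0 hB)).toFinset
  suffices H : ∀ (n : ℕ) (r : Ω), r ∈ K → ‖r‖ ≤ B → (V.filter (· ≤ ‖r‖)).card ≤ n →
      ∃ y ∈ M, ‖r - y ^ p‖ ≤ θ * B by
    exact H _ x hx le_rfl le_rfl
  intro n
  induction n with
  | zero =>
    refine fun r hr hrB hcard => ⟨0, M.zero_mem, ?_⟩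
    rw [zero_pow hp.out.ne_zero, sub_zero]
    by_contra hlt
    have : ‖r‖ ∈ V.filter (· ≤ ‖r‖) := by
      simp only [V, mem_filter, Set.Finite.mem_toFinset, Set.mem_image, Set.mem_ofPred_eq]
      exact ⟨⟨r, ⟨hr, (not_le.1 hlt).le, hrB⟩, rfl⟩, le_rfl⟩
    rw [Nat.le_zero, card_eq_zero] at hcard
    rw [hcard] at this
    simp at this
  | succ n ih =>
    intro r hr hrB hcard
    by_cases hsmall : ‖r‖ ≤ θ * B
    · exact ⟨0, M.zero_mem, by rwa [zero_pow hp.out.ne_zero, sub_zero]⟩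
    have hr0 : r ≠ 0 := fun e => hsmall (by rw [e, norm_zero]; positivity)
    obtain ⟨s, hs, hlt, y, hy, hys⟩ := hlead r hr hr0
    have hsn : ‖s‖ = ‖r‖ := norm_eq_of_sub_lt hlt
    have hys' : ‖s - y ^ p‖ ≤ θ * B :=
      hys.trans (mul_le_mul_of_nonneg_left (hsn.le.trans hrB) hθ0.le)
    obtain ⟨y', hy', hy'r⟩ := ih (r - s) (K.sub_mem hr hs) (hlt.le.trans hrB) (by
      have hmem : ‖r‖ ∈ V.filter (· ≤ ‖r‖) := by
        simp only [V, mem_filter, Set.Finite.mem_toFinset, Set.mem_image, Set.mem_ofPred_eq]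
        exact ⟨⟨r, ⟨hr, (not_le.1 hsmall).le, hrB⟩, rfl⟩, le_rfl⟩
      have hss : V.filter (· ≤ ‖r - s‖) ⊆ (V.filter (· ≤ ‖r‖)).erase ‖r‖ := fun v hv => by
        rw [mem_filter] at hv
        exact mem_erase.2 ⟨fun e => (hv.2.trans_lt hlt).ne e,
          mem_filter.2 ⟨hv.1, hv.2.trans hlt.le⟩⟩
      have h1 := card_le_card hss
      rw [card_erase_of_mem hmem] at h1
      omega)
    have e1 := norm_pow_le_of_approx (p := p) hθ.le (hlt.le.trans hrB) hy'r
    have e2 := norm_pow_le_of_approx (p := p) hθ.le (hsn.le.trans hrB) hys'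
    refine ⟨y + y', M.add_mem hy hy', ?_⟩
    have : r - (y + y') ^ p =
        (s - y ^ p) + (r - s - y' ^ p) - ((y + y') ^ p - y ^ p - y' ^ p) := by ring
    rw [this]
    refine norm_sub_le_of_le (norm_add_le_of_le hys' hy'r) ?_
    have hA : (max ‖y‖ ‖y'‖) ^ p ≤ B := by
      rcases le_total ‖y‖ ‖y'‖ with h | h
      · rwa [max_eq_right h]
      · rwa [max_eq_left h]
    exact (norm_add_pow_sub_le (le_max_left _ _) (le_max_right _ _)).trans
      (mul_le_mul hθp hA (by positivity) hθ0.le)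

/-- An error less than one can be improved to `|p|`. -/
theorem deep_of_approx [CharZero Ω] (hp1 : ‖(p : Ω)‖ < 1) {M : Subfield Ω} {θ : ℝ} (hθ0 : 0 ≤ θ)
    (hθ : θ < 1) (h : ∀ x ∈ M, Approx p M θ x) : Deep p M := by
  have hp0 : 0 < ‖(p : Ω)‖ := norm_pos_iff.2 (Nat.cast_ne_zero.2 hp.out.ne_zero)
  have key : ∀ k : ℕ, ∀ x ∈ M, Approx p M (max (θ ^ k) ‖(p : Ω)‖) x := by
    intro k
    induction k with
    | zero =>
      exact fun x _ => ⟨0, M.zero_mem, by
        rw [pow_zero, zero_pow hp.out.ne_zero, sub_zero, max_eq_left hp1.le, one_mul]⟩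
    | succ k ih =>
      intro x hx
      obtain ⟨y, hy, hyx⟩ := ih x hx
      obtain ⟨z, hz, hzr⟩ := h _ (M.sub_mem hx (M.pow_mem hy p))
      refine ⟨y + z, M.add_mem hy hz, ?_⟩
      have hs1 : max (θ ^ k) ‖(p : Ω)‖ ≤ 1 := max_le (pow_le_one₀ hθ0 hθ.le) hp1.le
      have e1 : ‖y‖ ^ p ≤ ‖x‖ := norm_pow_le_of_approx hs1 le_rfl hyx
      have hr : ‖x - y ^ p‖ ≤ ‖x‖ := hyx.trans (mul_le_of_le_one_left (norm_nonneg _) hs1)
      have e2 : ‖z‖ ^ p ≤ ‖x‖ :=
        norm_pow_le_of_approx hθ.le hr (hzr.trans (mul_le_mul_of_nonneg_left hr hθ0))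
      have : x - (y + z) ^ p = (x - y ^ p - z ^ p) - ((y + z) ^ p - y ^ p - z ^ p) := by ring
      rw [this]
      refine norm_sub_le_of_le (hzr.trans ?_) ?_
      · refine (mul_le_mul_of_nonneg_left hyx hθ0).trans ?_
        rw [← mul_assoc]
        refine mul_le_mul_of_nonneg_right ?_ (norm_nonneg _)
        rcases le_total (θ ^ k) ‖(p : Ω)‖ with h' | h'
        · rw [max_eq_right h']
          exact (mul_le_of_le_one_left hp0.le hθ.le).trans (le_max_right _ _)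
        · rw [max_eq_left h', ← pow_succ']
          exact le_max_left _ _
      · have hA : (max ‖y‖ ‖z‖) ^ p ≤ ‖x‖ := by
          rcases le_total ‖y‖ ‖z‖ with h' | h'
          · rwa [max_eq_right h']
          · rwa [max_eq_left h']
        exact (norm_add_pow_sub_le (le_max_left _ _) (le_max_right _ _)).trans
          (mul_le_mul (le_max_right _ _) hA (by positivity)
            (le_trans hp0.le (le_max_right _ _)))
  obtain ⟨k, hk⟩ := exists_pow_lt_of_lt_one hp0 hθ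
  intro x hx
  simpa [max_eq_right hk.le] using key k x hx

/-- An element of absolute value one stays so after a small perturbation. -/
theorem norm_one_add_of_lt {d : Ω} (hd : ‖d‖ < 1) : ‖1 + d‖ = 1 := by
  rw [IsUltrametricDist.norm_add_eq_max_of_norm_ne_norm (by rw [norm_one]; exact hd.ne'),
    norm_one, max_eq_left hd.le]

/-- **Kummer generators can be normalised**: up to `p`-th powers every element is near `1`. -/
theorem exists_near_one_of_deep [CharZero Ω] (hp1 : ‖(p : Ω)‖ < 1) {M : Subfield Ω}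
    (hM : Deep p M) {a : Ω} (ha : a ∈ M) (ha0 : a ≠ 0) {T : ℝ} (hT : 0 < T)
    (hTp : T ^ (p - 1) = ‖(p : Ω)‖ ^ p) {E : ℝ} (hE : 1 < E) :
    ∃ b ∈ M, b ≠ 0 ∧ ‖a / b ^ p - 1‖ ≤ T * E := by
  have hp2 := hp.out.two_le
  have key : ∀ k : ℕ, ∃ b ∈ M, b ≠ 0 ∧ ‖a / b ^ p - 1‖ < 1 ∧
      (‖a / b ^ p - 1‖ / T) ^ p ^ k ≤ 1 / T := by
    intro k
    induction k with
    | zero =>
      obtain ⟨y, hy, hya⟩ := hM a ha
      have hlt : ‖a - y ^ p‖ < ‖a‖ :=
        hya.trans_lt (mul_lt_of_lt_one_left (norm_pos_iff.2 ha0) hp1)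
      have hy0 : y ≠ 0 := fun e => by
        rw [e, zero_pow hp.out.ne_zero, sub_zero] at hlt
        exact lt_irrefl _ hlt
      have hc : ‖a / y ^ p - 1‖ ≤ ‖(p : Ω)‖ := by
        rw [div_sub_one (pow_ne_zero _ hy0), norm_div, norm_eq_of_sub_lt hlt,
          div_le_iff₀ (norm_pos_iff.2 ha0)]
        exact hya
      refine ⟨y, hy, hy0, hc.trans_lt hp1, ?_⟩
      rw [pow_zero, pow_one]
      exact div_le_div_of_nonneg_right (hc.trans hp1.le) hT.le
    | succ k ih =>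
      obtain ⟨b, hb, hb0, hlt, hbk⟩ := ih
      set c := a / b ^ p - 1 with hc
      obtain ⟨d, hd, hdc⟩ := hM c (M.sub_mem (M.div_mem ha (M.pow_mem hb p)) M.one_mem)
      have hdp : ‖d‖ ^ p ≤ ‖c‖ := norm_pow_le_of_approx hp1.le le_rfl hdc
      have hd1 : ‖d‖ < 1 := by
        by_contra hge
        exact absurd (hdp.trans_lt hlt) (not_lt.2 (one_le_pow₀ (not_lt.1 hge)))
      have hn1 := norm_one_add_of_lt hd1
      have hne : (1 + d) ≠ 0 := norm_ne_zero_iff.1 (hn1.trans_ne one_ne_zero)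
      have hc' : ‖a / (b * (1 + d)) ^ p - 1‖ ≤ ‖(p : Ω)‖ * max ‖c‖ ‖d‖ := by
        have : a / (b * (1 + d)) ^ p - 1 =
            ((c - d ^ p) - ((1 + d) ^ p - 1 - d ^ p)) / (1 + d) ^ p := by
          rw [hc, mul_pow, div_mul_eq_div_div, div_sub_one (pow_ne_zero _ hne)]
          ring
        rw [this, norm_div, norm_pow, hn1, one_pow, div_one]
        refine norm_sub_le_of_le (hdc.trans ?_) ((norm_one_add_pow_sub_le hd1.le).trans ?_)
        · exact mul_le_mul_of_nonneg_left (le_max_left _ _) (norm_nonneg _)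
        · exact mul_le_mul_of_nonneg_left (le_max_right _ _) (norm_nonneg _)
      refine ⟨b * (1 + d), M.mul_mem hb (M.add_mem M.one_mem hd), mul_ne_zero hb0 hne,
        hc'.trans_lt ?_, ?_⟩
      · exact (mul_le_of_le_one_right (norm_nonneg _) (max_le hlt.le hd1.le)).trans_lt hp1
      · rw [pow_succ', pow_mul]
        refine (pow_le_pow_left₀ (by positivity) ?_ _).trans hbk
        have hm : max ‖c‖ ‖d‖ ^ p ≤ ‖c‖ := by
          rcases le_total ‖c‖ ‖d‖ with h | h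
          · rwa [max_eq_right h]
          · rw [max_eq_left h]
            exact pow_le_of_le_one (norm_nonneg _) hlt.le hp.out.ne_zero
        have e : (‖(p : Ω)‖ * max ‖c‖ ‖d‖) ^ p ≤ T ^ (p - 1) * ‖c‖ := by
          rw [mul_pow, hTp]
          exact mul_le_mul_of_nonneg_left hm (by positivity)
        rw [div_pow, div_le_iff₀ (by positivity)]
        refine ((pow_le_pow_left₀ (norm_nonneg _) hc' p).trans e).trans_eq ?_
        rw [← pow_sub_one_mul hp.out.ne_zero T]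
        field_simp
  obtain ⟨k, hk⟩ := pow_unbounded_of_one_lt (1 / T) hE
  obtain ⟨b, hb, hb0, -, hbk⟩ := key k
  refine ⟨b, hb, hb0, (div_le_iff₀' hT).1 ?_⟩
  refine (pow_le_pow_iff_left₀ (by positivity) (by linarith) (pow_ne_zero k hp.out.ne_zero)).1 ?_
  exact hbk.trans (hk.le.trans (pow_le_pow_right₀ hE.le (Nat.lt_pow_self (by omega)).le))

end FA.TateSen
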