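import Fermat.Agent.TateSen.Group
import Fermat.Agent.TateSen.CyclotomicDeep
import Fermat.Agent.AxSenTate.Complete

/-!
# Almost purity above the cyclotomic tower

For a field `F` containing the `p`-power roots of unity and an open normal subgroup `U` of the
Galois group, the group of `F` acts through a finite group on the fixed field of `Gal(F) ⊓ U`.
-/

set_option autoImplicit false
set_option linter.unusedSectionVars false

noncomputable section

open Finset

namespace FA.TateSen

variable {p : ℕ} [hp : Fact p.Prime]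

local notation "Ω" => PadicAlgCl p
local notation "G" => PadicAlgCl p ≃ₐ[ℚ_[p]] PadicAlgCl p

instance : IsGalois ℚ_[p] Ω where
  to_normal := normal_iff.2 fun y => ⟨Algebra.IsIntegral.isIntegral y, IsAlgClosed.splits _⟩

theorem norm_gal (σ : G) (x : Ω) : ‖σ x‖ = ‖x‖ :=
  Fermat.Agent.AxSenTate.norm_algEquiv_apply σ x

/-- The field that the groups act on. -/
def levelField (F : IntermediateField ℚ_[p] Ω) (U : Subgroup G) : IntermediateField ℚ_[p] Ω :=
  IntermediateField.fixedField (F.fixingSubgroup ⊓ U)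

theorem mem_levelField {F : IntermediateField ℚ_[p] Ω} {U : Subgroup G}
    {x : Ω} :
    x ∈ levelField F U ↔ ∀ σ : G, σ ∈ F.fixingSubgroup → σ ∈ U → σ x = x :=
  ⟨fun hx σ h1 h2 => hx ⟨σ, ⟨h1, h2⟩⟩, fun hx σ => hx σ.1 σ.2.1 σ.2.2⟩

theorem fixed_of_le {E : IntermediateField ℚ_[p] Ω} {σ : G} (hσ : σ ∈ E.fixingSubgroup) {x : Ω}
    (hx : x ∈ E) : σ x = x :=
  (IntermediateField.mem_fixingSubgroup_iff _ _).1 hσ x hx

theorem smul_levelField {F : IntermediateField ℚ_[p] Ω} {U : Subgroup G}
    [U.Normal] {σ : G} (hσ : σ ∈ F.fixingSubgroup) {x : Ω}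
    (hx : x ∈ levelField F U) : σ x ∈ levelField F U := by
  rw [mem_levelField] at hx ⊢
  intro τ hτ hτU
  have h := hx (σ⁻¹ * τ * σ) (mul_mem (mul_mem (inv_mem hσ) hτ) hσ)
    (by simpa [mul_assoc] using (‹U.Normal›).conj_mem τ hτU σ⁻¹)
  rw [AlgEquiv.mul_apply, AlgEquiv.mul_apply] at h
  have h' := congrArg σ h
  rwa [← AlgEquiv.mul_apply σ σ⁻¹, mul_inv_cancel, AlgEquiv.one_apply] at h'

/-- An element of the group of `F` as an automorphism of the level field. -/
def levelAut {F : IntermediateField ℚ_[p] Ω} {U : Subgroup G}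
    [U.Normal] (σ : F.fixingSubgroup) : levelField F U ≃ₐ[ℚ_[p]] levelField F U where
  toFun x := ⟨(σ : G) x, smul_levelField σ.2 x.2⟩
  invFun x := ⟨(σ : G)⁻¹ x, smul_levelField (inv_mem σ.2) x.2⟩
  left_inv x := Subtype.ext (by
    change (σ : G)⁻¹ ((σ : G) (x : Ω)) = x
    rw [← AlgEquiv.mul_apply, inv_mul_cancel, AlgEquiv.one_apply])
  right_inv x := Subtype.ext (by
    change (σ : G) ((σ : G)⁻¹ (x : Ω)) = x
    rw [← AlgEquiv.mul_apply, mul_inv_cancel, AlgEquiv.one_apply])
  map_mul' x y := Subtype.ext (map_mul (σ : G) (x : Ω) y)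
  map_add' x y := Subtype.ext (map_add (σ : G) (x : Ω) y)
  commutes' r := Subtype.ext ((σ : G).commutes r)

/-- The restriction to the level field. -/
def levelRes {F : IntermediateField ℚ_[p] Ω} {U : Subgroup G}
    [U.Normal] : F.fixingSubgroup →* (levelField F U ≃ₐ[ℚ_[p]] levelField F U) where
  toFun := levelAut
  map_one' := AlgEquiv.ext fun _ => rfl
  map_mul' _ _ := AlgEquiv.ext fun _ => rfl

/-- The finite group acting on the level field. -/
abbrev LevelGroup (F : IntermediateField ℚ_[p] Ω) (U : Subgroup G) [U.Normal] :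
    Subgroup (levelField F U ≃ₐ[ℚ_[p]] levelField F U) :=
  (levelRes (F := F) (U := U)).range

theorem levelGroup_finite {F : IntermediateField ℚ_[p] Ω} {U : Subgroup G}
    [U.Normal] (hU : IsOpen (U : Set G)) : Finite (LevelGroup F U) := by
  have : Finite (G ⧸ U) := U.quotient_finite_of_isOpen hU
  have hfi : U.FiniteIndex := Subgroup.finiteIndex_of_finite_quotient
  have hle : U.subgroupOf F.fixingSubgroup ≤ (levelRes (F := F) (U := U)).ker := fun σ hσ =>
    AlgEquiv.ext fun x => Subtype.ext (mem_levelField.1 x.2 σ σ.2 hσ)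
  have : (U.subgroupOf F.fixingSubgroup).FiniteIndex := inferInstance
  have : (levelRes (F := F) (U := U)).ker.FiniteIndex := Subgroup.finiteIndex_of_le hle
  exact Finite.of_equiv _ (QuotientGroup.quotientKerEquivRange (levelRes (F := F) (U := U))).toEquiv

instance levelField_ultrametric {F : IntermediateField ℚ_[p] Ω} {U : Subgroup G}
    : IsUltrametricDist (levelField F U) :=
  IsUltrametricDist.isUltrametricDist_of_forall_norm_add_le_max_norm fun x y =>
    IsUltrametricDist.norm_add_le_max (x : Ω) y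

theorem natCast_coe_level {F : IntermediateField ℚ_[p] Ω} {U : Subgroup G}
    (n : ℕ) : ((n : levelField F U) : Ω) = n := rfl

theorem le_levelField {F : IntermediateField ℚ_[p] Ω} {U : Subgroup G}
    : F ≤ levelField F U := fun _ hx => mem_levelField.2 fun _ h _ =>
  fixed_of_le h hx

theorem mem_fixed_level {F : IntermediateField ℚ_[p] Ω} {U : Subgroup G}
    [U.Normal] {x : levelField F U} :
    x ∈ FixedPoints.subfield (LevelGroup F U) (levelField F U) ↔ (x : Ω) ∈ F := by
  refine ⟨fun hx => ?_, fun hx => ?_⟩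
  · refine (InfiniteGalois.fixedField_fixingSubgroup F).le ?_
    intro σ
    have h := hx ⟨levelRes σ, ⟨σ, rfl⟩⟩
    exact congrArg Subtype.val h
  · rintro ⟨_, σ, rfl⟩
    exact Subtype.ext (fixed_of_le σ.2 hx)

theorem exists_normal_field (x : Ω) : ∃ E : IntermediateField ℚ_[p] Ω, x ∈ E ∧
    FiniteDimensional ℚ_[p] E ∧ (∀ σ : G, ∀ y ∈ E, σ y ∈ E) ∧ E.fixingSubgroup.Normal ∧
      IsOpen (E.fixingSubgroup : Set G) := by
  set s := (minpoly ℚ_[p] x).rootSet Ω
  set E := IntermediateField.adjoin ℚ_[p] s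
  have hfs : s.Finite := Polynomial.rootSet_finite _ _
  have hfin : FiniteDimensional ℚ_[p] E := by
    have : Finite s := hfs.to_subtype
    exact IntermediateField.finiteDimensional_adjoin fun y _ => Algebra.IsIntegral.isIntegral y
  have hstab : ∀ σ : G, ∀ y ∈ E, σ y ∈ E := by
    intro σ y hy
    have h1 : σ y ∈ E.map σ.toAlgHom := ⟨y, hy, rfl⟩
    rw [IntermediateField.adjoin_map] at h1
    refine IntermediateField.adjoin.mono _ _ _ ?_ h1
    rintro _ ⟨z, hz, rfl⟩
    rw [Polynomial.mem_rootSet] at hz ⊢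
    refine ⟨hz.1, ?_⟩
    change Polynomial.aeval (σ z) _ = 0
    rw [Polynomial.aeval_algEquiv, AlgHom.comp_apply, hz.2, map_zero]
  refine ⟨E, IntermediateField.subset_adjoin _ _ ?_, hfin, hstab, ⟨fun u hu g => ?_⟩,
    E.fixingSubgroup_isOpen⟩
  · rw [Polynomial.mem_rootSet]
    exact ⟨minpoly.ne_zero (Algebra.IsIntegral.isIntegral x), minpoly.aeval _ _⟩
  · rw [IntermediateField.mem_fixingSubgroup_iff] at hu ⊢
    intro y hy
    rw [AlgEquiv.mul_apply, AlgEquiv.mul_apply, hu _ (hstab g⁻¹ y hy), ← AlgEquiv.mul_apply,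
      mul_inv_cancel, AlgEquiv.one_apply]

theorem tame_level {F : IntermediateField ℚ_[p] Ω} {U : Subgroup G}
    [U.Normal] : Tame p (LevelGroup F U) (levelField F U) where
  norm_lt := norm_p_lt_one (p := p)
  iso := by
    rintro ⟨_, σ, rfl⟩ x
    exact norm_gal (σ : G) x
  residue u hu := by
    obtain ⟨n, hn, h⟩ := exists_pow_near_one (u := (u : Ω)) hu
    exact ⟨n, hn, h⟩
  discrete x := by
    obtain ⟨E, hxE, hfin, hstab, -, -⟩ := exists_normal_field (x : Ω)
    refine ⟨E.toSubfield.comap (levelField F U).val.toRingHom, hxE, ?_, fun a b ha => ?_⟩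
    · rintro ⟨_, σ, rfl⟩ y hy
      exact hstab (σ : G) y hy
    · refine (finite_norms E ha b).subset ?_
      rintro _ ⟨y, hy, rfl⟩
      exact ⟨y, hy, rfl⟩

theorem deep_level {F : IntermediateField ℚ_[p] Ω} {U : Subgroup G}
    [U.Normal] (hF : Deep p F.toSubfield) :
    Deep p (FixedPoints.subfield (LevelGroup F U) (levelField F U)) := by
  intro x hx
  obtain ⟨y, hy, h⟩ := hF _ (mem_fixed_level.1 hx)
  exact ⟨⟨y, le_levelField hy⟩, mem_fixed_level.2 hy, h⟩

theorem exists_zeta_level {F : IntermediateField ℚ_[p] Ω} {U : Subgroup G}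
    [U.Normal] (hF : cycInf p ≤ F) :
    ∃ z : levelField F U, IsPrimitiveRoot z p ∧
      z ∈ FixedPoints.subfield (LevelGroup F U) (levelField F U) := by
  obtain ⟨z, hz⟩ := exists_primitive p 1
  rw [pow_one] at hz
  have hzF : z ∈ F := hF (cycLevel_le_cycInf 1 (IntermediateField.subset_adjoin _ _
    (by simpa using hz.pow_eq_one)))
  exact ⟨⟨z, le_levelField hzF⟩,
    IsPrimitiveRoot.of_map_of_injective (f := (levelField F U).val) hz (RingHom.injective _),
    mem_fixed_level.2 hzF⟩

theorem mem_levelField_of_normal {F E : IntermediateField ℚ_[p] Ω} {x : Ω} (hx : x ∈ E) :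
    x ∈ levelField F E.fixingSubgroup :=
  mem_levelField.2 fun _ _ h => fixed_of_le h hx

/-- The fixed field of the stabiliser of `x` is generated by `x`. -/
theorem mem_fixed_stabilizer {F₀ : IntermediateField ℚ_[p] Ω} {U : Subgroup G} [U.Normal] {x : Ω}
    (hx : x ∈ levelField F₀ U) (y : levelField F₀ U) :
    y ∈ FixedPoints.subfield (MulAction.stabilizer (LevelGroup F₀ U)
        (⟨x, hx⟩ : levelField F₀ U)) (levelField F₀ U) ↔
      (y : Ω) ∈ F₀ ⊔ IntermediateField.adjoin ℚ_[p] {x} := by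
  set L := F₀ ⊔ IntermediateField.adjoin ℚ_[p] {x}
  refine ⟨fun hy => ?_, fun hy => ?_⟩
  · refine (InfiniteGalois.fixedField_fixingSubgroup L).le ?_
    intro σ
    have h0 : (σ : G) ∈ F₀.fixingSubgroup :=
      IntermediateField.fixingSubgroup_antitone le_sup_left σ.2
    have hx' : (σ : G) x = x := fixed_of_le σ.2
      ((le_sup_right : _ ≤ F₀ ⊔ _) (IntermediateField.mem_adjoin_simple_self _ x))
    have h := hy ⟨⟨levelRes ⟨σ, h0⟩, ⟨⟨σ, h0⟩, rfl⟩⟩, Subtype.ext hx'⟩
    exact congrArg Subtype.val h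
  · rintro ⟨⟨_, σ, rfl⟩, hσ⟩
    have hx' : (σ : G) x = x := congrArg Subtype.val hσ
    refine Subtype.ext (fixed_of_le (E := L) ?_ hy)
    rw [IntermediateField.fixingSubgroup_sup]
    refine ⟨σ.2, (IntermediateField.mem_fixingSubgroup_iff _ _).2 fun z hz => ?_⟩
    have hle : IntermediateField.adjoin ℚ_[p] {x} ≤
        IntermediateField.fixedField (Subgroup.zpowers (σ : G)) := by
      rw [IntermediateField.adjoin_simple_le_iff]
      intro ⟨τ, hτ⟩
      have : Subgroup.zpowers (σ : G) ≤ MulAction.stabilizer G x := by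
        rw [Subgroup.zpowers_le]; exact hx'
      exact this hτ
    exact hle hz ⟨σ, Subgroup.mem_zpowers _⟩

/-- A fixed field of the level group is deep. -/
theorem deep_adjoin_of_deep {F₀ : IntermediateField ℚ_[p] Ω} (hF₀ : cycInf p ≤ F₀)
    (hdeep : Deep p F₀.toSubfield) (x : Ω) :
    Deep p (F₀ ⊔ IntermediateField.adjoin ℚ_[p] {x}).toSubfield := by
  classical
  obtain ⟨E, hxE, -, -, hEn, hEo⟩ := exists_normal_field x
  have := hEn
  have := levelGroup_finite (F := F₀) hEo
  have : Fintype (LevelGroup F₀ E.fixingSubgroup) := Fintype.ofFinite _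
  obtain ⟨ζ, hζ, hζf⟩ := exists_zeta_level (U := E.fixingSubgroup) hF₀
  set L := F₀ ⊔ IntermediateField.adjoin ℚ_[p] {x}
  have hLle : L ≤ levelField F₀ E.fixingSubgroup :=
    sup_le le_levelField (IntermediateField.adjoin_simple_le_iff.2 (mem_levelField_of_normal hxE))
  set x' : levelField F₀ E.fixingSubgroup := ⟨x, mem_levelField_of_normal hxE⟩
  set S := MulAction.stabilizer (LevelGroup F₀ E.fixingSubgroup) x'
  have hS := deep_fixed tame_level (deep_level hdeep) hζ hζf S
  have hiff := fun y => mem_fixed_stabilizer (F₀ := F₀) (mem_levelField_of_normal hxE) y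
  intro y hy
  obtain ⟨w, hw, hwy⟩ := hS ⟨y, hLle hy⟩ ((hiff ⟨y, hLle hy⟩).2 hy)
  exact ⟨w, (hiff w).1 hw, hwy⟩

/-- **Almost purity**: every algebraic extension of the cyclotomic tower is deep. -/
theorem deep_of_cycInf_le {L : IntermediateField ℚ_[p] Ω} (hL : cycInf p ≤ L) :
    Deep p L.toSubfield := by
  intro x hx
  obtain ⟨y, hy, hyx⟩ := deep_adjoin_of_deep le_rfl deep_cycInf x x
    ((le_sup_right : _ ≤ cycInf p ⊔ IntermediateField.adjoin ℚ_[p] {x})
      (IntermediateField.mem_adjoin_simple_self _ x))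
  exact ⟨y, sup_le hL (IntermediateField.adjoin_simple_le_iff.2 hx) hy, hyx⟩

/-- A trace near one for the level group. -/
theorem exists_level_trace {F : IntermediateField ℚ_[p] Ω} {U : Subgroup G}
    [U.Normal] (hF : cycInf p ≤ F) [Fintype (LevelGroup F U)] {E : ℝ}
    (hE : 1 < E) :
    ∃ t : levelField F U, ‖t‖ ≤ E ∧ ∑ g : LevelGroup F U, g • t = 1 := by
  obtain ⟨ζ, hζ, hζf⟩ := exists_zeta_level (U := U) hF
  exact exists_sum_smul_eq_one tame_level (deep_level (deep_of_cycInf_le hF)) hζ hζf hE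

end FA.TateSen
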