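import Fermat.Agent.TateSen.CyclicDeep

/-!
# Almost purity for a finite group of isometries

If the fixed field is deep and contains the roots of unity of order `p`, then the field and all the
fixed fields are deep, and some element of absolute value as near to one as wished has sum of
conjugates one.
-/

set_option autoImplicit false
set_option linter.unusedSectionVars false

noncomputable section

open Finset

namespace FA.TateSen

variable {Γ N : Type*} [Group Γ] [NormedField N] [IsUltrametricDist N] [CharZero N]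
  [MulSemiringAction Γ N] [FaithfulSMul Γ N] {p : ℕ} [hp : Fact p.Prime] [Fintype Γ]

/-- The statement propagated along the Sylow subgroup. -/
def StepGoal (p : ℕ) (Γ N : Type*) [Group Γ] [NormedField N] [MulSemiringAction Γ N] [Fintype Γ]
    (H : Subgroup Γ) : Prop :=
  Deep p (FixedPoints.subfield H N) ∧ ∀ E : ℝ, 1 < E →
    ∃ t ∈ FixedPoints.subfield H N, ‖t‖ ≤ E ∧ ∑ g : Γ, g • t = (Nat.card H : N)

theorem stepGoal_sylow (hT : Tame p Γ N) (hbase : Deep p (FixedPoints.subfield Γ N))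
    (S : Sylow p Γ) : StepGoal p Γ N (S : Subgroup Γ) := by
  have hnd := S.not_dvd_index
  refine ⟨deep_of_not_dvd_index hT hbase _ hnd, fun E hE =>
    ⟨((S : Subgroup Γ).index : N)⁻¹, inv_mem (natCast_mem _ _), ?_, ?_⟩⟩
  · set m := (S : Subgroup Γ).index with hm
    obtain ⟨s, -, hs⟩ := Nat.exists_mul_mod_eq_one_of_coprime
      ((hp.out.coprime_iff_not_dvd.2 hnd).symm) hp.out.one_lt
    have h1 : ‖((m * s : ℕ) : N)‖ = 1 := by
      rw [← Nat.div_add_mod (m * s) p, hs, Nat.cast_add, Nat.cast_mul, Nat.cast_one, add_comm]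
      refine norm_one_add_of_lt ?_
      rw [norm_mul]
      exact (mul_le_of_le_one_right (norm_nonneg _) (norm_natCast_le _)).trans_lt hT.norm_lt
    rw [Nat.cast_mul, norm_mul] at h1
    rw [norm_inv]
    have h2 : (1 : ℝ) ≤ ‖(m : N)‖ := by
      rw [← h1]; exact mul_le_of_le_one_right (norm_nonneg _) (norm_natCast_le _)
    exact (inv_le_one_of_one_le₀ h2).trans hE.le
  · simp only [smul_inv'', smul_natCast, sum_const, card_univ, nsmul_eq_mul]
    rw [← Nat.card_eq_fintype_card, ← (S : Subgroup Γ).index_mul_card, Nat.cast_mul, mul_comm,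
      ← mul_assoc, inv_mul_cancel₀ (Nat.cast_ne_zero.2 Subgroup.index_ne_zero_of_finite), one_mul]

theorem stepGoal_step (hT : Tame p Γ N) {ζ : N} (hζ : IsPrimitiveRoot ζ p)
    (hζf : ζ ∈ FixedPoints.subfield Γ N) {H' H : Subgroup Γ} (hle : H' ≤ H) {n : ℕ}
    (hH' : Nat.card H' = p ^ n) (hH : Nat.card H = p ^ (n + 1)) (h : StepGoal p Γ N H) :
    StepGoal p Γ N H' := by
  have hidx : H'.relIndex H = p := by
    have h1 := (H'.subgroupOf H).index_mul_card
    rw [Nat.card_congr (Subgroup.subgroupOfEquivOfLe hle).toEquiv, hH', hH, pow_succ'] at h1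
    exact Nat.eq_of_mul_eq_mul_right (pow_pos hp.out.pos n) h1
  have hnormal : (H'.subgroupOf H).Normal := by
    refine Subgroup.normal_of_index_eq_minFac_card ?_
    rw [hH, hp.out.pow_minFac n.succ_ne_zero]
    exact hidx
  obtain ⟨σ, hσ, hσ'⟩ : ∃ σ ∈ H, σ ∉ H' := by
    by_contra hcon
    push Not at hcon
    exact hp.out.one_lt.ne' (hidx.symm.trans (Subgroup.relIndex_eq_one.2 hcon))
  have hS : CyclicStep p H' H σ := ⟨hle, hidx, hnormal, hσ, hσ'⟩
  refine ⟨hS.deep hT.norm_lt hT.iso hζ hζf h.1, fun E hE => ?_⟩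
  have hsE : 1 < Real.sqrt E := by
    rw [← Real.sqrt_one]; exact Real.sqrt_lt_sqrt zero_le_one hE
  obtain ⟨t, ht, htE, hts⟩ := h.2 _ hsE
  obtain ⟨t', ht', ht'E, ht's⟩ := hS.exists_trace_one hT.norm_lt hζ hζf h.1 hsE
  refine ⟨t * t', mul_mem (mem_fixed.2 fun g hg => mem_fixed.1 ht g (hle hg)) ht', ?_, ?_⟩
  · rw [norm_mul]
    exact (mul_le_mul htE ht'E (norm_nonneg _) (by positivity)).trans_eq
      (Real.mul_self_sqrt (by linarith))
  · refine mul_left_cancel₀ (Nat.cast_ne_zero.2 hp.out.ne_zero : (p : N) ≠ 0) ?_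
    have : ∀ i, ∑ g : Γ, g • (t * σ ^ i • t') = ∑ g : Γ, g • (t * t') := fun i => by
      conv_rhs => rw [← Equiv.sum_comp (Equiv.mulRight (σ ^ i))]
      refine sum_congr rfl fun g _ => ?_
      rw [Equiv.coe_mulRight, mul_smul, smul_mul' (σ ^ i),
        mem_fixed.1 ht _ (pow_mem hσ i)]
    calc (p : N) * ∑ g : Γ, g • (t * t') = ∑ i ∈ range p, ∑ g : Γ, g • (t * σ ^ i • t') := by
          rw [sum_congr rfl fun i _ => this i, sum_const, card_range, nsmul_eq_mul]
      _ = ∑ g : Γ, g • t := by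
          rw [sum_comm]
          refine sum_congr rfl fun g _ => ?_
          rw [← smul_sum, ← mul_sum, ht's, mul_one]
      _ = (p : N) * (Nat.card H' : N) := by rw [hts, hH, hH', ← Nat.cast_mul, pow_succ']

/-- **Almost purity** for the whole field. -/
theorem deep_and_trace_bot (hT : Tame p Γ N) (hbase : Deep p (FixedPoints.subfield Γ N)) {ζ : N}
    (hζ : IsPrimitiveRoot ζ p) (hζf : ζ ∈ FixedPoints.subfield Γ N) :
    StepGoal p Γ N (⊥ : Subgroup Γ) := by
  obtain ⟨S⟩ := (inferInstance : Nonempty (Sylow p Γ))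
  obtain ⟨a, ha⟩ := IsPGroup.iff_card.1 S.isPGroup'
  suffices ∀ (j n : ℕ) (H : Subgroup Γ), H ≤ (S : Subgroup Γ) → Nat.card H = p ^ n → n + j = a →
      StepGoal p Γ N H by
    exact this a 0 ⊥ bot_le (by rw [Subgroup.card_bot, pow_zero]) (by omega)
  intro j
  induction j with
  | zero =>
    intro n H hle hH hn
    rw [add_zero] at hn
    have : H = (S : Subgroup Γ) := Subgroup.eq_of_le_of_card_ge hle (by rw [hH, ha, hn])
    rw [this]
    exact stepGoal_sylow hT hbase S
  | succ j ih =>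
    intro n H hle hH hn
    obtain ⟨K, hK, hHK⟩ := Sylow.exists_subgroup_card_pow_succ (G := (S : Subgroup Γ))
      (H := H.subgroupOf S) (n := n) (by rw [ha]; exact pow_dvd_pow _ (by omega))
      (by rw [Nat.card_congr (Subgroup.subgroupOfEquivOfLe hle).toEquiv, hH])
    set L := K.map (S : Subgroup Γ).subtype
    have hL : Nat.card L = p ^ (n + 1) := by
      rw [← hK]
      exact (Nat.card_congr (K.equivMapOfInjective _ Subtype.val_injective).toEquiv).symm
    have hHL : H ≤ L := fun h hh =>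
      ⟨⟨h, hle hh⟩, hHK (Subgroup.mem_subgroupOf.2 hh), rfl⟩
    refine stepGoal_step hT hζ hζf hHL hH hL (ih (n + 1) L ?_ hL (by omega))
    rintro _ ⟨x, -, rfl⟩
    exact x.2

/-- **A trace near one** for the whole group. -/
theorem exists_sum_smul_eq_one (hT : Tame p Γ N) (hbase : Deep p (FixedPoints.subfield Γ N))
    {ζ : N} (hζ : IsPrimitiveRoot ζ p) (hζf : ζ ∈ FixedPoints.subfield Γ N) {E : ℝ} (hE : 1 < E) :
    ∃ t : N, ‖t‖ ≤ E ∧ ∑ g : Γ, g • t = 1 := by
  obtain ⟨t, -, ht, hts⟩ := (deep_and_trace_bot hT hbase hζ hζf).2 E hE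
  exact ⟨t, ht, by rw [hts, Subgroup.card_bot, Nat.cast_one]⟩

/-- A trace near one for a subgroup. -/
theorem exists_sum_subgroup_eq_one (hT : Tame p Γ N) (hbase : Deep p (FixedPoints.subfield Γ N))
    {ζ : N} (hζ : IsPrimitiveRoot ζ p) (hζf : ζ ∈ FixedPoints.subfield Γ N) (H : Subgroup Γ)
    [Fintype H] {E : ℝ} (hE : 1 < E) : ∃ t : N, ‖t‖ ≤ E ∧ ∑ h : H, h • t = 1 := by
  classical
  obtain ⟨t, ht, hts⟩ := exists_sum_smul_eq_one hT hbase hζ hζf hE
  have hc := H.isComplement_range_right (f := fun q => q.out) (fun q => Quotient.out_eq' q)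
  refine ⟨∑ r : Quotient (QuotientGroup.rightRel H), r.out • t,
    IsUltrametricDist.norm_sum_le_of_forall_le_of_nonneg (by linarith) fun r _ =>
      (hT.iso _ t).trans_le ht, ?_⟩
  rw [← hts]
  simp only [smul_sum, Subgroup.smul_def, ← mul_smul]
  rw [← sum_product']
  refine Fintype.sum_bijective (fun x : H × Quotient (QuotientGroup.rightRel H) =>
    (x.1 : Γ) * x.2.out) ⟨?_, ?_⟩ _ _ (fun _ => rfl)
  · rintro ⟨h, r⟩ ⟨h', r'⟩ e
    simp only at e
    have hr : r = r' := by
      rw [← r.out_eq, ← r'.out_eq]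
      refine Quotient.sound ?_
      change QuotientGroup.rightRel H _ _
      rw [QuotientGroup.rightRel_apply]
      have : r'.out * r.out⁻¹ = (h' : Γ)⁻¹ * h := by
        rw [eq_inv_mul_iff_mul_eq, ← mul_assoc, ← e, mul_inv_cancel_right]
      rw [this]
      exact mul_mem (inv_mem h'.2) h.2
    subst hr
    simpa using e
  · intro g
    set r : Quotient (QuotientGroup.rightRel H) := Quotient.mk'' g
    have hm : g * r.out⁻¹ ∈ H := by
      have := QuotientGroup.rightRel_apply.1 (Quotient.exact' (r.out_eq : Quotient.mk'' r.out = _))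
      simpa using this
    exact ⟨(⟨_, hm⟩, r), inv_mul_cancel_right g r.out⟩

/-- **Almost purity**: every fixed field is deep. -/
theorem deep_fixed (hT : Tame p Γ N) (hbase : Deep p (FixedPoints.subfield Γ N)) {ζ : N}
    (hζ : IsPrimitiveRoot ζ p) (hζf : ζ ∈ FixedPoints.subfield Γ N) (H : Subgroup Γ) :
    Deep p (FixedPoints.subfield H N) := by
  classical
  have hp0 : 0 < ‖(p : N)‖ := norm_pos_iff.2 (Nat.cast_ne_zero.2 hp.out.ne_zero)
  obtain ⟨E, hE, hEs⟩ : ∃ E : ℝ, 1 < E ∧ ‖(p : N)‖ * E ^ p < 1 := by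
    have hc : ContinuousAt (fun F : ℝ => ‖(p : N)‖ * F ^ p) 1 := by fun_prop
    obtain ⟨δ, hδ, h⟩ := Metric.eventually_nhds_iff.1
      (hc.eventually (IsOpen.mem_nhds (isOpen_Iio (a := (1 : ℝ))) (by simpa using hT.norm_lt)))
    refine ⟨1 + δ / 2, by linarith, h ?_⟩
    rw [Real.dist_eq, abs_of_pos (by linarith)]
    linarith
  have : Fintype H := Fintype.ofFinite _
  obtain ⟨t, ht, hts⟩ := exists_sum_subgroup_eq_one hT hbase hζ hζf H hE
  refine deep_of_approx hT.norm_lt (θ := ‖(p : N)‖ * E ^ p) (by positivity) hEs fun x hx => ?_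
  obtain ⟨y, -, hy⟩ := (deep_and_trace_bot hT hbase hζ hζf).1 x
    (mem_fixed.2 fun g hg => by rw [Subgroup.mem_bot.1 hg, one_smul])
  set w := ∑ h : H, h • (y * t) with hw
  have hwH : w ∈ FixedPoints.subfield H N := fun g => by
    rw [hw, smul_sum]
    simp only [← mul_smul]
    exact Fintype.sum_equiv (Equiv.mulLeft g) _ _ fun h => rfl
  refine ⟨w, hwH, ?_⟩
  have hyn : ‖y‖ ^ p ≤ ‖x‖ := norm_pow_le_of_approx hT.norm_lt.le le_rfl hy
  have hconj : ∀ h : H, ‖(h • y - y) ^ p‖ ≤ ‖(p : N)‖ * ‖x‖ := fun h => by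
    have h1 : ‖x - (h • y) ^ p‖ ≤ ‖(p : N)‖ * ‖x‖ := by
      conv_lhs => rw [← hx h, ← smul_pow', ← smul_sub]
      exact (hT.iso (h : Γ) _).trans_le hy
    have e : (h • y - y) ^ p = (x - y ^ p) - (x - (h • y) ^ p) -
        ((h • y - y + y) ^ p - (h • y - y) ^ p - y ^ p) := by
      rw [sub_add_cancel]; ring
    rw [e]
    refine norm_sub_le_of_le (norm_sub_le_of_le hy h1) ?_
    have hn : ‖h • y‖ = ‖y‖ := hT.iso _ y
    exact (norm_add_pow_sub_le (norm_sub_le_of_le hn.le le_rfl) le_rfl).trans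
      (mul_le_mul_of_nonneg_left hyn (norm_nonneg _))
  have hdiff : ‖w - y‖ ^ p ≤ E ^ p * (‖(p : N)‖ * ‖x‖) := by
    have e : w - y = ∑ h : H, (h • y - y) * h • t := by
      simp only [sub_mul, ← smul_mul', sum_sub_distrib, ← mul_sum, hts, mul_one, hw]
    obtain ⟨h₀, -, hh₀⟩ := Finset.exists_max_image univ
      (fun h : H => ‖(h • y - y) * h • t‖) univ_nonempty
    have hle : ‖w - y‖ ≤ ‖(h₀ • y - y) * h₀ • t‖ := by
      rw [e]
      exact IsUltrametricDist.norm_sum_le_of_forall_le_of_nonneg (norm_nonneg _) hh₀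
    refine (pow_le_pow_left₀ (norm_nonneg _) hle p).trans ?_
    have : ‖h₀ • t‖ = ‖t‖ := hT.iso _ t
    rw [norm_mul, mul_pow, this, mul_comm, ← norm_pow (h₀ • y - y)]
    exact mul_le_mul (pow_le_pow_left₀ (norm_nonneg _) ht p) (hconj h₀) (norm_nonneg _)
      (by positivity)
  have hE1 : 1 ≤ E ^ p := one_le_pow₀ hE.le
  have e : x - w ^ p = (x - y ^ p) - (w - y) ^ p -
      ((w - y + y) ^ p - (w - y) ^ p - y ^ p) := by
    rw [sub_add_cancel]; ring
  rw [e]
  refine norm_sub_le_of_le (norm_sub_le_of_le (hy.trans ?_) ?_) ?_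
  · exact mul_le_mul_of_nonneg_right (le_mul_of_one_le_right (norm_nonneg _) hE1) (norm_nonneg _)
  · rw [norm_pow]
    exact hdiff.trans_eq (by ring)
  · refine (norm_add_pow_sub_le (le_max_left _ _) (le_max_right ‖w - y‖ ‖y‖)).trans ?_
    rw [mul_assoc]
    refine mul_le_mul_of_nonneg_left ?_ (norm_nonneg _)
    rcases le_total ‖w - y‖ ‖y‖ with h | h
    · rw [max_eq_right h]
      exact hyn.trans (le_mul_of_one_le_left (norm_nonneg _) hE1)
    · rw [max_eq_left h]
      refine hdiff.trans (mul_le_mul_of_nonneg_left ?_ (by positivity))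
      exact mul_le_of_le_one_left (norm_nonneg _) hT.norm_lt.le

end FA.TateSen
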