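import Fermat.Agent.TateSen.PrimeDegree

/-!
# Cyclic extensions of degree `p` of a deep field

The generator `α` of the extension is taken near `1`; then `z = (α - 1) / (ζ - 1)` is almost
integral, its conjugates have differences of absolute value one and the trace of `z ^ (p - 1)` is a
unit.
-/

set_option autoImplicit false
set_option linter.unusedSectionVars false

noncomputable section

open Finset Polynomial

namespace FA.TateSen

variable {Γ N : Type*} [Group Γ] [NormedField N] [IsUltrametricDist N] [CharZero N]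
  [MulSemiringAction Γ N] {p : ℕ} [hp : Fact p.Prime]

variable (p) in
/-- `σ` generates `H` modulo the normal subgroup `H'` of index `p`. -/
structure CyclicStep (H' H : Subgroup Γ) (σ : Γ) : Prop where
  le : H' ≤ H
  relIndex_eq : H'.relIndex H = p
  normal : (H'.subgroupOf H).Normal
  mem : σ ∈ H
  not_mem : σ ∉ H'

variable {H' H : Subgroup Γ} {σ : Γ}

theorem CyclicStep.gen_pow_mem (hS : CyclicStep p H' H σ) : σ ^ p ∈ H' := by
  have := hS.normal
  have h := Subgroup.pow_index_mem (H'.subgroupOf H) ⟨σ, hS.mem⟩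
  have e : (H'.subgroupOf H).index = p := hS.relIndex_eq
  rw [e, Subgroup.mem_subgroupOf] at h
  simpa using h

theorem CyclicStep.gen_smul_mem (hS : CyclicStep p H' H σ) {x : N}
    (hx : x ∈ FixedPoints.subfield H' N) : σ • x ∈ FixedPoints.subfield H' N := by
  rw [mem_fixed] at hx ⊢
  intro h hh
  have hn := hS.normal.conj_mem ⟨h, hS.le hh⟩ (Subgroup.mem_subgroupOf.2 hh)
    ⟨σ⁻¹, H.inv_mem hS.mem⟩
  rw [Subgroup.mem_subgroupOf] at hn
  have := hx _ hn
  simp only [Subgroup.coe_mul, InvMemClass.coe_inv, inv_inv, mul_smul, inv_smul_eq_iff] at this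
  exact this

theorem CyclicStep.pow_smul_mem (hS : CyclicStep p H' H σ) {x : N}
    (hx : x ∈ FixedPoints.subfield H' N) (i : ℕ) : σ ^ i • x ∈ FixedPoints.subfield H' N := by
  induction i with
  | zero => rwa [pow_zero, one_smul]
  | succ i ih => rw [pow_succ', mul_smul]; exact hS.gen_smul_mem ih

theorem CyclicStep.pow_smul (hS : CyclicStep p H' H σ) {x : N}
    (hx : x ∈ FixedPoints.subfield H' N) : σ ^ p • x = x :=
  mem_fixed.1 hx _ hS.gen_pow_mem

theorem CyclicStep.mem_fixed_of (hS : CyclicStep p H' H σ) {x : N}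
    (hx : x ∈ FixedPoints.subfield H' N) (hσ : σ • x = x) : x ∈ FixedPoints.subfield H N := by
  rw [mem_fixed] at hx ⊢
  set S := H ⊓ MulAction.stabilizer Γ x with hSdef
  have h1 : H' ≤ S := le_inf hS.le fun h hh => hx h hh
  have h2 := Subgroup.relIndex_mul_relIndex H' S H h1 inf_le_left
  rw [hS.relIndex_eq] at h2
  have hne : H'.relIndex S ≠ 1 := fun e =>
    hS.not_mem (Subgroup.relIndex_eq_one.1 e ⟨hS.mem, hσ⟩)
  have h3 : S.relIndex H = 1 := by
    rcases (Nat.dvd_prime hp.out).1 (Dvd.intro _ h2) with h | h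
    · exact absurd h hne
    · rw [h] at h2
      exact (Nat.mul_eq_left hp.out.ne_zero).1 h2
  exact fun h hh => (Subgroup.relIndex_eq_one.1 h3 hh).2

/-- A shift does not change a sum over a period. -/
theorem sum_period {f : ℕ → N} (hper : f p = f 0) :
    ∑ i ∈ range p, f (i + 1) = ∑ i ∈ range p, f i := by
  have h1 := sum_range_succ f p
  have h2 := sum_range_succ' f p
  rw [h1, hper] at h2
  exact (add_right_cancel h2).symm

theorem smul_natCast (g : Γ) (n : ℕ) : g • (n : N) = n :=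
  map_natCast (MulSemiringAction.toRingHom Γ N g) n

theorem smul_zeta {ζ : N} (hζ : ζ ∈ FixedPoints.subfield Γ N) (g : Γ) : g • ζ = ζ := hζ g

/-- The generator of a cyclic extension of degree `p`. -/
theorem CyclicStep.exists_radical [Finite Γ] [FaithfulSMul Γ N] (hS : CyclicStep p H' H σ) {ζ : N}
    (hζ : IsPrimitiveRoot ζ p) (hζf : ζ ∈ FixedPoints.subfield Γ N) :
    ∃ ξ α : N, IsPrimitiveRoot ξ p ∧ ξ ∈ FixedPoints.subfield Γ N ∧
      α ∈ FixedPoints.subfield H' N ∧ α ≠ 0 ∧ σ • α = ξ * α := by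
  classical
  have : Fintype Γ := Fintype.ofFinite _
  have hne : FixedPoints.subfield H' N ≠ FixedPoints.subfield H N := by
    intro e
    have h1 := FixedPoints.finrank_eq_card H' N
    have h2 := FixedPoints.finrank_eq_card H N
    rw [e, h2] at h1
    have h3 : Nat.card H' = Nat.card H := by
      rw [Nat.card_eq_fintype_card, Nat.card_eq_fintype_card, h1]
    have h4 := Subgroup.eq_of_le_of_card_ge hS.le h3.ge
    exact hS.not_mem (h4 ▸ hS.mem)
  obtain ⟨w, hw, hσw⟩ : ∃ w ∈ FixedPoints.subfield H' N, σ • w ≠ w := by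
    by_contra hcon
    push Not at hcon
    exact hne (le_antisymm (fun x hx => hS.mem_fixed_of hx (hcon x hx))
      fun x hx => mem_fixed.2 fun h hh => mem_fixed.1 hx h (hS.le hh))
  set R : ℕ → N := fun j => ∑ i ∈ range p, ((ζ ^ j)⁻¹) ^ i * σ ^ i • w with hR
  have hz : ∀ j : ℕ, ζ ^ j ≠ 0 := fun j => pow_ne_zero _ (hζ.ne_zero hp.out.ne_zero)
  have hcf : ∀ j i : ℕ, ((ζ ^ j)⁻¹) ^ i ∈ FixedPoints.subfield Γ N := fun j i =>
    pow_mem (inv_mem (pow_mem hζf j)) i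
  have hRσ : ∀ j, σ • R j = ζ ^ j * R j := by
    intro j
    have hper : ((ζ ^ j)⁻¹) ^ p * σ ^ p • w = ((ζ ^ j)⁻¹) ^ 0 * σ ^ 0 • w := by
      rw [hS.pow_smul hw, inv_pow, ← pow_mul, mul_comm j p, pow_mul, hζ.pow_eq_one, one_pow,
        inv_one, pow_zero, pow_zero, one_smul]
    simp only [hR]
    rw [← sum_period (f := fun i => ((ζ ^ j)⁻¹) ^ i * σ ^ i • w) hper, Finset.mul_sum,
      sum_period (f := fun i => ((ζ ^ j)⁻¹) ^ i * σ ^ i • w) hper, Finset.smul_sum]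
    refine sum_congr rfl fun i _ => ?_
    rw [smul_mul', smul_zeta (hcf j i), ← mul_smul, ← pow_succ', pow_succ' (ζ ^ j)⁻¹, ← mul_assoc,
      ← mul_assoc, mul_inv_cancel₀ (hz j), one_mul]
  have hRmem : ∀ j, R j ∈ FixedPoints.subfield H' N := fun j =>
    sum_mem fun i _ => mul_mem (mem_fixed.2 fun h _ => hcf j i h) (hS.pow_smul_mem hw i)
  obtain ⟨j, hj0, hjp, hj⟩ : ∃ j, j ≠ 0 ∧ j < p ∧ R j ≠ 0 := by
    by_contra hcon
    have hsum : ∑ j ∈ range p, R j = (p : N) * w := by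
      simp only [hR]
      rw [Finset.sum_comm, sum_eq_single 0]
      · simp
      · intro i hi hi0
        rw [← sum_mul]
        have : ∑ x ∈ range p, ((ζ ^ x)⁻¹) ^ i = 0 := by
          have hprim : IsPrimitiveRoot ((ζ⁻¹) ^ i) p := hζ.inv.pow_of_coprime i
            (Nat.coprime_of_lt_prime hi0 (mem_range.1 hi) hp.out).symm
          rw [← hprim.geom_sum_eq_zero hp.out.one_lt]
          refine sum_congr rfl fun x _ => ?_
          rw [← inv_pow, ← pow_mul, ← pow_mul, mul_comm]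
        rw [this, zero_mul]
      · exact fun h => absurd (mem_range.2 hp.out.pos) h
    rw [sum_eq_single 0 (fun b hb hb0 => by
      by_contra h
      exact hcon ⟨b, hb0, mem_range.1 hb, h⟩) fun h => absurd (mem_range.2 hp.out.pos) h] at hsum
    have h0 := hRσ 0
    rw [hsum, smul_mul', smul_natCast, pow_zero, one_mul] at h0
    exact hσw (mul_left_cancel₀ (Nat.cast_ne_zero.2 hp.out.ne_zero) h0)
  exact ⟨ζ ^ j, R j, hζ.pow_of_coprime j (Nat.coprime_of_lt_prime hj0 hjp hp.out).symm,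
    pow_mem hζf j, hRmem j, hj, hRσ j⟩

/-- The normalised coordinate of a generator near `1`. -/
theorem norm_coord_le {ξ α : N} (hξ : IsPrimitiveRoot ξ p) {E : ℝ} (hE : 1 ≤ E)
    (hsmall : ‖ξ - 1‖ ^ p * E < 1) (h : ‖α ^ p - 1‖ ≤ ‖ξ - 1‖ ^ p * E) :
    ‖α‖ = 1 ∧ ‖(α - 1) / (ξ - 1)‖ ≤ E ∧ ‖α - 1‖ ≤ 1 := by
  have hπ := norm_sub_one_pos hp.out.one_lt hξ
  have hα : ‖α‖ = 1 := by
    have h1 := norm_one_add_of_lt (h.trans_lt hsmall)
    rw [add_sub_cancel, norm_pow] at h1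
    exact (pow_eq_one_iff_of_nonneg (norm_nonneg α) hp.out.ne_zero).1 h1
  have hd1 : ‖α - 1‖ ≤ 1 := norm_sub_le_of_le hα.le (by rw [norm_one])
  refine ⟨hα, ?_, hd1⟩
  rw [norm_div, div_le_iff₀ hπ]
  by_contra hlt
  have hgt : ‖ξ - 1‖ < ‖α - 1‖ :=
    lt_of_le_of_lt (le_mul_of_one_le_left hπ.le hE) (not_le.1 hlt)
  set d := α - 1 with hd
  have e : d ^ p = (α ^ p - 1) - ((1 + d) ^ p - 1 - d ^ p) := by
    rw [show 1 + d = α by rw [hd]; ring]; ring
  have h2 : ‖(1 + d) ^ p - 1 - d ^ p‖ < ‖d‖ ^ p := by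
    refine (norm_one_add_pow_sub_le hd1).trans_lt ?_
    rw [← norm_sub_one_pow hξ, ← pow_sub_one_mul hp.out.ne_zero ‖d‖]
    exact mul_lt_mul_of_pos_right (pow_lt_pow_left₀ hgt hπ.le (by
      have := hp.out.two_le; omega)) (hπ.trans hgt)
  have h3 : ‖α ^ p - 1‖ < ‖d‖ ^ p := by
    refine h.trans_lt ?_
    refine lt_of_le_of_lt ?_ (pow_lt_pow_left₀ (not_le.1 hlt) (by positivity) hp.out.ne_zero)
    rw [mul_pow, mul_comm (E ^ p)]
    exact mul_le_mul_of_nonneg_left (le_self_pow₀ hE hp.out.ne_zero) (by positivity)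
  have h4 : ‖d ^ p‖ < ‖d‖ ^ p := by
    rw [e, sub_eq_add_neg]
    exact (IsUltrametricDist.norm_add_le_max _ _).trans_lt (max_lt h3 (by rwa [norm_neg]))
  rw [norm_pow] at h4
  exact lt_irrefl _ h4

/-- A generator normalised near `1`. -/
theorem CyclicStep.exists_normalised [Finite Γ] [FaithfulSMul Γ N] (hp1 : ‖(p : N)‖ < 1)
    (hS : CyclicStep p H' H σ) {ζ : N} (hζ : IsPrimitiveRoot ζ p)
    (hζf : ζ ∈ FixedPoints.subfield Γ N) (hdeep : Deep p (FixedPoints.subfield H N)) {E : ℝ}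
    (hE : 1 < E) :
    ∃ ξ α : N, IsPrimitiveRoot ξ p ∧ ξ ∈ FixedPoints.subfield Γ N ∧
      α ∈ FixedPoints.subfield H' N ∧ σ • α = ξ * α ∧ ‖α ^ p - 1‖ ≤ ‖ξ - 1‖ ^ p * E := by
  obtain ⟨ξ, α, hξ, hξf, hα, hα0, hσα⟩ := hS.exists_radical hζ hζf
  have hpH : α ^ p ∈ FixedPoints.subfield H N := hS.mem_fixed_of (pow_mem hα p) (by
    rw [smul_pow', hσα, mul_pow, hξ.pow_eq_one, one_mul])
  obtain ⟨b, hb, hb0, hbb⟩ := exists_near_one_of_deep hp1 hdeep hpH (pow_ne_zero _ hα0)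
    (T := ‖ξ - 1‖ ^ p) (pow_pos (norm_sub_one_pos hp.out.one_lt hξ) p)
    (by rw [← pow_mul, mul_comm, pow_mul, norm_sub_one_pow hξ]) hE
  have hb' : b ∈ FixedPoints.subfield H' N :=
    mem_fixed.2 fun h hh => mem_fixed.1 hb h (hS.le hh)
  refine ⟨ξ, α / b, hξ, hξf, div_mem hα hb', ?_, by rwa [div_pow]⟩
  rw [div_eq_mul_inv, smul_mul', hσα, smul_inv'', mem_fixed.1 hb σ hS.mem, mul_assoc]

theorem pow_smul_radical {ξ α : N} (hξf : ξ ∈ FixedPoints.subfield Γ N) (hσα : σ • α = ξ * α)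
    (i : ℕ) : σ ^ i • α = ξ ^ i * α := by
  induction i with
  | zero => rw [pow_zero, one_smul, pow_zero, one_mul]
  | succ i ih =>
    rw [pow_succ', mul_smul, ih, smul_mul', smul_pow', smul_zeta hξf, hσα, pow_succ]
    ring

theorem smul_coord {ξ : N} (hξf : ξ ∈ FixedPoints.subfield Γ N) (g : Γ) (α : N) :
    g • ((α - 1) / (ξ - 1)) = (g • α - 1) / (ξ - 1) := by
  rw [div_eq_mul_inv, smul_mul', smul_sub, smul_one, smul_inv'', smul_sub, smul_one,
    smul_zeta hξf, div_eq_mul_inv]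

/-- The trace of `(α - 1) ^ (p - 1)`. -/
theorem sum_conj_sub_pow {ξ α : N} (hξ : IsPrimitiveRoot ξ p) :
    ∑ i ∈ range p, (ξ ^ i * α - 1) ^ (p - 1) = (p : N) * (-1) ^ (p - 1) := by
  have hp2 := hp.out.two_le
  simp only [sub_eq_add_neg, add_pow]
  rw [sum_comm, sum_eq_single 0]
  · simp
  · intro j hj hj0
    rw [← sum_mul, ← sum_mul]
    have : ∑ i ∈ range p, (ξ ^ i * α) ^ j = 0 := by
      simp only [mul_pow, ← pow_mul]
      rw [← sum_mul]
      simp only [mul_comm _ j, pow_mul]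
      rw [(hξ.pow_of_coprime j (Nat.coprime_of_lt_prime hj0
        (by rw [mem_range] at hj; omega) hp.out).symm).geom_sum_eq_zero hp.out.one_lt, zero_mul]
    rw [this, zero_mul, zero_mul]
  · exact fun h => absurd (mem_range.2 (by omega)) h

/-- **A trace near one** in a cyclic extension of degree `p`. -/
theorem CyclicStep.exists_trace_one [Finite Γ] [FaithfulSMul Γ N] (hp1 : ‖(p : N)‖ < 1)
    (hS : CyclicStep p H' H σ) {ζ : N} (hζ : IsPrimitiveRoot ζ p)
    (hζf : ζ ∈ FixedPoints.subfield Γ N) (hdeep : Deep p (FixedPoints.subfield H N)) {E : ℝ}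
    (hE : 1 < E) :
    ∃ t ∈ FixedPoints.subfield H' N, ‖t‖ ≤ E ∧ ∑ i ∈ range p, σ ^ i • t = 1 := by
  have hπ := norm_sub_one_pos hp.out.one_lt hζ
  have hπp : ‖ζ - 1‖ ^ p < 1 := pow_lt_one₀ hπ.le
    (norm_sub_one_lt (n := 0) hp1 (by simpa using hζ)) hp.out.ne_zero
  obtain ⟨F, hF1, hFE, hFs⟩ : ∃ F : ℝ, 1 < F ∧ F ^ (p - 1) ≤ E ∧ ‖ζ - 1‖ ^ p * F < 1 := by
    have hc : ContinuousAt (fun F : ℝ => (F ^ (p - 1), ‖ζ - 1‖ ^ p * F)) 1 := by fun_prop
    obtain ⟨δ, hδ, h⟩ := Metric.eventually_nhds_iff.1 (hc.eventually (IsOpen.mem_nhds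
      ((isOpen_Iio (a := E)).prod (isOpen_Iio (a := (1 : ℝ))))
      (Set.mk_mem_prod (by simpa using hE) (by simpa using hπp))))
    have := @h (1 + δ / 2) (by rw [Real.dist_eq, abs_of_pos (by linarith)]; linarith)
    exact ⟨1 + δ / 2, by linarith, this.1.le, this.2⟩
  obtain ⟨ξ, α, hξ, hξf, hα, hσα, hnear⟩ := hS.exists_normalised hp1 hζ hζf hdeep hF1
  rw [norm_sub_one_eq_of_primitive hp.out.ne_zero hζ hξ] at hnear
  rw [← norm_sub_one_eq_of_primitive hp.out.ne_zero hζ hξ] at hFs hnear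
  obtain ⟨-, hz, -⟩ := norm_coord_le hξ hF1.le hFs hnear
  set z := (α - 1) / (ξ - 1) with hzd
  set c : N := (p : N) * (-1) ^ (p - 1) / (ξ - 1) ^ (p - 1) with hc
  have hπ0 : ξ - 1 ≠ 0 := sub_ne_zero.2 (hξ.ne_one hp.out.one_lt)
  have hcn : ‖c‖ = 1 := by
    rw [hc, norm_div, norm_mul, norm_pow, norm_neg, norm_one, one_pow, mul_one, norm_pow,
      norm_sub_one_pow hξ, div_self (norm_ne_zero_iff.2 (Nat.cast_ne_zero.2 hp.out.ne_zero))]
  have hξH : ξ ∈ FixedPoints.subfield H' N := mem_fixed.2 fun h _ => hξf h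
  have hcf : c⁻¹ ∈ FixedPoints.subfield Γ N :=
    inv_mem (div_mem (mul_mem (natCast_mem _ p) (pow_mem (neg_mem (one_mem _)) _))
      (pow_mem (sub_mem hξf (one_mem _)) _))
  refine ⟨c⁻¹ * z ^ (p - 1), mul_mem (mem_fixed.2 fun h _ => hcf h)
    (pow_mem (div_mem (sub_mem hα (one_mem _)) (sub_mem hξH (one_mem _))) _), ?_, ?_⟩
  · rw [norm_mul, norm_inv, hcn, inv_one, one_mul, norm_pow]
    exact (pow_le_pow_left₀ (norm_nonneg _) hz _).trans hFE
  · have : ∀ i ∈ range p, σ ^ i • (c⁻¹ * z ^ (p - 1)) =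
        c⁻¹ * ((ξ ^ i * α - 1) ^ (p - 1) / (ξ - 1) ^ (p - 1)) := fun i _ => by
      rw [smul_mul', smul_zeta hcf, smul_pow', hzd, smul_coord hξf,
        pow_smul_radical hξf hσα, div_pow]
    rw [sum_congr rfl this, ← mul_sum, ← sum_div, sum_conj_sub_pow hξ, ← hc, inv_mul_cancel₀]
    exact norm_ne_zero_iff.1 (hcn.trans_ne one_ne_zero)

end FA.TateSen
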