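import Fermat.Agent.TateSen.Roots

/-!
# Deep ramification goes up extensions of degree prime to `p`

A finite group acts on a nonarchimedean field by isometries. Every element lies in a stable subfield
with finitely many absolute values in every interval, the residue field is made of roots of unity.
-/

set_option autoImplicit false
set_option linter.unusedSectionVars false

noncomputable section

open Finset

namespace FA.TateSen

/-- A finite group of isometries of a nonarchimedean field of residue characteristic `p` in which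
every element lies in a stable subfield with discrete absolute values. -/
structure Tame (p : ℕ) (Γ N : Type*) [Group Γ] [NormedField N] [MulSemiringAction Γ N] : Prop where
  norm_lt : ‖(p : N)‖ < 1
  iso : ∀ (g : Γ) (x : N), ‖g • x‖ = ‖x‖
  residue : ∀ u : N, ‖u‖ = 1 → ∃ n : ℕ, 0 < n ∧ ‖u ^ n - 1‖ < 1
  discrete : ∀ x : N, ∃ K : Subfield N, x ∈ K ∧ (∀ (g : Γ), ∀ y ∈ K, g • y ∈ K) ∧
    ∀ a b : ℝ, 0 < a → Set.Finite (norm '' {y : N | y ∈ K ∧ a ≤ ‖y‖ ∧ ‖y‖ ≤ b})

variable {Γ N : Type*} [Group Γ] [NormedField N] [IsUltrametricDist N] [CharZero N]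
  [MulSemiringAction Γ N] {p : ℕ} [hp : Fact p.Prime]

theorem mem_fixed {H : Subgroup Γ} {x : N} :
    x ∈ FixedPoints.subfield H N ↔ ∀ h ∈ H, h • x = x :=
  ⟨fun hx h hh => hx ⟨h, hh⟩, fun hx h => hx _ h.2⟩

theorem norm_lt_one_of_pow {v : N} (hp1 : ‖(p : N)‖ < 1) (hv : ‖v‖ ≤ 1)
    (h : ‖v ^ p - 1‖ < 1) : ‖v - 1‖ < 1 := by
  set d := v - 1 with hd
  have hd1 : ‖d‖ ≤ 1 := norm_sub_le_of_le hv (by rw [norm_one])
  have hv' : v = 1 + d := by rw [hd]; ring
  have e : d ^ p = (v ^ p - 1) - ((1 + d) ^ p - 1 - d ^ p) := by rw [← hv']; ring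
  by_contra hlt
  have hpow : ‖d ^ p‖ < 1 := by
    rw [e, sub_eq_add_neg]
    refine (IsUltrametricDist.norm_add_le_max _ _).trans_lt (max_lt h ?_)
    rw [norm_neg]
    exact ((norm_one_add_pow_sub_le hd1).trans
      (mul_le_of_le_one_right (norm_nonneg _) hd1)).trans_lt hp1
  rw [norm_pow] at hpow
  exact absurd hpow (not_lt.2 (one_le_pow₀ (not_lt.1 hlt)))

/-- A unit is congruent to the `p`-th power of a power of itself. -/
theorem exists_pow_congr (hT : Tame p Γ N) {u : N} (hu : ‖u‖ = 1) :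
    ∃ b : ℕ, ‖u - (u ^ b) ^ p‖ < 1 := by
  classical
  have hex := hT.residue u hu
  obtain ⟨hn0, hn⟩ := Nat.find_spec hex
  set n := Nat.find hex with hnd
  have hcop : Nat.Coprime n p := by
    rw [Nat.coprime_comm, hp.out.coprime_iff_not_dvd]
    rintro ⟨m, hm⟩
    have hm0 : 0 < m := by
      rcases Nat.eq_zero_or_pos m with rfl | h
      · simp at hm; omega
      · exact h
    refine Nat.find_min hex (m := m) ?_ ⟨hm0, norm_lt_one_of_pow hT.norm_lt ?_ ?_⟩
    · rw [← hnd, hm]
      exact lt_mul_left hm0 hp.out.one_lt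
    · rw [norm_pow, hu, one_pow]
    · rwa [← pow_mul, mul_comm, ← hm]
  obtain ⟨b, a, hab⟩ : ∃ b a : ℕ, p * b = n * a + 1 := by
    rcases Nat.lt_or_ge 1 n with h1 | h1
    · obtain ⟨b, -, hb⟩ := Nat.exists_mul_mod_eq_one_of_coprime hcop.symm h1
      refine ⟨b, p * b / n, ?_⟩
      have := Nat.div_add_mod (p * b) n
      omega
    · exact ⟨1, p - 1, by have := hp.out.two_le; have : n = 1 := by omega
                          rw [this]; omega⟩
  refine ⟨b, ?_⟩
  rw [← pow_mul, mul_comm, hab, pow_succ', pow_mul]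
  calc ‖u - u * (u ^ n) ^ a‖ = ‖u‖ * ‖(u ^ n) ^ a - 1‖ := by
        rw [← norm_mul, ← norm_neg]; congr 1; ring
    _ ≤ ‖u ^ n - 1‖ := by
        rw [hu, one_mul]
        exact norm_pow_sub_one_le (by rw [norm_pow, hu, one_pow]) a
    _ < 1 := hn

/-- **Extensions of degree prime to `p` of a deep field are deep.** -/
theorem deep_of_not_dvd_index [Finite Γ] (hT : Tame p Γ N)
    (hbase : Deep p (FixedPoints.subfield Γ N)) (H : Subgroup Γ) (hH : ¬ p ∣ H.index) :
    Deep p (FixedPoints.subfield H N) := by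
  classical
  have : Fintype (Γ ⧸ H) := Fintype.ofFinite _
  intro x hx
  obtain ⟨K, hxK, hstab, hfin⟩ := hT.discrete x
  have hp0 : 0 < ‖(p : N)‖ := norm_pos_iff.2 (Nat.cast_ne_zero.2 hp.out.ne_zero)
  refine approx_of_leading (K := K ⊓ FixedPoints.subfield H N) le_rfl hp0 hT.norm_lt
    (fun a b ha => (hfin a b ha).subset (Set.image_mono fun y hy => ⟨hy.1.1, hy.2⟩)) ?_
    (Subfield.mem_inf.2 ⟨hxK, hx⟩)
  rintro r ⟨hrK, hrH⟩ hr0
  have hrH' := mem_fixed.1 hrH
  let f : Γ ⧸ H → N := fun q => Quotient.liftOn' q (fun g => g • r) fun a b hab => by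
    have h := hrH' _ (QuotientGroup.leftRel_apply.1 hab)
    rw [mul_smul, inv_smul_eq_iff] at h
    exact h.symm
  have hf : ∀ g : Γ, f (g : Γ ⧸ H) = g • r := fun g => rfl
  set P := ∏ q, f q with hP
  have hPfix : P ∈ FixedPoints.subfield Γ N := fun g => by
    rw [hP, Finset.smul_prod']
    refine Fintype.prod_equiv (MulAction.toPerm g) _ _ fun q => ?_
    induction q using QuotientGroup.induction_on with
    | H a => rw [MulAction.toPerm_apply, MulAction.Quotient.smul_coe, hf, hf, smul_eq_mul, mul_smul]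
  have hPK : P ∈ K := prod_mem fun q _ => by
    induction q using QuotientGroup.induction_on with
    | H a => exact hstab a r hrK
  have hPn : ‖P‖ = ‖r‖ ^ H.index := by
    rw [hP, norm_prod, prod_congr rfl (g := fun _ => ‖r‖) fun q _ => by
      induction q using QuotientGroup.induction_on with
      | H a => exact hT.iso a r,
      prod_const, card_univ, ← Nat.card_eq_fintype_card]
    rfl
  obtain ⟨s, t, hst⟩ : ∃ s t : ℕ, H.index * s = p * t + 1 := by
    obtain ⟨s, -, hs⟩ := Nat.exists_mul_mod_eq_one_of_coprime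
      ((hp.out.coprime_iff_not_dvd.2 hH).symm) hp.out.one_lt
    exact ⟨s, H.index * s / p, by have := Nat.div_add_mod (H.index * s) p; omega⟩
  set k := P ^ s
  have hkn : ‖k‖ = ‖r‖ * ‖r ^ t‖ ^ p := by
    rw [norm_pow, hPn, ← pow_mul, hst, pow_succ', norm_pow, ← pow_mul, mul_comm t p]
  have hrt : r ^ t ≠ 0 := pow_ne_zero _ hr0
  have hk0 : k ≠ 0 := norm_pos_iff.1 (by
    rw [hkn]; exact mul_pos (norm_pos_iff.2 hr0) (pow_pos (norm_pos_iff.2 hrt) _))
  set u := r * (r ^ t) ^ p / k with hu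
  have hun : ‖u‖ = 1 := by
    rw [hu, norm_div, norm_mul, norm_pow, ← hkn, div_self (norm_ne_zero_iff.2 hk0)]
  obtain ⟨b, hb⟩ := exists_pow_congr hT hun
  have hkH : k ∈ FixedPoints.subfield H N := pow_mem (mem_fixed.2 fun h _ => hPfix h) s
  have hrtH : r ^ t ∈ FixedPoints.subfield H N := pow_mem hrH t
  have huH : u ∈ FixedPoints.subfield H N := div_mem (mul_mem hrH (pow_mem hrtH p)) hkH
  have huK : u ∈ K := div_mem (mul_mem hrK (pow_mem (pow_mem hrK t) p)) (pow_mem hPK s)
  have hkfix : k ∈ FixedPoints.subfield Γ N := pow_mem hPfix s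
  obtain ⟨c, hc, hck⟩ := hbase k hkfix
  set w := u ^ b / r ^ t with hw
  refine ⟨k * w ^ p, Subfield.mem_inf.2 ⟨mul_mem (pow_mem hPK s)
      (pow_mem (div_mem (pow_mem huK b) (pow_mem hrK t)) p),
    mul_mem hkH (pow_mem (div_mem (pow_mem huH b) hrtH) p)⟩, ?_,
    c * w, mul_mem (mem_fixed.2 fun h _ => hc h) (div_mem (pow_mem huH b) hrtH), ?_⟩
  · have e : r - k * w ^ p = k / (r ^ t) ^ p * (u - (u ^ b) ^ p) := by
      rw [hw, hu, div_pow]
      field_simp
    rw [e, norm_mul, norm_div, hkn, ← norm_pow (r ^ t),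
      mul_div_assoc, div_self (norm_ne_zero_iff.2 (pow_ne_zero _ hrt)), mul_one]
    exact mul_lt_of_lt_one_right (norm_pos_iff.2 hr0) hb
  · rw [mul_pow, ← sub_mul, norm_mul, norm_mul, ← mul_assoc]
    exact mul_le_mul_of_nonneg_right hck (norm_nonneg _)

end FA.TateSen
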