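import Fermat.Agent.TateSen.Deep

/-!
# The absolute values of `ζ - 1` for roots of unity of `p`-power order
-/

set_option autoImplicit false
set_option linter.unusedSectionVars false

noncomputable section

open Finset Polynomial

namespace FA.TateSen

variable {Ω : Type*} [NormedField Ω] [IsUltrametricDist Ω] {p : ℕ} [hp : Fact p.Prime] {m : ℕ}

theorem norm_of_pow_eq_one {z : Ω} (hm : m ≠ 0) (h : z ^ m = 1) : ‖z‖ = 1 :=
  (pow_eq_one_iff_of_nonneg (norm_nonneg z) hm).1 (by rw [← norm_pow, h, norm_one])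

/-- Powers of a root of unity are no further from `1`. -/
theorem norm_pow_sub_one_le {z : Ω} (hz : ‖z‖ ≤ 1) (k : ℕ) : ‖z ^ k - 1‖ ≤ ‖z - 1‖ := by
  rw [← geom_sum_mul z k, norm_mul]
  refine mul_le_of_le_one_left (norm_nonneg _) (norm_sum_range_le zero_le_one fun i _ => ?_)
  rw [norm_pow]
  exact pow_le_one₀ (norm_nonneg _) hz

/-- All primitive roots of the same order are equally far from `1`. -/
theorem norm_sub_one_eq_of_primitive (hm : m ≠ 0) {z w : Ω} (hz : IsPrimitiveRoot z m)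
    (hw : IsPrimitiveRoot w m) : ‖w - 1‖ = ‖z - 1‖ := by
  have : NeZero m := ⟨hm⟩
  obtain ⟨i, -, hi⟩ := hz.eq_pow_of_pow_eq_one hw.pow_eq_one
  obtain ⟨j, -, hj⟩ := hw.eq_pow_of_pow_eq_one hz.pow_eq_one
  apply le_antisymm
  · rw [← hi]
    exact norm_pow_sub_one_le (norm_of_pow_eq_one hm hz.pow_eq_one).le i
  · rw [← hj]
    exact norm_pow_sub_one_le (norm_of_pow_eq_one hm hw.pow_eq_one).le j

/-- `|ζ - 1| ^ φ(p ^ n) = |p|`. -/
theorem norm_sub_one_pow_totient {n : ℕ} {z : Ω} (hz : IsPrimitiveRoot z (p ^ (n + 1))) :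
    ‖z - 1‖ ^ (p ^ n * (p - 1)) = ‖(p : Ω)‖ := by
  have hm : p ^ (n + 1) ≠ 0 := pow_ne_zero _ hp.out.ne_zero
  have h := congrArg (Polynomial.eval (1 : Ω)) (cyclotomic_eq_prod_X_sub_primitiveRoots hz)
  rw [eval_one_cyclotomic_prime_pow n, eval_prod] at h
  simp only [eval_sub, eval_X, eval_C] at h
  rw [h, norm_prod, prod_congr rfl (g := fun _ => ‖z - 1‖) fun w hw => by
    rw [norm_sub_rev, norm_sub_one_eq_of_primitive hm hz
      ((mem_primitiveRoots (Nat.pos_of_ne_zero hm)).1 hw)], prod_const, hz.card_primitiveRoots,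
    Nat.totient_prime_pow_succ hp.out]

theorem norm_sub_one_pow {z : Ω} (hz : IsPrimitiveRoot z p) : ‖z - 1‖ ^ (p - 1) = ‖(p : Ω)‖ := by
  simpa using norm_sub_one_pow_totient (n := 0) (p := p) (z := z) (by simpa using hz)

theorem norm_sub_one_lt (hp1 : ‖(p : Ω)‖ < 1) {n : ℕ} {z : Ω}
    (hz : IsPrimitiveRoot z (p ^ (n + 1))) : ‖z - 1‖ < 1 := by
  by_contra h
  exact absurd (norm_sub_one_pow_totient hz) (fun e =>
    absurd (e ▸ one_le_pow₀ (not_lt.1 h) : (1 : ℝ) ≤ ‖(p : Ω)‖) (not_le.2 hp1))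

theorem norm_sub_one_pos (hz1 : 1 < m) {z : Ω} (hz : IsPrimitiveRoot z m) : 0 < ‖z - 1‖ :=
  norm_pos_iff.2 (sub_ne_zero.2 (hz.ne_one hz1))

/-- Distinct roots of unity of order `p` have the distance of `ζ` and `1`. -/
theorem norm_pow_sub_pow {z : Ω} (hz : IsPrimitiveRoot z p) {i j : ℕ} (hi : i < p) (hj : j < p)
    (hij : i ≠ j) : ‖z ^ i - z ^ j‖ = ‖z - 1‖ := by
  wlog h : j < i generalizing i j
  · rw [norm_sub_rev]
    exact this hj hi (Ne.symm hij) (by omega)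
  have e : z ^ i - z ^ j = z ^ j * (z ^ (i - j) - 1) := by
    rw [mul_sub, mul_one, ← pow_add, Nat.add_sub_cancel' h.le]
  rw [e, norm_mul, norm_pow, norm_of_pow_eq_one hp.out.ne_zero hz.pow_eq_one, one_pow, one_mul]
  exact norm_sub_one_eq_of_primitive hp.out.ne_zero hz
    (hz.pow_of_coprime _ ((Nat.coprime_of_lt_prime (by omega) (by omega) hp.out).symm))

end FA.TateSen
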