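import Fermat.Agent.TateSen.Traces

/-!
# The completion of the cyclotomic tower

Off the bottom level `c γ - 1` is invertible for `c` near one.
-/

set_option autoImplicit false
set_option linter.unusedSectionVars false

noncomputable section

open Finset UniformSpace Filter
open scoped Topology

namespace FA.TateSen

variable {p : ℕ} [hp : Fact p.Prime]

local notation "Ω" => PadicAlgCl p
local notation "G" => PadicAlgCl p ≃ₐ[ℚ_[p]] PadicAlgCl p

variable (p) in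
/-- The closure of the tower in `ℂ_p`. -/
def cycHat : Set ℂ_[p] := closure ((↑) '' (cycInf p : Set Ω))

open scoped Classical in
/-- **The normalised trace** to the level `m`. -/
def ntr (m : ℕ) (γ : G) (x : Ω) : Ω :=
  if h : ∃ k, x ∈ cycLevel p (m + k) then descend (Nat.find h) γ x else 0

theorem mem_level_add {m : ℕ} {x : Ω} (hx : x ∈ cycInf p) : ∃ k, x ∈ cycLevel p (m + k) := by
  obtain ⟨n, hn⟩ := mem_cycInf.1 hx
  exact ⟨n, cycLevel_mono (Nat.le_add_left n m) hn⟩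

theorem descend_le {m : ℕ} {γ : G} (h : IsGen p m γ) {k l : ℕ} (hkl : k ≤ l) {x : Ω}
    (hx : x ∈ cycLevel p (m + k)) : descend l γ x = descend k γ x := by
  induction l, hkl using Nat.le_induction with
  | base => rfl
  | succ l hl ih => rw [descend_succ l h (cycLevel_mono (by omega) hx), ih]

theorem ntr_eq {m : ℕ} {γ : G} (h : IsGen p m γ) {k : ℕ} {x : Ω}
    (hx : x ∈ cycLevel p (m + k)) : ntr m γ x = descend k γ x := by
  classical
  have hex : ∃ k, x ∈ cycLevel p (m + k) := ⟨k, hx⟩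
  rw [ntr, dif_pos hex]
  exact (descend_le h (Nat.find_min' hex hx) (Nat.find_spec hex)).symm

theorem ntr_mem {m : ℕ} {γ : G} (h : IsGen p m γ) {x : Ω} (hx : x ∈ cycInf p) :
    ntr m γ x ∈ cycLevel p m := by
  obtain ⟨k, hk⟩ := mem_level_add (m := m) hx
  rw [ntr_eq h hk]
  exact (descend_mem k h hk).1

theorem ntr_fixed {m : ℕ} {γ : G} (h : IsGen p m γ) {x : Ω} (hx : x ∈ cycLevel p m) :
    ntr m γ x = x := ntr_eq h (k := 0) hx

theorem norm_ntr_le {m : ℕ} {γ : G} (h : IsGen p m γ) {x : Ω} (hx : x ∈ cycInf p) :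
    ‖ntr m γ x‖ ≤ p * ‖x‖ := by
  obtain ⟨k, hk⟩ := mem_level_add (m := m) hx
  rw [ntr_eq h hk]
  exact norm_descend_le h hk

theorem ntr_add {m : ℕ} {γ : G} (h : IsGen p m γ) {x y : Ω} (hx : x ∈ cycInf p)
    (hy : y ∈ cycInf p) : ntr m γ (x + y) = ntr m γ x + ntr m γ y := by
  obtain ⟨k, hk⟩ := mem_level_add (m := m) hx
  obtain ⟨l, hl⟩ := mem_level_add (m := m) hy
  have hk' := cycLevel_mono (show m + k ≤ m + max k l by omega) hk
  have hl' := cycLevel_mono (show m + l ≤ m + max k l by omega) hl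
  rw [ntr_eq h (add_mem hk' hl'), ntr_eq h hk', ntr_eq h hl', descend_add]

theorem ntr_scalar {m : ℕ} {γ : G} (h : IsGen p m γ) (c : ℚ_[p]) {x : Ω} (hx : x ∈ cycInf p) :
    ntr m γ ((c : Ω) * x) = (c : Ω) * ntr m γ x := by
  obtain ⟨k, hk⟩ := mem_level_add (m := m) hx
  rw [ntr_eq h hk, ntr_eq h (mul_mem ((cycLevel p (m + k)).algebraMap_mem c) hk), descend_scalar]

theorem ntr_sub {m : ℕ} {γ : G} (h : IsGen p m γ) {x y : Ω} (hx : x ∈ cycInf p)
    (hy : y ∈ cycInf p) : ntr m γ (x - y) = ntr m γ x - ntr m γ y := by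
  refine eq_sub_of_add_eq ?_
  rw [← ntr_add h (sub_mem hx hy) hy, sub_add_cancel]

theorem gal_mem_cycLevel (σ : G) {n : ℕ} {x : Ω} (hx : x ∈ cycLevel p n) :
    σ x ∈ cycLevel p n := by
  have h1 : σ x ∈ (cycLevel p n).map σ.toAlgHom := ⟨x, hx, rfl⟩
  rw [cycLevel, IntermediateField.adjoin_map] at h1
  refine IntermediateField.adjoin.mono _ _ _ ?_ h1
  rintro _ ⟨z, hz, rfl⟩
  change (σ z) ^ p ^ n = 1
  rw [← map_pow, hz, map_one]

theorem gal_mem_cycInf (σ : G) {x : Ω} (hx : x ∈ cycInf p) : σ x ∈ cycInf p := by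
  obtain ⟨n, hn⟩ := mem_cycInf.1 hx
  exact mem_cycInf.2 ⟨n, gal_mem_cycLevel σ hn⟩

theorem ntr_gen {m : ℕ} {γ : G} (h : IsGen p m γ) {x : Ω} (hx : x ∈ cycInf p) :
    ntr m γ (γ x) = γ (ntr m γ x) ∧ γ (ntr m γ x) = ntr m γ x := by
  obtain ⟨k, hk⟩ := mem_level_add (m := m) hx
  refine ⟨?_, h.fix (ntr_mem h hx)⟩
  rw [ntr_eq h hk, ntr_eq h (gal_mem_cycLevel γ hk), descend_comm k (Commute.refl γ)]

theorem norm_sub_ntr_le {m : ℕ} {γ : G} (h : IsGen p m γ) {x : Ω} (hx : x ∈ cycInf p) :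
    ‖x - ntr m γ x‖ ≤ (p : ℝ) ^ 2 * ‖γ x - x‖ := by
  obtain ⟨k, hk⟩ := mem_level_add (m := m) hx
  rw [ntr_eq h hk]
  exact norm_sub_descend_le k h hk

/-- The operator `c γ - 1`. -/
def gop (γ : G) (c : ℚ_[p]) : Ω →ₗ[ℚ_[p]] Ω :=
  c • γ.toLinearMap - LinearMap.id

theorem gop_apply (γ : G) (c : ℚ_[p]) (x : Ω) : gop γ c x = (c : Ω) * γ x - x := by
  rw [gop, LinearMap.sub_apply, LinearMap.smul_apply, LinearMap.id_apply, Algebra.smul_def]
  rfl

theorem gop_mem {γ : G} {c : ℚ_[p]} {n : ℕ} {x : Ω} (hx : x ∈ cycLevel p n) :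
    gop γ c x ∈ cycLevel p n := by
  rw [gop_apply]
  exact sub_mem (mul_mem ((cycLevel p n).algebraMap_mem c) (gal_mem_cycLevel γ hx)) hx

theorem gop_mem_inf {γ : G} {c : ℚ_[p]} {x : Ω} (hx : x ∈ cycInf p) : gop γ c x ∈ cycInf p := by
  obtain ⟨n, hn⟩ := mem_cycInf.1 hx
  exact mem_cycInf.2 ⟨n, gop_mem hn⟩

theorem ntr_gop {m : ℕ} {γ : G} (h : IsGen p m γ) (c : ℚ_[p]) {x : Ω} (hx : x ∈ cycInf p) :
    ntr m γ (gop γ c x) = ((c - 1 : ℚ_[p]) : Ω) * ntr m γ x := by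
  have h1 : (c : Ω) * γ x ∈ cycInf p :=
    mul_mem ((cycInf p).algebraMap_mem c) (gal_mem_cycInf γ hx)
  rw [gop_apply, ntr_sub h h1 hx, ntr_scalar h c (gal_mem_cycInf γ hx), (ntr_gen h hx).1,
    (ntr_gen h hx).2, map_sub, map_one, sub_one_mul]

/-- The smallness of `c - 1` needed for the inversion. -/
def NearOne (p : ℕ) [Fact p.Prime] (c : ℚ_[p]) : Prop :=
  ‖c‖ = 1 ∧ (p : ℝ) ^ 2 * ‖c - 1‖ < 1

theorem nearOne_one : NearOne p (1 : ℚ_[p]) := ⟨norm_one, by simp⟩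

theorem norm_gop_le {γ : G} {c : ℚ_[p]} (hc : NearOne p c) (x : Ω) : ‖gop γ c x‖ ≤ ‖x‖ := by
  rw [gop_apply]
  refine norm_sub_le_of_le ?_ le_rfl
  rw [norm_mul, PadicAlgCl.norm_extends, hc.1, one_mul, norm_gal]

/-- **The inverse of `c γ - 1` is bounded by `p ^ 2`** on the kernel of the trace. -/
theorem norm_le_gop {m : ℕ} {γ : G} (h : IsGen p m γ) {c : ℚ_[p]} (hc : NearOne p c) {y : Ω}
    (hy : y ∈ cycInf p) (h0 : ntr m γ y = 0) : ‖y‖ ≤ (p : ℝ) ^ 2 * ‖gop γ c y‖ := by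
  have h1 := norm_sub_ntr_le h hy
  rw [h0, sub_zero] at h1
  have e : γ y - y = gop γ c y - ((c - 1 : ℚ_[p]) : Ω) * γ y := by
    rw [gop_apply, map_sub, map_one]; ring
  have h2 : ‖γ y - y‖ ≤ max ‖gop γ c y‖ (‖c - 1‖ * ‖y‖) := by
    rw [e, sub_eq_add_neg]
    refine (IsUltrametricDist.norm_add_le_max _ _).trans_eq ?_
    rw [norm_neg, norm_mul, PadicAlgCl.norm_extends, norm_gal]
  rcases le_or_gt (‖c - 1‖ * ‖y‖) ‖gop γ c y‖ with h3 | h3
  · exact h1.trans (mul_le_mul_of_nonneg_left (h2.trans (max_le le_rfl h3)) (by positivity))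
  · have h4 : ‖y‖ ≤ (p : ℝ) ^ 2 * ‖c - 1‖ * ‖y‖ := by
      rw [mul_assoc]
      exact h1.trans (mul_le_mul_of_nonneg_left (h2.trans (max_le h3.le le_rfl)) (by positivity))
    have h5 : ‖y‖ = 0 := by nlinarith [norm_nonneg y, hc.2]
    rw [h5]; positivity

/-- `c γ - 1` is onto on the kernel of the trace. -/
theorem exists_gop_eq {m : ℕ} {γ : G} (h : IsGen p m γ) {c : ℚ_[p]} (hc : NearOne p c) {a : Ω}
    (ha : a ∈ cycInf p) (h0 : ntr m γ a = 0) :
    ∃ y ∈ cycInf p, ntr m γ y = 0 ∧ gop γ c y = a := by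
  obtain ⟨k, hk⟩ := mem_level_add (m := m) ha
  let W : Submodule ℚ_[p] (cycLevel p (m + k)) :=
    { carrier := {x | ntr m γ (x : Ω) = 0}
      add_mem' := fun {x y} hx hy => by
        simp only [Set.mem_ofPred_eq] at hx hy ⊢
        rw [IntermediateField.coe_add, ntr_add h (cycLevel_le_cycInf _ x.2)
          (cycLevel_le_cycInf _ y.2), hx, hy, add_zero]
      zero_mem' := ntr_fixed h (zero_mem (cycLevel p m))
      smul_mem' := fun r {x} hx => by
        simp only [Set.mem_ofPred_eq] at hx ⊢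
        rw [IntermediateField.coe_smul, Algebra.smul_def,
          ntr_scalar h r (cycLevel_le_cycInf _ x.2), hx, mul_zero] }
  let T : W →ₗ[ℚ_[p]] W :=
    { toFun := fun x => ⟨⟨gop γ c ((x : cycLevel p (m + k)) : Ω), gop_mem x.1.2⟩,
        show ntr m γ (gop γ c _) = 0 by
          rw [ntr_gop h c (cycLevel_le_cycInf _ x.1.2), x.2, mul_zero]⟩
      map_add' := fun x y => Subtype.ext (Subtype.ext (map_add (gop γ c) _ _))
      map_smul' := fun r x => Subtype.ext (Subtype.ext (map_smul (gop γ c) r _)) }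
  have hinj : Function.Injective T := (injective_iff_map_eq_zero T).2 fun x hx => by
    have h1 := norm_le_gop h hc (cycLevel_le_cycInf _ x.1.2) x.2
    have h2 : gop γ c ((x : cycLevel p (m + k)) : Ω) = 0 :=
      congrArg (fun w : W => ((w : cycLevel p (m + k)) : Ω)) hx
    rw [h2, norm_zero, mul_zero] at h1
    exact Subtype.ext (Subtype.ext (norm_le_zero_iff.1 h1))
  obtain ⟨y, hy⟩ := LinearMap.injective_iff_surjective.1 hinj ⟨⟨a, hk⟩, h0⟩
  exact ⟨((y : cycLevel p (m + k)) : Ω), cycLevel_le_cycInf _ y.1.2, y.2,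
    congrArg (fun w : W => ((w : cycLevel p (m + k)) : Ω)) hy⟩

theorem coe_gop (γ : G) (c : ℚ_[p]) (x : Ω) :
    ((gop γ c x : Ω) : ℂ_[p]) = algebraMap ℚ_[p] ℂ_[p] c * gal γ (x : ℂ_[p]) - (x : ℂ_[p]) := by
  rw [gop_apply, gal_coe, IsScalarTower.algebraMap_apply ℚ_[p] Ω ℂ_[p], ← PadicComplex.coe_eq]
  push_cast
  rfl

theorem exists_near {x : ℂ_[p]} (hx : x ∈ cycHat p) {ε : ℝ} (hε : 0 < ε) :
    ∃ a ∈ cycInf p, ‖x - (a : ℂ_[p])‖ < ε := by
  obtain ⟨_, ⟨a, ha, rfl⟩, h⟩ := Metric.mem_closure_iff.1 hx ε hε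
  exact ⟨a, ha, by rwa [← dist_eq_norm]⟩

theorem norm_err_le (γ : G) {c : ℚ_[p]} (hc : NearOne p c) (u : ℂ_[p]) :
    ‖algebraMap ℚ_[p] ℂ_[p] c * gal γ u - u‖ ≤ ‖u‖ := by
  refine norm_sub_le_of_le ?_ le_rfl
  rw [norm_mul, norm_algebraMap', hc.1, one_mul, norm_galC]

/-- **No invariants**: for `c ≠ 1` nothing in the completed tower is fixed by `c γ`. -/
theorem eq_zero_of_fixed {m : ℕ} {γ : G} (h : IsGen p m γ) {c : ℚ_[p]} (hc : NearOne p c)
    (hc1 : c ≠ 1) {x : ℂ_[p]} (hx : x ∈ cycHat p)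
    (hfix : algebraMap ℚ_[p] ℂ_[p] c * gal γ x = x) : x = 0 := by
  set C : ℝ := 1 + (p : ℝ) ^ 3 + p / ‖c - 1‖
  have hC : 0 < C := by positivity
  refine norm_le_zero_iff.1 (le_of_forall_pos_le_add fun ε hε => ?_)
  rw [zero_add]
  obtain ⟨a, ha, hxa⟩ := exists_near hx (ε := ε / C) (by positivity)
  have hDa : ‖gop γ c a‖ ≤ ε / C := by
    rw [← Completion.norm_coe, coe_gop]
    have e : algebraMap ℚ_[p] ℂ_[p] c * gal γ (a : ℂ_[p]) - a =
        -(algebraMap ℚ_[p] ℂ_[p] c * gal γ (x - a) - (x - a)) := by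
      rw [map_sub, mul_sub, hfix]; ring
    rw [e, norm_neg]
    exact (norm_err_le γ hc _).trans hxa.le
  set t := ntr m γ a
  have ht := cycLevel_le_cycInf _ (ntr_mem h ha)
  have h1 : ‖((c - 1 : ℚ_[p]) : Ω) * t‖ ≤ p * (ε / C) := by
    rw [← ntr_gop h c ha]
    exact (norm_ntr_le h (gop_mem_inf ha)).trans (mul_le_mul_of_nonneg_left hDa (by positivity))
  have htn : ‖t‖ ≤ p / ‖c - 1‖ * (ε / C) := by
    rw [norm_mul, PadicAlgCl.norm_extends] at h1
    rw [div_mul_eq_mul_div, le_div_iff₀ (norm_pos_iff.2 (sub_ne_zero.2 hc1)), mul_comm]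
    exact h1
  have hy0 : ntr m γ (a - t) = 0 := by
    rw [ntr_sub h ha ht, ntr_fixed h (ntr_mem h ha), sub_self]
  have hyn : ‖a - t‖ ≤ (p : ℝ) ^ 3 * (ε / C) := by
    refine (norm_le_gop h hc (sub_mem ha ht) hy0).trans ?_
    rw [show (p : ℝ) ^ 3 * (ε / C) = (p : ℝ) ^ 2 * (p * (ε / C)) by ring]
    refine mul_le_mul_of_nonneg_left ?_ (by positivity)
    rw [map_sub]
    refine norm_sub_le_of_le (hDa.trans (le_mul_of_one_le_left (by positivity)
      (by exact_mod_cast hp.out.one_le))) ?_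
    rw [gop_apply, h.fix (ntr_mem h ha), ← sub_one_mul, ← map_one (algebraMap ℚ_[p] Ω), ← map_sub]
    exact h1
  have e : x = (x - (a : ℂ_[p])) + (((a - t : Ω) : ℂ_[p]) + (t : ℂ_[p])) := by
    rw [Completion.coe_sub]; ring
  have hbig : ∀ r : ℝ, r ≤ C → r * (ε / C) ≤ ε := fun r hr =>
    (mul_le_mul_of_nonneg_right hr (by positivity)).trans_eq (mul_div_cancel₀ _ hC.ne')
  have hq : (0 : ℝ) ≤ p / ‖c - 1‖ := by positivity
  have hp3 : (0 : ℝ) ≤ (p : ℝ) ^ 3 := by positivity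
  rw [e]
  refine norm_add_le_of_le (hxa.le.trans ?_) (norm_add_le_of_le ?_ ?_)
  · have := hbig 1 (by simp only [C]; linarith)
    linarith
  · rw [Completion.norm_coe]
    exact hyn.trans (hbig _ (by simp only [C]; linarith))
  · rw [Completion.norm_coe]
    exact htn.trans (hbig _ (by simp only [C]; linarith))

theorem isClosed_level (m : ℕ) : IsClosed ((↑) '' (cycLevel p m : Set Ω) : Set ℂ_[p]) := by
  set S := (cycLevel p m).toSubalgebra.toSubmodule
  have : FiniteDimensional ℚ_[p] S := cycLevel_finite m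
  have : CompleteSpace S := FiniteDimensional.complete ℚ_[p] S
  have hi : Isometry (fun x : S => ((x : Ω) : ℂ_[p])) :=
    Completion.coe_isometry.comp isometry_subtype_coe
  have h := hi.isUniformInducing.isComplete_range.isClosed
  convert h using 1
  ext y
  constructor
  · rintro ⟨x, hx, rfl⟩; exact ⟨⟨x, hx⟩, rfl⟩
  · rintro ⟨x, rfl⟩; exact ⟨x, x.2, rfl⟩

/-- **A constant that is `γ x - x` vanishes, and `x` is in the bottom level.** -/
theorem mem_level_of_gop {m : ℕ} {γ : G} (h : IsGen p m γ) {x : ℂ_[p]} (hx : x ∈ cycHat p)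
    {b : Ω} (hb : b ∈ cycLevel p m) (hfix : gal γ x - x = (b : ℂ_[p])) :
    b = 0 ∧ x ∈ (↑) '' (cycLevel p m : Set Ω) := by
  have hp0 : (0 : ℝ) < p := by exact_mod_cast hp.out.pos
  have hd : ∀ a ∈ cycInf p, ‖b - (γ a - a)‖ ≤ ‖x - (a : ℂ_[p])‖ := by
    intro a _
    rw [← Completion.norm_coe, Completion.coe_sub, Completion.coe_sub, ← hfix, ← gal_coe]
    rw [show gal γ x - x - (gal γ (a : ℂ_[p]) - a) =
      gal γ x - gal γ (a : ℂ_[p]) - (x - a) by ring, ← map_sub]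
    exact norm_sub_le_of_le (norm_galC _ _).le le_rfl
  have hb0 : b = 0 := by
    refine norm_le_zero_iff.1 (le_of_forall_pos_le_add fun ε hε => ?_)
    rw [zero_add]
    obtain ⟨a, ha, hxa⟩ := exists_near hx (ε := ε / p) (by positivity)
    have h1 := norm_ntr_le h (sub_mem (cycLevel_le_cycInf m hb)
      (sub_mem (gal_mem_cycInf γ ha) ha))
    rw [ntr_sub h (cycLevel_le_cycInf m hb) (sub_mem (gal_mem_cycInf γ ha) ha), ntr_fixed h hb,
      ntr_sub h (gal_mem_cycInf γ ha) ha, (ntr_gen h ha).1, (ntr_gen h ha).2, sub_self,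
      sub_zero] at h1
    refine h1.trans ((mul_le_mul_of_nonneg_left ((hd a ha).trans hxa.le) hp0.le).trans_eq ?_)
    field_simp
  refine ⟨hb0, (isClosed_level m).closure_subset (Metric.mem_closure_iff.2 fun ε hε => ?_)⟩
  obtain ⟨a, ha, hxa⟩ := exists_near hx (ε := ε / (1 + (p : ℝ) ^ 2)) (by positivity)
  refine ⟨((ntr m γ a : Ω) : ℂ_[p]), ⟨_, ntr_mem h ha, rfl⟩, ?_⟩
  have h1 : ‖a - ntr m γ a‖ ≤ (p : ℝ) ^ 2 * (ε / (1 + (p : ℝ) ^ 2)) := by
    refine (norm_sub_ntr_le h ha).trans (mul_le_mul_of_nonneg_left ?_ (by positivity))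
    have := hd a ha
    rw [hb0, zero_sub, norm_neg] at this
    exact this.trans hxa.le
  rw [dist_eq_norm, show x - ((ntr m γ a : Ω) : ℂ_[p]) =
    (x - a) + (((a - ntr m γ a : Ω)) : ℂ_[p]) by rw [Completion.coe_sub]; ring]
  refine (norm_add_le _ _).trans_lt ?_
  rw [Completion.norm_coe]
  calc _ < ε / (1 + (p : ℝ) ^ 2) + (p : ℝ) ^ 2 * (ε / (1 + (p : ℝ) ^ 2)) :=
        add_lt_add_of_lt_of_le hxa h1
    _ = ε := by field_simp

/-- **The decomposition of the completed tower.** -/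
theorem exists_decomp {m : ℕ} {γ : G} (h : IsGen p m γ) {c : ℚ_[p]} (hc : NearOne p c)
    {x : ℂ_[p]} (hx : x ∈ cycHat p) :
    ∃ y ∈ cycHat p, ∃ b ∈ cycLevel p m,
      x = (algebraMap ℚ_[p] ℂ_[p] c * gal γ y - y) + (b : ℂ_[p]) := by
  have hseq : ∀ i : ℕ, ∃ a ∈ cycInf p, ‖x - (a : ℂ_[p])‖ < (1 / 2 : ℝ) ^ i := fun i =>
    exists_near hx (by positivity)
  choose a ha hxa using hseq
  have hsol : ∀ i, ∃ y ∈ cycInf p, ntr m γ y = 0 ∧ gop γ c y = a i - ntr m γ (a i) := fun i =>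
    exists_gop_eq h hc (sub_mem (ha i) (cycLevel_le_cycInf m (ntr_mem h (ha i))))
      (by rw [ntr_sub h (ha i) (cycLevel_le_cycInf m (ntr_mem h (ha i))),
        ntr_fixed h (ntr_mem h (ha i)), sub_self])
  choose y hy hy0 hyD using hsol
  have hclose : ∀ i, ‖a i - a (i + 1)‖ ≤ (1 / 2 : ℝ) ^ i := fun i => by
    rw [← Completion.norm_coe, Completion.coe_sub,
      show (a i : ℂ_[p]) - (a (i + 1) : ℂ_[p]) = (x - a (i + 1)) - (x - a i) by ring]
    exact norm_sub_le_of_le ((hxa (i + 1)).le.trans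
      (pow_le_pow_of_le_one (by norm_num) (by norm_num) i.le_succ)) (hxa i).le
  have hb : ∀ i, dist ((ntr m γ (a i) : Ω) : ℂ_[p]) ((ntr m γ (a (i + 1)) : Ω) : ℂ_[p]) ≤
      (p : ℝ) * (1 / 2) ^ i := fun i => by
    rw [dist_eq_norm, ← Completion.coe_sub, Completion.norm_coe, ← ntr_sub h (ha _) (ha _)]
    exact (norm_ntr_le h (sub_mem (ha _) (ha _))).trans
      (mul_le_mul_of_nonneg_left (hclose i) (Nat.cast_nonneg _))
  have hyy : ∀ i, dist (y i : ℂ_[p]) (y (i + 1) : ℂ_[p]) ≤ (p : ℝ) ^ 3 * (1 / 2) ^ i := fun i => by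
    rw [dist_eq_norm, ← Completion.coe_sub, Completion.norm_coe]
    refine (norm_le_gop h hc (sub_mem (hy _) (hy _))
      (by rw [ntr_sub h (hy _) (hy _), hy0, hy0, sub_self])).trans ?_
    rw [map_sub, hyD, hyD, show (p : ℝ) ^ 3 * (1 / 2) ^ i = (p : ℝ) ^ 2 * (p * (1 / 2) ^ i) by ring]
    refine mul_le_mul_of_nonneg_left ?_ (by positivity)
    rw [show a i - ntr m γ (a i) - (a (i + 1) - ntr m γ (a (i + 1))) =
      (a i - a (i + 1)) - (ntr m γ (a i) - ntr m γ (a (i + 1))) by ring,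
      ← ntr_sub h (ha _) (ha _)]
    refine norm_sub_le_of_le ((hclose i).trans (le_mul_of_one_le_left (by positivity)
      (by exact_mod_cast hp.out.one_le))) ?_
    exact (norm_ntr_le h (sub_mem (ha _) (ha _))).trans
      (mul_le_mul_of_nonneg_left (hclose i) (Nat.cast_nonneg _))
  obtain ⟨Y, hY⟩ := cauchySeq_tendsto_of_complete
    (cauchySeq_of_le_geometric (1 / 2) _ (by norm_num) hyy)
  obtain ⟨B, hB⟩ := cauchySeq_tendsto_of_complete
    (cauchySeq_of_le_geometric (1 / 2) _ (by norm_num) hb)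
  obtain ⟨b, hbm, rfl⟩ := (isClosed_level m).mem_of_tendsto hB
    (Eventually.of_forall fun i => ⟨_, ntr_mem h (ha i), rfl⟩)
  refine ⟨Y, isClosed_closure.mem_of_tendsto hY
    (Eventually.of_forall fun i => subset_closure ⟨_, hy i, rfl⟩), b, hbm, ?_⟩
  have hax : Tendsto (fun i => (a i : ℂ_[p])) atTop (𝓝 x) := by
    rw [tendsto_iff_norm_sub_tendsto_zero]
    refine squeeze_zero (fun i => norm_nonneg _) (fun i => ?_)
      (tendsto_pow_atTop_nhds_zero_of_lt_one (by norm_num : (0 : ℝ) ≤ 1 / 2) (by norm_num))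
    rw [norm_sub_rev]; exact (hxa i).le
  refine tendsto_nhds_unique hax ?_
  have hcont : Continuous fun u : ℂ_[p] => algebraMap ℚ_[p] ℂ_[p] c * gal γ u - u :=
    (continuous_const.mul (isometry_gal γ).continuous).sub continuous_id
  refine (((hcont.tendsto Y).comp hY).add hB).congr fun i => ?_
  simp only [Function.comp_apply]
  rw [← coe_gop, hyD, Completion.coe_sub, sub_add_cancel]

end FA.TateSen
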