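import Fermat.Agent.TateSen.Action

/-!
# A continuous cocycle is trivial on the kernel of the cyclotomic character
-/

set_option autoImplicit false
set_option linter.unusedSectionVars false

noncomputable section

open Finset UniformSpace Filter
open scoped Topology

namespace FA.TateSen

variable {p : ℕ} [hp : Fact p.Prime]

local notation "Ω" => PadicAlgCl p
local notation "G" => PadicAlgCl p ≃ₐ[ℚ_[p]] PadicAlgCl p

/-- On the kernel a cocycle is a crossed homomorphism for the untwisted action. -/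
theorem IsCocycle.on_ker {j : ℤ} {f : G → ℂ_[p]} (hf : IsCocycle p j f) {h : G}
    (hh : h ∈ (cycInf p).fixingSubgroup) (τ : G) : f (h * τ) = f h + gal h (f τ) := by
  rw [hf.cocycle, twist_eq_one hh, one_mul]

/-- An element near the identity where a cocycle is small. -/
theorem exists_normal_small {j : ℤ} {f : G → ℂ_[p]} (hf : IsCocycle p j f) {ε : ℝ} (hε : 0 < ε) :
    ∃ U : Subgroup G, U.Normal ∧ IsOpen (U : Set G) ∧ ∀ u ∈ U, ‖f u‖ < ε := by
  have hnhds : {u : G | ‖f u‖ < ε} ∈ 𝓝 (1 : G) :=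
    (isOpen_lt hf.cont.norm continuous_const).mem_nhds (by simp [hf.map_one, hε])
  obtain ⟨_, ⟨_, ⟨E, hE, rfl⟩, rfl⟩, hsub⟩ :=
    ((galGroupBasis ℚ_[p] Ω).nhds_one_hasBasis.mem_iff).1 hnhds
  have : FiniteDimensional ℚ_[p] E := hE
  obtain ⟨x, hx⟩ := Field.exists_primitive_element ℚ_[p] E
  obtain ⟨N, hxN, -, -, hNn, hNo⟩ := exists_normal_field (x : Ω)
  refine ⟨N.fixingSubgroup, hNn, hNo, fun u hu => hsub ?_⟩
  have hle : E ≤ N := by
    have h := congrArg (IntermediateField.map E.val) hx
    rw [IntermediateField.adjoin_map, Set.image_singleton, ← AlgHom.fieldRange_eq_map,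
      IntermediateField.fieldRange_val] at h
    rw [← h]
    exact IntermediateField.adjoin_simple_le_iff.2 hxN
  exact IntermediateField.fixingSubgroup_antitone hle hu

/-- One step of the successive approximation. -/
theorem exists_approx_coboundary {j : ℤ} {f : G → ℂ_[p]} (hf : IsCocycle p j f) {M : ℝ}
    (hM : 0 < M) (hbound : ∀ h ∈ (cycInf p).fixingSubgroup, ‖f h‖ ≤ M) :
    ∃ y : ℂ_[p], ‖y‖ ≤ 2 * M ∧
      ∀ h ∈ (cycInf p).fixingSubgroup, ‖f h - coboundary p j y h‖ ≤ M / 2 := by
  classical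
  set K := cycInf p
  obtain ⟨U, hUn, hUo, hU⟩ := exists_normal_small hf (ε := M / 4) (by positivity)
  have := levelGroup_finite (F := K) hUo
  have : Fintype (LevelGroup K U) := Fintype.ofFinite _
  obtain ⟨t, ht, hts⟩ := exists_level_trace (U := U) (le_refl K) one_lt_two
  -- representatives of the level group
  have hrep : ∀ g : LevelGroup K U, ∃ σ : K.fixingSubgroup, levelRes σ = g.1 := fun g => g.2
  choose r hr using hrep
  have hact : ∀ (σ : K.fixingSubgroup) (g : LevelGroup K U), levelRes σ = g.1 →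
      gal (σ : G) ((t : Ω) : ℂ_[p]) = (((g • t : levelField K U) : Ω) : ℂ_[p]) := fun σ g h => by
    rw [gal_coe]
    exact congrArg (fun a : levelField K U ≃ₐ[ℚ_[p]] levelField K U =>
      (((a t : levelField K U) : Ω) : ℂ_[p])) h
  set T : LevelGroup K U → ℂ_[p] := fun g => gal (r g : G) ((t : Ω) : ℂ_[p]) with hT
  have hTsum : ∑ g, T g = 1 := by
    simp only [hT, hact _ _ (hr _)]
    have h := congrArg Subtype.val hts
    rw [AddSubmonoidClass.coe_finsetSum] at h
    exact (map_sum (Completion.coeRingHom : Ω →+* ℂ_[p]) _ _).symm.trans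
      ((congrArg (fun a : Ω => (a : ℂ_[p])) h).trans (map_one Completion.coeRingHom))
  have hTn : ∀ g, ‖T g‖ ≤ 2 := fun g => by
    rw [hT, norm_galC, Completion.norm_coe]
    exact ht
  set y : ℂ_[p] := -∑ g, T g * f (r g : G) with hy
  have hMU : ∀ g, ‖T g * f (r g : G)‖ ≤ 2 * M := fun g => by
    rw [norm_mul]
    exact mul_le_mul (hTn g) (hbound _ (r g).2) (norm_nonneg _) (by norm_num)
  refine ⟨y, ?_, fun h hh => ?_⟩
  · rw [hy, norm_neg]
    exact IsUltrametricDist.norm_sum_le_of_forall_le_of_nonneg (by positivity) fun g _ => hMU g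
  set g₀ : LevelGroup K U := ⟨levelRes ⟨h, hh⟩, ⟨⟨h, hh⟩, rfl⟩⟩
  have hker : ∀ g, ((r (g₀ * g) : G))⁻¹ * (h * (r g : G)) ∈ U := fun g => by
    set u : K.fixingSubgroup := (r (g₀ * g))⁻¹ * (⟨h, hh⟩ * r g)
    have hu : levelRes (U := U) u = 1 := by
      rw [map_mul, map_inv, map_mul, hr, hr]
      exact inv_mul_cancel (g₀.1 * g.1)
    have hmem : (u : G) ∈ IntermediateField.fixingSubgroup
        (IntermediateField.fixedField (K.fixingSubgroup ⊓ U)) := by
      rw [IntermediateField.mem_fixingSubgroup_iff]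
      intro x hx
      exact congrArg Subtype.val (DFunLike.congr_fun hu ⟨x, hx⟩)
    have hcl : IsClosed ((K.fixingSubgroup ⊓ U : Subgroup G) : Set G) :=
      (InfiniteGalois.fixingSubgroup_isClosed K).inter (U.isClosed_of_isOpen hUo)
    rw [InfiniteGalois.fixingSubgroup_fixedField ⟨K.fixingSubgroup ⊓ U, hcl⟩] at hmem
    exact hmem.2
  have hcross : ∀ g, gal h (f (r g : G)) = f (r (g₀ * g) : G) +
      gal (r (g₀ * g) : G) (f (((r (g₀ * g) : G))⁻¹ * (h * (r g : G)))) - f h := fun g => by
    rw [← hf.on_ker (r (g₀ * g)).2, mul_inv_cancel_left, hf.on_ker hh, add_sub_cancel_left]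
  have hTh : ∀ g, gal h (T g) = T (g₀ * g) := fun g => by
    rw [hT]
    dsimp only
    rw [← gal_mul, hact _ _ (hr (g₀ * g))]
    exact hact (⟨h, hh⟩ * r g) (g₀ * g) (by rw [map_mul, hr]; rfl)
  have e : f h - coboundary p j y h =
      ∑ g, T (g₀ * g) * gal (r (g₀ * g) : G) (f (((r (g₀ * g) : G))⁻¹ * (h * (r g : G)))) := by
    have hsum : ∑ g, T g * f (r g : G) = ∑ g, T (g₀ * g) * f (r (g₀ * g) : G) :=
      (Equiv.sum_comp (Equiv.mulLeft g₀) fun g => T g * f (r g : G)).symm
    have h1 : ∑ g, T (g₀ * g) = 1 := (Equiv.sum_comp (Equiv.mulLeft g₀) T).trans hTsum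
    rw [coboundary, twist_eq_one hh, one_mul, hy, map_neg, map_sum]
    simp only [map_mul, hTh, hcross, mul_sub, mul_add, sum_sub_distrib, sum_add_distrib]
    rw [← sum_mul, h1, one_mul, hsum]
    ring
  rw [e]
  refine IsUltrametricDist.norm_sum_le_of_forall_le_of_nonneg (by positivity) fun g _ => ?_
  have h1 : ‖gal (r (g₀ * g) : G) (f (((r (g₀ * g) : G))⁻¹ * (h * (r g : G))))‖ ≤ M / 4 :=
    (norm_galC _ _).trans_le (hU _ (hker g)).le
  rw [norm_mul]
  exact (mul_le_mul (hTn _) h1 (norm_nonneg _) zero_le_two).trans_eq (by ring)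

/-- **A cocycle is a coboundary on the kernel of the cyclotomic character.** -/
theorem exists_coboundary_on_ker {j : ℤ} {f : G → ℂ_[p]} (hf : IsCocycle p j f) :
    ∃ y : ℂ_[p], ∀ h ∈ (cycInf p).fixingSubgroup, f h = coboundary p j y h := by
  classical
  set H := (cycInf p).fixingSubgroup
  obtain ⟨B, hB⟩ := (((InfiniteGalois.fixingSubgroup_isClosed (cycInf p)).isCompact).image
    hf.cont.norm).bddAbove
  set M := max B 1
  have hM : 0 < M := lt_max_of_lt_right one_pos
  let Good : ℕ → ℂ_[p] → Prop := fun k y => ∀ h ∈ H, ‖f h - coboundary p j y h‖ ≤ M * (1 / 2) ^ k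
  have h0 : Good 0 0 := fun h hh => by
    rw [pow_zero, mul_one, coboundary, map_zero, mul_zero, sub_zero, sub_zero]
    exact (hB (Set.mem_image_of_mem _ hh)).trans (le_max_left _ _)
  have hstep : ∀ k y, Good k y → ∃ y', Good (k + 1) y' ∧ dist y y' ≤ 2 * M * (1 / 2) ^ k := by
    intro k y hy
    obtain ⟨d, hd, hdf⟩ := exists_approx_coboundary (hf.sub (coboundary_isCocycle j y))
      (M := M * (1 / 2) ^ k) (by positivity) hy
    refine ⟨y + d, fun h hh => ?_, ?_⟩
    · have e : f h - coboundary p j (y + d) h =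
          f h - coboundary p j y h - coboundary p j d h := by
        rw [coboundary, coboundary, coboundary, map_add]; ring
      rw [e, pow_succ]
      refine (hdf h hh).trans_eq ?_
      ring
    · rw [dist_eq_norm, sub_add_cancel_left, norm_neg]
      exact hd.trans_eq (by ring)
  let Y : ℕ → ℂ_[p] := fun n => Nat.rec 0 (fun k y =>
    if h : Good k y then (hstep k y h).choose else y) n
  have hY : ∀ k, Good k (Y k) := fun k => by
    induction k with
    | zero => exact h0
    | succ k ih =>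
      change Good (k + 1) (if h : Good k (Y k) then (hstep k (Y k) h).choose else Y k)
      rw [dif_pos ih]
      exact (hstep k (Y k) ih).choose_spec.1
  have hdist : ∀ k, dist (Y k) (Y (k + 1)) ≤ 2 * M * (1 / 2) ^ k := fun k => by
    change dist (Y k) (if h : Good k (Y k) then (hstep k (Y k) h).choose else Y k) ≤ _
    rw [dif_pos (hY k)]
    exact (hstep k (Y k) (hY k)).choose_spec.2
  obtain ⟨y, hy⟩ := cauchySeq_tendsto_of_complete
    (cauchySeq_of_le_geometric (1 / 2) (2 * M) (by norm_num) hdist)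
  refine ⟨y, fun h hh => ?_⟩
  have hc : Continuous fun z => coboundary p j z h :=
    ((continuous_const.mul (isometry_gal h).continuous).sub continuous_id)
  have hlim : Tendsto (fun k => ‖f h - coboundary p j (Y k) h‖) atTop
      (𝓝 ‖f h - coboundary p j y h‖) :=
    ((tendsto_const_nhds.sub ((hc.tendsto y).comp hy)).norm)
  have hzero : Tendsto (fun k : ℕ => M * (1 / 2) ^ k) atTop (𝓝 0) := by
    simpa using (tendsto_pow_atTop_nhds_zero_of_lt_one (by norm_num : (0 : ℝ) ≤ 1 / 2)
      (by norm_num)).const_mul M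
  have := le_of_tendsto_of_tendsto' hlim hzero fun k => hY k h hh
  exact sub_eq_zero.1 (norm_le_zero_iff.1 this)

end FA.TateSen
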